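import Fermat.Agent.ModLift.Patch.Interface
import Fermat.Agent.Lowering.P5.Model

/-!
# Regular patterns, and the planes at scalar primes: interface

`TargetHyper` cuts a component with free parameters by an element raising the level. At the scalar
primes the local model is the one of the lowering; `planeIdeal` prescribes at each of them the
unramified or the Steinberg shape.
-/

set_option autoImplicit false

noncomputable section

open IsLocalRing

namespace FLTAgent.ModLift.Patch

open FLTAgent.Lowering.P5

/-- A component with free parameters, cut by an element which lowers the number of parameters, is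
a prime of the support in characteristic zero, with free parameters. -/
def TargetHyper : Prop :=
  ∀ (O : Type) [CommRing O] [IsDomain O] [IsDiscreteValuationRing O]
    [IsAdicComplete (maximalIdeal O) O] [Finite (ResidueField O)] (n s : ℕ)
    (M : Patched O n (s + 1)) (Q I : Ideal (Ser O n)) (f : Ser O n), M.IsComp Q → I ≤ Q →
      GenBound (s + 1) I → f ∈ maximalIdeal (Ser O n) → GenBound s (I ⊔ Ideal.span {f}) →
      M.InSupp (I ⊔ Ideal.span {f}) ∧
        ∀ γ : Ser O s →ₐ[O] Ser O n ⧸ (I ⊔ Ideal.span {f}),
          Function.Surjective γ → Function.Injective γ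

section Plane

variable {O : Type} [CommRing O] {k g : ℕ}

/-- The bracket of two traceless matrices in coordinates `(a, b, e)`. -/
def brk (Y X : Fin 3 → Loc O k g) : Fin 3 → Loc O k g :=
  ![Y 1 * X 2 - Y 2 * X 1, 2 * (Y 0 * X 1 - Y 1 * X 0), 2 * (Y 2 * X 0 - Y 0 * X 2)]

/-- The shape at each scalar prime: outside `τ` inertia is trivial, in `τ` inertia is unipotent on
the eigenline of Frobenius, whose coordinates have square `h t ^ 2`. -/
def planeIdeal (τ : Finset (Fin k)) (h : Fin k → O) : Ideal (Loc O k g) :=
  Ideal.span ({x | ∃ t i, t ∉ τ ∧ x = Xc t i} ∪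
    {x | ∃ t ∈ τ, x = qf (Xc t) ∨ x = qf (Yc t) - MvPowerSeries.C (h t ^ 2) ∨
      ∃ i, x = brk (Yc t) (Xc t) i - MvPowerSeries.C (2 * h t) * Xc t i})

/-- A prime containing the plane which meets the base trivially. -/
structure IsPlanePrime (τ : Finset (Fin k)) (h : Fin k → O) (Q : Ideal (Loc O k g)) : Prop where
  prime : Q.IsPrime
  le : planeIdeal τ h ≤ Q
  base : ∀ x : MvPowerSeries (BaseVar k g) O, ofBase x ∈ Q → x = 0

end Plane

/-- The planes: each is finite over the base, has one prime over the generic point of the base,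
lying below every point off the vertices, and its special fibre meets the curve of the twisted
module at a prime where the inertia coordinates of `τ` do not vanish. -/
def TargetPlane : Prop :=
  ∀ (O : Type) [CommRing O] [IsDomain O] [IsDiscreteValuationRing O]
    [IsAdicComplete (maximalIdeal O) O] [Finite (ResidueField O)],
    (2 : ResidueField O) ≠ 0 → ∀ (k g : ℕ) (τ : Finset (Fin k)) (h : Fin k → O),
      (∀ t, h t ∈ maximalIdeal O) → (∀ t, h t ≠ 0) →
      (∀ Q Q' : Ideal (Loc O k g), IsPlanePrime τ h Q → IsPlanePrime τ h Q' → Q = Q') ∧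
      (∀ w : Loc O k g →ₐ[O] O, (∀ x ∈ planeIdeal τ h, w x = 0) →
        (∀ t ∈ τ, ∃ i, w (Xc t i) ≠ 0) →
        ∃ Q, IsPlanePrime τ h Q ∧ Q ≤ RingHom.ker w) ∧
      ∀ δ : O, δ ∈ maximalIdeal O → δ ≠ 0 → ∀ Q0 : Ideal (Loc O k g), IsCurvePrime δ Q0 →
        ∃ P : Ideal (Loc O k g), P.IsPrime ∧ Q0 ≤ P ∧ planeIdeal τ h ≤ P ∧
          (∀ a ∈ maximalIdeal O, MvPowerSeries.C a ∈ P) ∧ (∀ t ∈ τ, ∃ i, Xc t i ∉ P) ∧
          ∀ x : MvPowerSeries (BaseVar k g) O, ofBase x ∈ P →
            MvPowerSeries.map (residue O) x = 0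

end FLTAgent.ModLift.Patch
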