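import Fermat.Agent.ModLift.Patch.Component
import Fermat.Agent.ModLift.Patch.PlaneInterface

/-!
# A component with free parameters cut by an element
-/

set_option autoImplicit false

noncomputable section

open IsLocalRing

namespace FLTAgent.ModLift.Patch

variable {O : Type} [CommRing O] [IsDomain O] [IsDiscreteValuationRing O]

/-- One more variable raises the dimension. -/
theorem ringKrullDim_ser_succ_le (s : ℕ) :
    ringKrullDim (Ser O s) + 1 ≤ ringKrullDim (Ser O (s + 1)) := by
  have : IsDomain (Ser O (s + 1)) := isDomain_ser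
  set e : Fin s ↪ Fin (s + 1) := Fin.castSuccEmb
  set x : Ser O (s + 1) := MvPowerSeries.X (Fin.last s)
  have hx : MvPowerSeries.killCompl e x = 0 := MvPowerSeries.killCompl_X_eq_zero (by
    rintro ⟨i, hi⟩
    exact (Fin.castSucc_lt_last i).ne hi)
  refine le_trans (add_le_add_left ?_ 1) (ringKrullDim_quotient_succ_le_of_nonZeroDivisor
    (mem_nonZeroDivisors_of_ne_zero (x := x) fun h => by
      simpa [x, MvPowerSeries.coeff_X] using
        congrArg (MvPowerSeries.coeff (Finsupp.single (Fin.last s) 1)) h))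
  exact ringKrullDim_le_of_surjective
    (Ideal.Quotient.lift (Ideal.span {x}) (MvPowerSeries.killCompl e).toRingHom fun a ha => by
      obtain ⟨b, rfl⟩ := Ideal.mem_span_singleton.1 ha
      show MvPowerSeries.killCompl e (x * b) = 0
      rw [map_mul, hx, zero_mul])
    (Ideal.Quotient.lift_surjective_of_surjective _ _ fun b =>
      ⟨MvPowerSeries.rename e b, MvPowerSeries.killCompl_rename_app b⟩)

/-- A component with free parameters cut by an element lowering their number. -/
theorem targetHyper : TargetHyper := by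
  intro O _ _ _ _ _ n s M Q I f hQ hIQ hgen hf hgen'
  obtain ⟨hQI, -⟩ := targetComponent O n (s + 1) M Q I hQ hIQ hgen
  subst hQI
  have : IsDomain (Ser O s) := isDomain_ser
  have : Q.IsPrime := hQ.1.1
  obtain ⟨Q', hQ', hQ'Q⟩ := Patched.exists_lift hQ
  have : Q'.IsPrime := hQ'.1.1
  set φ : Ser O n ⧸ Q →+* M.alg ⧸ Q' := Ideal.Quotient.lift Q
    ((Ideal.Quotient.mk Q').comp M.toAlg) fun x hx =>
      Ideal.Quotient.eq_zero_iff_mem.2 (Ideal.mem_comap.1 (hQ'Q ▸ hx))
  have hφ : φ.Finite := RingHom.Finite.of_comp_finite (f := Ideal.Quotient.mk Q) (by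
    rw [Ideal.Quotient.lift_comp_mk]; exact Patched.finite_component hQ')
  obtain ⟨hgf, hgi⟩ := Patched.ringKrullDim_component hQ'
  have h1 : ringKrullDim (Ser O (s + 1)) ≤ ringKrullDim (M.alg ⧸ Q') := by
    set g := (Ideal.Quotient.mk Q').comp (algebraMap (Ser O (s + 1)) M.alg)
    algebraize [g]
    have : Algebra.IsIntegral (Ser O (s + 1)) (M.alg ⧸ Q') := Algebra.IsIntegral.of_finite _ _
    exact Lowering.P5.le_ringKrullDim_of_isIntegral hgi
  have h2 : ringKrullDim (M.alg ⧸ Q') ≤ ringKrullDim (Ser O n ⧸ Q) := by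
    algebraize [φ]
    have : Algebra.IsIntegral (Ser O n ⧸ Q) (M.alg ⧸ Q') := Algebra.IsIntegral.of_finite _ _
    exact Lowering.P5.ringKrullDim_le_of_isIntegral
  have : IsLocalHom (Ideal.Quotient.mk Q) :=
    IsLocalHom.of_surjective _ Ideal.Quotient.mk_surjective
  set fb := Ideal.Quotient.mk Q f
  have : IsLocalRing (Ser O n ⧸ Q) :=
    IsLocalRing.of_surjective' _ Ideal.Quotient.mk_surjective
  have h3 : ringKrullDim (Ser O n ⧸ Q) ≤
      ringKrullDim ((Ser O n ⧸ Q) ⧸ Ideal.span {fb}) + 1 := by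
    have h := ringKrullDim_le_ringKrullDim_quotient_add_card ({fb} : Finset (Ser O n ⧸ Q)) (by
      rw [Finset.coe_singleton, Set.singleton_subset_iff]
      rw [SetLike.mem_coe, IsLocalRing.ringJacobson_eq_maximalIdeal]
      exact ((mem_maximalIdeal fb).2 fun hu =>
        (mem_maximalIdeal f).1 hf ((isUnit_map_iff (Ideal.Quotient.mk Q) f).1 hu)))
    rwa [Finset.coe_singleton, Finset.card_singleton, Nat.cast_one] at h
  have h4 : ringKrullDim ((Ser O n ⧸ Q) ⧸ Ideal.span {fb}) ≤
      ringKrullDim (Ser O n ⧸ (Q ⊔ Ideal.span {f})) :=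
    ringKrullDim_le_of_surjective
      (Ideal.Quotient.lift _ ((Ideal.Quotient.mk (Ideal.span {fb})).comp (Ideal.Quotient.mk Q))
        fun x hx => by
          obtain ⟨a, ha, b, hb, rfl⟩ := Submodule.mem_sup.1 hx
          rw [map_add, RingHom.comp_apply, RingHom.comp_apply,
            Ideal.Quotient.eq_zero_iff_mem.2 ha, map_zero, zero_add,
            Ideal.Quotient.eq_zero_iff_mem]
          obtain ⟨c, rfl⟩ := Ideal.mem_span_singleton.1 hb
          rw [map_mul]
          exact Ideal.mul_mem_right _ _ (Ideal.mem_span_singleton_self fb))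
      (Ideal.Quotient.lift_surjective_of_surjective _ _
        (Ideal.Quotient.mk_surjective.comp Ideal.Quotient.mk_surjective))
  have hinj : ∀ γ : Ser O s →ₐ[O] Ser O n ⧸ (Q ⊔ Ideal.span {f}),
      Function.Surjective γ → Function.Injective γ := by
    intro γ hγ
    refine (injective_iff_map_eq_zero γ).2 fun x hx => by_contra fun hx0 => ?_
    have h5 : ringKrullDim (Ser O n ⧸ (Q ⊔ Ideal.span {f})) ≤
        ringKrullDim (Ser O s ⧸ Ideal.span {x}) :=
      ringKrullDim_le_of_surjective
        (Ideal.Quotient.lift (Ideal.span {x}) γ.toRingHom fun a ha => by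
          obtain ⟨b, rfl⟩ := Ideal.mem_span_singleton.1 ha
          show γ (x * b) = 0
          rw [map_mul, hx, zero_mul])
        (Ideal.Quotient.lift_surjective_of_surjective _ _ hγ)
    have h6 := ((ringKrullDim_ser_succ_le (O := O) s).trans (h1.trans (h2.trans h3))).trans
      ((add_le_add_left (h4.trans h5) 1).trans
        (ringKrullDim_quotient_succ_le_of_nonZeroDivisor (mem_nonZeroDivisors_of_ne_zero hx0)))
    obtain ⟨m, hm⟩ : ∃ m : ℕ, ringKrullDim (Ser O s) = m := by
      obtain ⟨a, ha⟩ := WithBot.ne_bot_iff_exists.1 (ringKrullDim_ne_bot (R := Ser O s))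
      have : a ≠ ⊤ := fun h => ringKrullDim_ne_top (R := Ser O s) (by rw [← ha, h]; rfl)
      obtain ⟨m, rfl⟩ := ENat.ne_top_iff_exists.1 this
      exact ⟨m, ha.symm⟩
    rw [hm] at h6
    norm_cast at h6
    omega
  refine ⟨⟨?_, hQ.1.2.trans le_sup_left⟩, hinj⟩
  obtain ⟨γ, hγ⟩ := hgen'
  exact (Ideal.Quotient.isDomain_iff_prime _).1
    (MulEquiv.isDomain (Ser O s)
      (RingEquiv.ofBijective γ.toRingHom ⟨hinj γ hγ, hγ⟩).symm.toMulEquiv)

end FLTAgent.ModLift.Patch
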