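import Fermat.Agent.ModLift.Patch.Component
import Mathlib.LinearAlgebra.Matrix.Charpoly.LinearMap

/-!
# Raising the level on supports

If the new part missed a prime at which the determinant of the composite of the degeneracy maps
vanishes, the composite would be surjective there, which the lower module excludes.
-/

set_option autoImplicit false

noncomputable section

open IsLocalRing

namespace FLTAgent.ModLift.Patch

/-- A system of two equations which is singular at a prime cannot be solved for every right hand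
side in a faithful finite module, up to a factor outside the prime. -/
theorem mem_of_forall_exists_apply {T : Type*} [CommRing T] {V : Type*} [AddCommGroup V]
    [Module T V] [Module.Finite T V] [FaithfulSMul T V] (m : Ideal T) [hm : m.IsPrime]
    (A : Matrix (Fin 2) (Fin 2) T) (hdet : A.det ∈ m) (x : T)
    (hsurj : ∀ w : Fin 2 → V, ∃ u : Fin 2 → V, ∀ b, x • w b = ∑ c, A b c • u c) : x ∈ m := by
  by_contra hx
  -- a row killing the system modulo the prime
  obtain ⟨r, b₀, hr, hrA⟩ : ∃ (r : Fin 2 → T) (b₀ : Fin 2), r b₀ ∉ m ∧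
      ∀ c, ∑ b, r b * A b c ∈ m := by
    by_cases h00 : ∀ b c, A b c ∈ m
    · exact ⟨fun b => if b = 0 then 1 else 0, 0, fun h => hm.ne_top (m.eq_top_of_isUnit_mem h (by simp)),
        fun c => by simpa using h00 0 c⟩
    push Not at h00
    obtain ⟨b, c, hbc⟩ := h00
    have hrow : ∀ i j, ∑ k, A.adjugate i k * A k j ∈ m := fun i j => by
      rw [← Matrix.mul_apply, Matrix.adjugate_mul, Matrix.smul_apply, smul_eq_mul]
      exact Ideal.mul_mem_right _ _ hdet
    rw [Matrix.det_fin_two] at hdet
    fin_cases b <;> fin_cases c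
    · exact ⟨A.adjugate 1, 1, by simpa [Matrix.adjugate_fin_two] using hbc, hrow 1⟩
    · exact ⟨A.adjugate 0, 1, by simpa [Matrix.adjugate_fin_two] using hbc, hrow 0⟩
    · exact ⟨A.adjugate 1, 0, by simpa [Matrix.adjugate_fin_two] using hbc, hrow 1⟩
    · exact ⟨A.adjugate 0, 0, by simpa [Matrix.adjugate_fin_two] using hbc, hrow 0⟩
  -- the element `r b₀ * x` maps the module into `m` times it
  have key : ∀ v : V, (r b₀ * x) • v ∈ m • (⊤ : Submodule T V) := by
    intro v
    obtain ⟨u, hu⟩ := hsurj (Pi.single b₀ v)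
    have h1 : (r b₀ * x) • v = ∑ b, r b • x • (Pi.single b₀ v : Fin 2 → V) b := by
      rw [Finset.sum_eq_single b₀ (fun b _ hb => by simp [Pi.single_eq_of_ne hb]) (by simp),
        Pi.single_eq_same, mul_smul]
    rw [h1]
    simp only [hu, Finset.smul_sum, smul_smul]
    rw [Finset.sum_comm]
    refine Submodule.sum_mem _ fun c _ => ?_
    rw [← Finset.sum_smul]
    exact Submodule.smul_mem_smul (hrA c) trivial
  obtain ⟨p, hp, hdeg, hcoeff, hev⟩ :=
    LinearMap.exists_monic_and_natDegree_eq_and_coeff_mem_pow_and_aeval_eq_zero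
      T ((r b₀ * x) • LinearMap.id (M := V)) m (by
      rintro _ ⟨v, rfl⟩
      exact key v)
  have heval : p.eval (r b₀ * x) = 0 := by
    refine FaithfulSMul.eq_of_smul_eq_smul (α := V) fun v => ?_
    rw [zero_smul]
    have h2 := LinearMap.congr_fun hev v
    rw [show (r b₀ * x) • LinearMap.id (M := V) = algebraMap T (Module.End T V) (r b₀ * x) from
      LinearMap.ext fun _ => rfl, Polynomial.aeval_algebraMap_apply,
      Polynomial.coe_aeval_eq_eval] at h2
    exact h2
  rw [Polynomial.eval_eq_sum_range, Finset.sum_range_succ, hp.coeff_natDegree, one_mul] at heval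
  have hpow : (r b₀ * x) ^ p.natDegree ∈ m := by
    rw [eq_neg_of_add_eq_zero_right heval]
    refine m.neg_mem (m.sum_mem fun k hk => m.mul_mem_right _ ?_)
    exact Ideal.pow_le_self (Nat.sub_ne_zero_of_lt (Finset.mem_range.1 hk)) (hcoeff k)
  rcases hm.mem_or_mem (hm.mem_of_pow_mem _ hpow) with h | h
  exacts [hr h, hx h]

/-- An element scaled into the range of a map which is injective modulo the maximal ideal lies in
the range. -/
theorem mem_range_of_smul_mem {S : Type*} [CommRing S] [IsLocalRing S] [IsDomain S] {ι κ : Type*}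
    [Fintype ι] [Fintype κ] [DecidableEq ι] [DecidableEq κ] (i : (ι → S) →ₗ[S] κ → S)
    (hinj : ∀ v, (∀ c, i v c ∈ maximalIdeal S) → ∀ b, v b ∈ maximalIdeal S)
    {a : S} (ha : a ≠ 0) {y : κ → S} (hy : a • y ∈ LinearMap.range i) : y ∈ LinearMap.range i := by
  set E := LinearMap.toMatrix' i
  set k := ResidueField S
  have hk : Function.Injective (Matrix.toLin' (E.map (residue S))) := by
    rw [injective_iff_map_eq_zero]
    intro w hw
    choose v hv using fun b => residue_surjective (R := S) (w b)
    have h1 : ∀ c, i v c ∈ maximalIdeal S := fun c => by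
      rw [← residue_eq_zero_iff, ← LinearMap.toMatrix'_mulVec, RingHom.map_mulVec]
      have := congrFun hw c
      rw [Matrix.toLin'_apply, Pi.zero_apply] at this
      rw [show residue S ∘ v = w from funext hv]
      exact this
    ext b
    rw [← hv b]
    exact (residue_eq_zero_iff _).2 (hinj v h1 b)
  obtain ⟨L0, hL0⟩ := LinearMap.exists_leftInverse_of_injective _ (LinearMap.ker_eq_bot.2 hk)
  choose L hL using fun b c => residue_surjective (R := S) (LinearMap.toMatrix' L0 b c)
  have hres : (Matrix.of L * E).map (residue S) = 1 := by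
    rw [Matrix.map_mul, show (Matrix.of L).map (residue S) = LinearMap.toMatrix' L0 from
      Matrix.ext hL, ← LinearMap.toMatrix'_toLin' (E.map (residue S)), ← LinearMap.toMatrix'_comp,
      hL0, LinearMap.toMatrix'_id]
  have hunit : IsUnit (Matrix.of L * E).det := by
    by_contra hnu
    have h0 : residue S (Matrix.of L * E).det = 0 := (residue_eq_zero_iff _).2 hnu
    rw [RingHom.map_det, RingHom.mapMatrix_apply, hres, Matrix.det_one] at h0
    exact one_ne_zero h0
  obtain ⟨u, hu⟩ := hy
  have hEu : E.mulVec u = a • y := by rw [LinearMap.toMatrix'_mulVec]; exact hu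
  refine ⟨(Matrix.of L * E)⁻¹.mulVec ((Matrix.of L).mulVec y), ?_⟩
  refine smul_right_injective _ ha ?_
  show a • _ = a • y
  rw [← map_smul, ← Matrix.mulVec_smul, ← Matrix.mulVec_smul, ← hEu, Matrix.mulVec_mulVec,
    Matrix.mulVec_mulVec, Matrix.mul_assoc, Matrix.nonsing_inv_mul _ hunit, Matrix.one_mulVec, hu, hEu]

namespace Patched

variable {O : Type} [CommRing O] [IsDomain O] [IsDiscreteValuationRing O] {n s : ℕ}
  (M : Patched O n s)

theorem alg_smul (a : M.alg) (v : Fin M.d → Ser O s) :
    a • v = (a : Matrix (Fin M.d) (Fin M.d) (Ser O s)).mulVec v := rfl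

instance : IsScalarTower (Ser O s) M.alg (Fin M.d → Ser O s) :=
  Subalgebra.isScalarTower_mid M.alg

instance : Module.Finite M.alg (Fin M.d → Ser O s) := Module.Finite.of_restrictScalars_finite (Ser O s) _ _

instance : FaithfulSMul M.alg (Fin M.d → Ser O s) :=
  ⟨fun h => Subtype.ext (Matrix.toLin'.injective (LinearMap.ext fun v => h v))⟩

end Patched

/-- Raising the level. -/
theorem targetRaise : TargetRaise := by
  intro O _ _ _ _ _ n s M N D P J hM hdet hJ
  have : P.IsPrime := hM.1
  have : IsDomain (Ser O s) := isDomain_ser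
  -- the elements killing the cokernel
  set K : Ideal N.alg :=
    { carrier := {t | ∀ v : Fin N.d → Ser O s, t • v ∈ LinearMap.range D.i}
      add_mem' := fun {a b} ha hb v => by rw [add_smul]; exact add_mem (ha v) (hb v)
      zero_mem' := fun v => by rw [zero_smul]; exact zero_mem _
      smul_mem' := fun a b hb v => by rw [smul_eq_mul, mul_comm, mul_smul]; exact hb _ } with hK
  -- it lies below the point
  have hKP : K.comap N.toAlg ≤ P := by
    intro x hx
    obtain ⟨m, hm, hmP⟩ := Patched.exists_prime_over hM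
    rw [← hmP, Ideal.mem_comap]
    refine mem_of_forall_exists_apply (V := Fin M.d → Ser O s) m (D.A.map M.toAlg) ?_ _
      fun w => ?_
    · rw [← hmP, Ideal.mem_comap, RingHom.map_det] at hdet
      exact hdet
    · obtain ⟨v, hv⟩ := D.j_surj w
      obtain ⟨u, hu⟩ := hx v
      refine ⟨u, fun b => ?_⟩
      have h1 : D.j (D.i u) b = M.toAlg x • w b := by
        rw [hu, Patched.alg_smul, Patched.coe_toAlg, D.j_act, hv]
        rfl
      rw [← h1, D.comp]
      rfl
  -- a component of the cokernel through the point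
  obtain ⟨q, hq, hqP⟩ := Ideal.exists_minimalPrimes_le hKP
  obtain ⟨Q, hQK, hQq⟩ := Ideal.exists_minimalPrimes_comap_eq N.toAlg q hq
  have : Q.IsPrime := hQK.1.1
  have hreg : ∀ c : Ser O s, c ≠ 0 → ∀ t : N.alg, algebraMap (Ser O s) N.alg c * t ∈ K →
      t ∈ K := by
    intro c hc t ht v
    have h1 := ht v
    rw [mul_smul, algebraMap_smul] at h1
    set e : (Fin 2 × Fin M.d → Ser O s) ≃ₗ[Ser O s] (Fin 2 → Fin M.d → Ser O s) :=
      LinearEquiv.curry (Ser O s) (Ser O s) (Fin 2) (Fin M.d)
    have hr : ∀ z, z ∈ LinearMap.range D.i ↔ z ∈ LinearMap.range (D.i ∘ₗ e.toLinearMap) := fun z => by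
      rw [LinearMap.range_comp, LinearEquiv.range, Submodule.map_top]
    rw [hr] at h1 ⊢
    exact mem_range_of_smul_mem (D.i ∘ₗ e.toLinearMap) (fun w hw b => D.i_inj _ hw b.1 b.2) hc h1
  have hQS : ∀ c : Ser O s, algebraMap (Ser O s) N.alg c ∈ Q → c = 0 := by
    intro c hc
    by_contra hc0
    have hmap : Q.map (Ideal.Quotient.mk K) ∈ minimalPrimes (N.alg ⧸ K) := by
      rw [minimalPrimes_eq_minimals]
      refine ⟨Ideal.isPrime_map_quotientMk_of_isPrime hQK.1.2, fun Q' hQ' hle => ?_⟩
      have h2 : Q ≤ Q'.comap (Ideal.Quotient.mk K) := hQK.2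
        ⟨hQ'.comap _, fun t ht => by
          rw [Ideal.mem_comap, Ideal.Quotient.eq_zero_iff_mem.2 ht]; exact zero_mem _⟩ (by
          intro t ht
          have := hle (Ideal.mem_comap.1 ht)
          rw [Ideal.mem_quotient_iff_mem hQK.1.2] at this
          exact this)
      exact Ideal.map_le_iff_le_comap.2 h2
    refine notMem_nonZeroDivisors_of_mem_mem_minimalPrimes (R := N.alg ⧸ K)
      (Ideal.mem_map_of_mem _ hc) hmap ?_
    rw [mem_nonZeroDivisors_iff_right]
    intro t ht
    obtain ⟨t, rfl⟩ := Ideal.Quotient.mk_surjective t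
    rw [← map_mul, Ideal.Quotient.eq_zero_iff_mem, mul_comm] at ht
    exact Ideal.Quotient.eq_zero_iff_mem.2 (hreg c hc0 t ht)
  -- it is a component of the algebra
  have hQmin : Q ∈ minimalPrimes N.alg := by
    rw [minimalPrimes_eq_minimals]
    refine ⟨hQK.1.1, fun Q' hQ' hle => ?_⟩
    have : Q'.IsPrime := hQ'
    by_contra hne
    have hlt : Q' < Q := lt_of_le_not_ge hle hne
    have hc := Ideal.IsIntegral.comap_lt_comap (R := Ser O s) (I := Q') (J := Q) hlt
    refine hc.not_ge fun c hcQ => ?_
    rw [Ideal.mem_comap, hQS c hcQ, map_zero]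
    exact zero_mem _
  have hker : RingHom.ker N.act ≤ q := by
    rw [← N.ker_toAlg, ← hQq]
    intro x hx
    rw [Ideal.mem_comap, RingHom.mem_ker.1 hx]
    exact zero_mem _
  have hqprime : q.IsPrime := hq.1.1
  refine ⟨q, ⟨⟨hqprime, hker⟩, fun q' hq' hle => ?_⟩, fun x hx => ?_, hqP⟩
  · have : q'.IsPrime := hq'.1
    obtain ⟨q'', hq'', hle'⟩ := Ideal.exists_minimalPrimes_le hq'.2
    obtain ⟨Q', hQ', hQ'q⟩ := Patched.exists_lift (M := N) hq''
    have : Q'.IsPrime := hQ'.1.1
    have : q''.IsPrime := hq''.1.1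
    set R := Ser O n ⧸ q''
    have : IsLocalRing R :=
      IsLocalRing.of_surjective' (Ideal.Quotient.mk q'') Ideal.Quotient.mk_surjective
    have : Nontrivial R := Ideal.Quotient.nontrivial_iff.2 ‹q''.IsPrime›.ne_top
    set i : R →+* N.alg ⧸ Q' := Ideal.Quotient.lift q'' ((Ideal.Quotient.mk Q').comp N.toAlg)
      fun x hx => Ideal.Quotient.eq_zero_iff_mem.2 (Ideal.mem_comap.1 (hQ'q ▸ hx))
    have hi : Function.Injective i := by
      refine (injective_iff_map_eq_zero _).2 fun y hy => ?_
      obtain ⟨y, rfl⟩ := Ideal.Quotient.mk_surjective y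
      rw [Ideal.Quotient.lift_mk, RingHom.comp_apply, Ideal.Quotient.eq_zero_iff_mem] at hy
      exact Ideal.Quotient.eq_zero_iff_mem.2 (hQ'q ▸ Ideal.mem_comap.2 hy)
    have hif : i.Finite := RingHom.Finite.of_comp_finite (f := Ideal.Quotient.mk q'') (by
      rw [Ideal.Quotient.lift_comp_mk]; exact Patched.finite_component hQ')
    have hdim : ringKrullDim R ≤ ringKrullDim (Ser O s) := by
      have h1 : ringKrullDim R ≤ ringKrullDim (N.alg ⧸ Q') := by
        algebraize [i]
        have : Algebra.IsIntegral R (N.alg ⧸ Q') := Algebra.IsIntegral.of_finite _ _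
        exact Lowering.P5.le_ringKrullDim_of_isIntegral hi
      refine h1.trans ?_
      exact Lowering.P5.ringKrullDim_le_of_isIntegral
    set f : R →+* N.alg ⧸ Q := Ideal.Quotient.lift q'' ((Ideal.Quotient.mk Q).comp N.toAlg)
      fun x hx => Ideal.Quotient.eq_zero_iff_mem.2 (Ideal.mem_comap.1 (hQq ▸ hle (hle' hx)))
    have hff : f.Finite := RingHom.Finite.of_comp_finite (f := Ideal.Quotient.mk q'') (by
      rw [Ideal.Quotient.lift_comp_mk]; exact Patched.finite_component hQmin)
    obtain ⟨hgf, hgi⟩ := Patched.ringKrullDim_component hQmin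
    have hfi := injective_of_finite_of_dim hdim f hff _ hgf hgi
    intro x hx
    refine hle' (Ideal.Quotient.eq_zero_iff_mem.1 (hfi ?_))
    rw [map_zero, Ideal.Quotient.lift_mk, RingHom.comp_apply, Ideal.Quotient.eq_zero_iff_mem]
    exact Ideal.mem_comap.1 (hQq ▸ hx)
  · obtain ⟨e, he⟩ := hJ x hx
    refine hqprime.mem_of_pow_mem e ?_
    rw [← hQq, Ideal.mem_comap]
    refine hQK.1.2 fun v => ?_
    rw [Patched.alg_smul, Patched.coe_toAlg, map_pow]
    exact he v

end FLTAgent.ModLift.Patch
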