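import Fermat.Agent.ModLift.Patch.Compactness

/-!
# Evaluation of power series in complete local algebras
-/

set_option autoImplicit false

noncomputable section

open IsLocalRing

namespace FLTAgent.ModLift.Patch

/-- Power series can be evaluated at elements of the maximal ideal of a complete local algebra. -/
theorem exists_evalAlgHom {O σ R : Type} [CommRing O] [Finite σ] [CommRing R] [IsLocalRing R]
    [Algebra O R] [IsAdicComplete (maximalIdeal R) R] (a : σ → R)
    (ha : ∀ v, a v ∈ maximalIdeal R) :
    ∃ φ : MvPowerSeries σ O →ₐ[O] R, ∀ v, φ (MvPowerSeries.X v) = a v := by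
  set J := maximalIdeal R
  have hle : ∀ m, ∀ p ∈ MvPolynomial.idealOfVars σ O ^ m,
      MvPolynomial.aeval a p ∈ J ^ m := by
    intro m p hp
    have h : (MvPolynomial.idealOfVars σ O).map (MvPolynomial.aeval (R := O) a).toRingHom ≤ J := by
      rw [MvPolynomial.idealOfVars, Ideal.map_span, Ideal.span_le]
      rintro _ ⟨_, ⟨v, rfl⟩, rfl⟩
      simpa using ha v
    refine Ideal.pow_right_mono h m ?_
    rw [← Ideal.map_pow]
    exact Ideal.mem_map_of_mem _ hp
  let φ : ∀ m, MvPowerSeries σ O →ₐ[O] R ⧸ J ^ (m + 1) := fun m =>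
    (Ideal.Quotient.liftₐ (MvPolynomial.idealOfVars σ O ^ (m + 1))
      ((Ideal.Quotient.mkₐ O (J ^ (m + 1))).comp (MvPolynomial.aeval a)) fun p hp =>
        Ideal.Quotient.eq_zero_iff_mem.2 (hle _ p hp)).comp
      ((MvPowerSeries.truncTotalAlgHom σ O (m + 1)).restrictScalars O)
  have hφ : ∀ m p, φ m p =
      Ideal.Quotient.mk _ (MvPolynomial.aeval a (MvPowerSeries.truncTotal (m + 1) p)) := fun m p => rfl
  have hc : ∀ p m n (h : m ≤ n), red J h (φ n p) = φ m p := by
    intro p m n h
    rw [hφ, hφ, red_mk, Ideal.Quotient.eq, ← map_sub]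
    exact hle _ _ (MvPowerSeries.truncTotal_sub_truncTotal_mem_pow_idealOfVars (by omega) le_rfl p)
  choose z hz using fun p => exists_lift_of_compatible J (fun m => φ m p) (hc p)
  have hext : ∀ {u v : R}, (∀ m, Ideal.Quotient.mk (J ^ (m + 1)) u = Ideal.Quotient.mk _ v) →
      u = v := fun h => eq_of_forall_mk J h
  refine ⟨{ toFun := z
            map_one' := hext fun m => by rw [hz, map_one, map_one]
            map_mul' := fun p q => hext fun m => by rw [hz, map_mul, map_mul, hz, hz]
            map_zero' := hext fun m => by rw [hz, map_zero, map_zero]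
            map_add' := fun p q => hext fun m => by rw [hz, map_add, map_add, hz, hz]
            commutes' := fun c => hext fun m => by rw [hz, (φ m).commutes]; rfl },
    fun v => hext fun m => ?_⟩
  show Ideal.Quotient.mk _ (z (MvPowerSeries.X v)) = _
  rw [hz]
  have hX : algebraMap (MvPolynomial σ O) (MvPowerSeries σ O) (MvPolynomial.X v) =
      MvPowerSeries.X v := by simp [MvPowerSeries.algebraMap_apply']
  have h := (MvPowerSeries.truncTotalAlgHom σ O (m + 1)).commutes (MvPolynomial.X v)
  rw [hX] at h
  show (Ideal.Quotient.lift (MvPolynomial.idealOfVars σ O ^ (m + 1))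
    ((Ideal.Quotient.mkₐ O (J ^ (m + 1))).comp (MvPolynomial.aeval (R := O) a)).toRingHom
      fun p hp => Ideal.Quotient.eq_zero_iff_mem.2 (hle _ p hp))
    (MvPowerSeries.truncTotalAlgHom σ O (m + 1) (MvPowerSeries.X v)) = _
  rw [h]
  show Ideal.Quotient.mk _ (MvPolynomial.aeval a (MvPolynomial.X v)) = _
  rw [MvPolynomial.aeval_X]

end FLTAgent.ModLift.Patch
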