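import Fermat.Agent.ModLift.Patch.Interface

/-!
# From finite levels to patched modules: interface

`Shape` fixes what does not depend on the level: the nodes with their base algebras, the degeneracy
pairs with the matrices of the composites, the congruent pairs, relations, and the patterns with
their numbers of generators. `Level` is what one level of auxiliary primes gives modulo a power of
the maximal ideal, `Limit` the patched outcome.
-/

set_option autoImplicit false

noncomputable section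

open IsLocalRing

namespace FLTAgent.ModLift.Patch

variable (O : Type) [CommRing O] [IsDomain O] [IsDiscreteValuationRing O]

/-- What is common to all levels. -/
structure Shape where
  n : ℕ
  s : ℕ
  w : Fin s → Ser O s
  w_dvd : ∀ j, w j ∣ MvPowerSeries.X j ^ 2
  /-- The nodes. -/
  nodes : ℕ
  d : Fin nodes → ℕ
  d_pos : ∀ v, 0 < d v
  /-- The algebra acting on the base of a node. -/
  A0 : ∀ v, Subalgebra O (Matrix (Fin (d v)) (Fin (d v)) O)
  A0_comm : ∀ v, ∀ a ∈ A0 v, ∀ b ∈ A0 v, a * b = b * a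
  expo : ℕ
  /-- Nilpotent relations. -/
  rels : Fin nodes → Set (Ser O n)
  /-- The pairs of degeneracy maps. -/
  pairs : ℕ
  src : Fin pairs → Fin nodes
  tgt : Fin pairs → Fin nodes
  comp : Fin pairs → Matrix (Fin 2) (Fin 2) (Ser O n)
  /-- Elements which map the upper module into the lower one. -/
  old : Fin pairs → Set (Ser O n)
  /-- The congruent pairs. -/
  congrs : ℕ
  cleft : Fin congrs → Fin nodes
  cright : Fin congrs → Fin nodes
  cdim : ∀ c, d (cleft c) = d (cright c)
  /-- The patterns: nodes, whether the point is taken along, equations, number of generators. -/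
  pats : ℕ
  patNodes : Fin pats → Finset (Fin nodes)
  patPoint : Fin pats → Bool
  patEqs : Fin pats → Finset (Ser O n)
  patGens : Fin pats → ℕ
  /-- Elements with a prescribed constant term of the action at a node. -/
  fix : ∀ v, Set (Ser O n × Matrix (Fin (d v)) (Fin (d v)) O)
  /-- Elements with a prescribed value at the point. -/
  ptFix : Set (Ser O n × O)

variable {O}

namespace Shape

variable (P : Shape O)

/-- Coefficients modulo a power of the maximal ideal. -/
abbrev CoefMod (m : ℕ) : Type := Ser O P.s ⧸ maximalIdeal (Ser O P.s) ^ m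

/-- What one level supplies modulo the `m`th power. -/
structure Level (m : ℕ) where
  act : ∀ v, Ser O P.n →ₐ[O] Matrix (Fin (P.d v)) (Fin (P.d v)) (P.CoefMod m)
  ξ : Fin P.s → Ser O P.n
  ξ_mem : ∀ j, ξ j ∈ maximalIdeal (Ser O P.n)
  ξ_rel : ∀ v j, (act v (ξ j) - algebraMap (P.CoefMod m) _ (Ideal.Quotient.mk _ (P.w j))) ^ P.expo = 0
  rel : ∀ v, ∀ x ∈ P.rels v, act v x ^ P.expo = 0
  /-- The base of a node. -/
  base : ∀ v x, ∃ a ∈ P.A0 v, ∀ i j, ∃ b : Ser O P.s, act v x i j = Ideal.Quotient.mk _ b ∧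
    MvPowerSeries.constantCoeff b - (a : Matrix (Fin (P.d v)) (Fin (P.d v)) O) i j ∈
      maximalIdeal O ^ m
  fix_spec : ∀ v, ∀ xa ∈ P.fix v, ∀ i j, ∃ b : Ser O P.s,
    act v xa.1 i j = Ideal.Quotient.mk _ b ∧
      MvPowerSeries.constantCoeff b - xa.2 i j ∈ maximalIdeal O ^ m
  up : ∀ e, (Fin 2 → Fin (P.d (P.src e)) → P.CoefMod m) →ₗ[P.CoefMod m]
    Fin (P.d (P.tgt e)) → P.CoefMod m
  down : ∀ e, (Fin (P.d (P.tgt e)) → P.CoefMod m) →ₗ[P.CoefMod m]
    Fin 2 → Fin (P.d (P.src e)) → P.CoefMod m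
  up_act : ∀ e x v, up e (fun b => (act (P.src e) x).mulVec (v b)) =
    (act (P.tgt e) x).mulVec (up e v)
  down_act : ∀ e x v, down e ((act (P.tgt e) x).mulVec v) =
    fun b => (act (P.src e) x).mulVec (down e v b)
  up_inj : ∀ e v, (∀ c, ¬ IsUnit (up e v c)) → ∀ b c, ¬ IsUnit (v b c)
  down_surj : ∀ e, Function.Surjective (down e)
  comp_eq : ∀ e v b, down e (up e v) b =
    ∑ c, (act (P.src e) (P.comp e b c)).mulVec (v c)
  old_range : ∀ e, ∀ x ∈ P.old e, ∀ v,
    ((act (P.tgt e) x ^ P.expo).mulVec v) ∈ LinearMap.range (up e)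
  congr : ∀ c x i j, act (P.cleft c) x i j -
    act (P.cright c) x (Fin.cast (P.cdim c) i) (Fin.cast (P.cdim c) j) ∈
      (maximalIdeal O).map (algebraMap O (P.CoefMod m))
  /-- The point. -/
  pt : Ser O P.n →ₐ[O] O ⧸ maximalIdeal O ^ m
  pt_ξ : ∀ j, pt (ξ j) = 0
  pt_fix : ∀ xc ∈ P.ptFix, pt xc.1 = Ideal.Quotient.mk _ xc.2
  /-- The generators of a pattern. -/
  gen : ∀ u, Ser O (P.patGens u) →ₐ[O] Ser O P.n
  gen_spec : ∀ u x, ∃ y, ∃ z ∈ Ideal.span (P.patEqs u : Set (Ser O P.n)),
    (∀ v ∈ P.patNodes u, act v (x - gen u y - z) = 0) ∧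
      (P.patPoint u = true → pt (x - gen u y - z) = 0)

/-- The patched outcome. -/
structure Limit where
  node : Fin P.nodes → Patched O P.n P.s
  d_eq : ∀ v, (node v).d = P.d v
  rel : ∀ v, ∀ x ∈ P.rels v, IsNilpotent ((node v).act x)
  pair : ∀ e, Pair (node (P.src e)) (node (P.tgt e))
  pair_A : ∀ e, (pair e).A = P.comp e
  old_range : ∀ e, ∀ x ∈ P.old e, ∃ l : ℕ, ∀ v,
    (((node (P.tgt e)).act x ^ l).mulVec v) ∈ LinearMap.range (pair e).i
  special : ∀ c x i j, (node (P.cleft c)).act x i j -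
    (node (P.cright c)).act x (Fin.cast (((d_eq _).trans (P.cdim c)).trans (d_eq _).symm) i)
      (Fin.cast (((d_eq _).trans (P.cdim c)).trans (d_eq _).symm) j) ∈
        (maximalIdeal O).map (algebraMap O (Ser O P.s))
  /-- The point. -/
  pt : Ser O P.n →ₐ[O] O
  pt_ξ : ∀ v j, pt ((node v).ξ j) = 0
  fix_spec : ∀ v, ∀ xa ∈ P.fix v, ∀ i j, MvPowerSeries.constantCoeff
    ((node v).act xa.1 (Fin.cast (d_eq v).symm i) (Fin.cast (d_eq v).symm j)) = xa.2 i j
  pt_fix : ∀ xc ∈ P.ptFix, pt xc.1 = xc.2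
  gen : ∀ u, GenBound (P.patGens u)
    ((⨅ v ∈ P.patNodes u, RingHom.ker (node v).act) ⊓
        (if P.patPoint u then RingHom.ker pt else ⊤) ⊔
      Ideal.span (P.patEqs u : Set (Ser O P.n)))
  /-- A point of the support is a character of the base algebra. -/
  char : ∀ v, (node v).InSupp (RingHom.ker pt) → ∀ act0 : Ser O P.n →ₐ[O] P.A0 v,
    (∀ x i j, MvPowerSeries.constantCoeff ((node v).act x (Fin.cast (d_eq v).symm i)
      (Fin.cast (d_eq v).symm j)) = (act0 x : Matrix (Fin (P.d v)) (Fin (P.d v)) O) i j) →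
    ∀ x, act0 x = 0 → pt x = 0
  base : ∀ v, ∃ act0 : Ser O P.n →ₐ[O] P.A0 v,
    ∀ x i j, MvPowerSeries.constantCoeff ((node v).act x (Fin.cast (d_eq v).symm i)
      (Fin.cast (d_eq v).symm j)) = (act0 x : Matrix (Fin (P.d v)) (Fin (P.d v)) O) i j

end Shape

/-- Levels modulo every power give a patched outcome. -/
def TargetLimit : Prop :=
  ∀ (O : Type) [CommRing O] [IsDomain O] [IsDiscreteValuationRing O]
    [IsAdicComplete (maximalIdeal O) O] [Finite (ResidueField O)] (P : Shape O),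
    (∀ m, 0 < m → Nonempty (P.Level m)) → Nonempty P.Limit

end FLTAgent.ModLift.Patch
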