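import Fermat.Agent.ModLift.Patch.Interface
import Fermat.Agent.Lowering.P5.Series

/-!
# The algebra of a patched module

It is finite over the coefficient ring, which acts on it without torsion, and each of its
components is finite over the ring of free variables.
-/

set_option autoImplicit false

noncomputable section

open IsLocalRing

namespace FLTAgent.ModLift.Patch

variable {O : Type} [CommRing O] [IsDomain O] [IsDiscreteValuationRing O] {n s : ℕ}

theorem isDomain_ser : IsDomain (Ser O s) := NoZeroDivisors.to_isDomain _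

/-- A finite map to a domain which is finite and injective over a ring of at least as large a
dimension is injective. -/
theorem injective_of_finite_of_dim {R S D : Type*} [CommRing R] [IsDomain R] [IsLocalRing R]
    [IsNoetherianRing R] [CommRing S] [CommRing D] [IsDomain D]
    (hRS : ringKrullDim R ≤ ringKrullDim S) (f : R →+* D)
    (hf : f.Finite) (g : S →+* D) (hg : g.Finite) (hg' : Function.Injective g) :
    Function.Injective f := by
  by_contra hne
  obtain ⟨x, hx, hx0⟩ : ∃ x, f x = 0 ∧ x ≠ 0 := by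
    rw [injective_iff_map_eq_zero] at hne
    push Not at hne
    exact hne
  have h1 : ringKrullDim S ≤ ringKrullDim D := by
    algebraize [g]
    have : Algebra.IsIntegral S D := Algebra.IsIntegral.of_finite S D
    exact Lowering.P5.le_ringKrullDim_of_isIntegral hg'
  have h2 : ringKrullDim D ≤ ringKrullDim (R ⧸ RingHom.ker f) := by
    let : Algebra (R ⧸ RingHom.ker f) D := (RingHom.kerLift f).toAlgebra
    have hfin : (RingHom.kerLift f).Finite :=
      RingHom.Finite.of_comp_finite (f := Ideal.Quotient.mk (RingHom.ker f)) (by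
        rwa [RingHom.kerLift, Ideal.Quotient.lift_comp_mk])
    have : Algebra.IsIntegral (R ⧸ RingHom.ker f) D :=
      ⟨RingHom.Finite.to_isIntegral hfin⟩
    exact Lowering.P5.ringKrullDim_le_of_isIntegral
  have h3 : ringKrullDim (R ⧸ RingHom.ker f) + 1 ≤ ringKrullDim R := by
    refine le_trans (add_le_add_left ?_ 1) (ringKrullDim_quotient_succ_le_of_nonZeroDivisor
      (mem_nonZeroDivisors_of_ne_zero hx0))
    exact ringKrullDim_le_of_surjective
      (Ideal.Quotient.factor ((Ideal.span_singleton_le_iff_mem _).2 hx))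
      (Ideal.Quotient.factor_surjective _)
  have h4 := le_trans (add_le_add_left ((hRS.trans h1).trans h2) 1) h3
  obtain ⟨m, hm⟩ : ∃ m : ℕ, ringKrullDim R = m := by
    obtain ⟨a, ha⟩ := WithBot.ne_bot_iff_exists.1 (ringKrullDim_ne_bot (R := R))
    have : a ≠ ⊤ := fun h => ringKrullDim_ne_top (R := R) (by rw [← ha, h]; rfl)
    obtain ⟨m, rfl⟩ := ENat.ne_top_iff_exists.1 this
    exact ⟨m, ha.symm⟩
  rw [hm] at h4
  norm_cast at h4
  omega

namespace Patched

variable (M : Patched O n s)

/-- The algebra generated by the action. -/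
def alg : Subalgebra (Ser O s) (Matrix (Fin M.d) (Fin M.d) (Ser O s)) :=
  Algebra.adjoin (Ser O s) (Set.range M.act)

theorem commute_act : ∀ a ∈ Set.range M.act, ∀ b ∈ Set.range M.act, a * b = b * a := by
  rintro _ ⟨a, rfl⟩ _ ⟨b, rfl⟩
  rw [← map_mul, mul_comm, map_mul]

instance : CommRing M.alg :=
  { (inferInstance : Ring M.alg) with
    mul_comm := (Algebra.adjoinCommRingOfComm (Ser O s) M.commute_act).mul_comm }

instance : Algebra (Ser O s) M.alg := M.alg.algebra

instance : Module.Finite (Ser O s) M.alg :=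
  Module.Finite.iff_fg.2 (IsNoetherian.noetherian (Subalgebra.toSubmodule M.alg))

instance : IsNoetherianRing M.alg := IsNoetherianRing.of_finite (Ser O s) _

instance : Algebra.IsIntegral (Ser O s) M.alg := Algebra.IsIntegral.of_finite _ _

/-- The action as a map to the algebra. -/
def toAlg : Ser O n →+* M.alg :=
  M.act.toRingHom.codRestrict M.alg fun x => Algebra.subset_adjoin ⟨x, rfl⟩

@[simp]
theorem coe_toAlg (x : Ser O n) : (M.toAlg x : Matrix _ _ (Ser O s)) = M.act x := rfl

theorem coe_algebraMap (a : Ser O s) :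
    (algebraMap (Ser O s) M.alg a : Matrix (Fin M.d) (Fin M.d) (Ser O s)) = algebraMap _ _ a :=
  rfl

theorem ker_toAlg : RingHom.ker M.toAlg = RingHom.ker M.act := by
  ext x
  rw [RingHom.mem_ker, RingHom.mem_ker, ← coe_toAlg]
  exact ⟨fun h => by rw [h]; rfl, fun h => Subtype.ext h⟩

theorem toAlg_C (a : O) :
    M.toAlg (MvPowerSeries.C a) = algebraMap (Ser O s) M.alg (MvPowerSeries.C a) := by
  refine Subtype.ext ?_
  rw [coe_toAlg, coe_algebraMap]
  exact (M.act.commutes a).trans
    (IsScalarTower.algebraMap_apply O (Ser O s) (Matrix (Fin M.d) (Fin M.d) (Ser O s)) a)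

theorem eq_zero_of_smul {c : Ser O s} (hc : c ≠ 0) {a : M.alg}
    (h : algebraMap (Ser O s) M.alg c * a = 0) : a = 0 := by
  refine Subtype.ext (Matrix.ext fun i j => ?_)
  have := congrArg (fun x : M.alg => (x : Matrix (Fin M.d) (Fin M.d) (Ser O s)) i j) h
  simp only [MulMemClass.coe_mul, coe_algebraMap, ← Algebra.smul_def, Matrix.smul_apply,
    smul_eq_mul, ZeroMemClass.coe_zero, Matrix.zero_apply] at this
  exact (mul_eq_zero.1 this).resolve_left hc

theorem nontrivial_alg : Nontrivial M.alg := by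
  refine ⟨⟨0, 1, fun h => ?_⟩⟩
  have := congrArg (fun x : M.alg =>
    (x : Matrix (Fin M.d) (Fin M.d) (Ser O s)) ⟨0, M.d_pos⟩ ⟨0, M.d_pos⟩) h
  simp at this

variable {M}

theorem eq_zero_of_algebraMap_mem {Q : Ideal M.alg} (hQ : Q ∈ minimalPrimes M.alg)
    {c : Ser O s} (hc : algebraMap (Ser O s) M.alg c ∈ Q) : c = 0 := by
  by_contra h
  refine notMem_nonZeroDivisors_of_mem_mem_minimalPrimes (R := M.alg) hc hQ ?_
  rw [mem_nonZeroDivisors_iff_right]
  exact fun a ha => M.eq_zero_of_smul h (by rwa [mul_comm])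

/-- Every component of the support lies under a component of the algebra. -/
theorem exists_lift {q : Ideal (Ser O n)} (hq : M.IsComp q) :
    ∃ Q ∈ minimalPrimes M.alg, Q.comap M.toAlg = q := by
  refine Ideal.exists_minimalPrimes_comap_eq M.toAlg q (I := (⊥ : Ideal M.alg)) ?_
  rw [← RingHom.ker_eq_comap_bot, ker_toAlg]
  exact hq

/-- Every point of the support lies over a component of the algebra. -/
theorem exists_lift_le {P : Ideal (Ser O n)} (hP : M.InSupp P) :
    ∃ Q ∈ minimalPrimes M.alg, Q.comap M.toAlg ≤ P := by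
  have : P.IsPrime := hP.1
  obtain ⟨q, hq, hqP⟩ := Ideal.exists_minimalPrimes_le hP.2
  obtain ⟨Q, hQ, rfl⟩ := exists_lift (M := M) hq
  exact ⟨Q, hQ, hqP⟩

variable [IsAdicComplete (maximalIdeal O) O]

/-- A component of the algebra is finite over the free variables. -/
theorem finite_component {Q : Ideal M.alg} (hQ : Q ∈ minimalPrimes M.alg) :
    ((Ideal.Quotient.mk Q).comp M.toAlg).Finite := by
  have : Q.IsPrime := hQ.1.1
  have : IsNoetherianRing (M.alg ⧸ Q) := inferInstance
  set f := (Ideal.Quotient.mk Q).comp M.toAlg with hf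
  let : Algebra (Ser O n) (M.alg ⧸ Q) := f.toAlgebra
  set h : Ser O s →+* M.alg ⧸ Q := (Ideal.Quotient.mk Q).comp (algebraMap (Ser O s) M.alg)
  have := Lowering.P5.isAdicComplete_mvPowerSeries_of_finite (O := O) (Fin n)
  set I := (maximalIdeal (Ser O n)).map f
  obtain ⟨m, hm, hmS⟩ : ∃ m : Ideal M.alg, m.IsPrime ∧ Q ≤ m ∧
      (maximalIdeal (Ser O s)).map (algebraMap (Ser O s) M.alg) ≤ m := by
    obtain ⟨m, hle, hm, hmS⟩ := Ideal.exists_ideal_over_prime_of_isIntegral (S := M.alg)
      (maximalIdeal (Ser O s)) Q (fun c hc => by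
        rw [eq_zero_of_algebraMap_mem hQ (Ideal.mem_comap.1 hc)]; exact zero_mem _)
    exact ⟨m, hm, hle, Ideal.map_le_iff_le_comap.2 (le_of_eq hmS.symm)⟩
  have hI : I ≤ m.map (Ideal.Quotient.mk Q) := by
    rw [Ideal.map_le_iff_le_comap]
    intro x hx
    obtain ⟨N, hN⟩ := M.mem x hx
    have := Lowering.P5.pow_mem_map_of_entries_mem M.alg.val Subtype.val_injective
      (maximalIdeal (Ser O s)) (M.toAlg x ^ N) (fun i j => by simpa using hN i j)
    rw [← pow_mul] at this
    exact Ideal.mem_map_of_mem _ (hm.mem_of_pow_mem _ (hmS.2 this))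
  have hne : m.map (Ideal.Quotient.mk Q) ≠ ⊤ :=
    (Ideal.isPrime_map_quotientMk_of_isPrime hmS.1).ne_top
  have : IsHausdorff ((maximalIdeal (Ser O n)).map (algebraMap _ (M.alg ⧸ Q))) (M.alg ⧸ Q) :=
    IsHausdorff.of_isDomain _ fun htop => hne (eq_top_iff.2 (htop ▸ hI))
  obtain ⟨F, hF⟩ := (inferInstance : Module.Finite (Ser O s) M.alg).fg_top
  refine (Lowering.P5.finite_and_adjoin_eq_top (maximalIdeal (Ser O n))
    (fun j : Fin s => h (MvPowerSeries.X j))
    (F := Ideal.Quotient.mk Q '' (F : Set M.alg)) (F.finite_toSet.image _) (fun x => ?_)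
    (fun j => ?_)).1
  · obtain ⟨x, rfl⟩ := Ideal.Quotient.mk_surjective x
    have hx : x ∈ Submodule.span (Ser O s) (F : Set M.alg) := hF ▸ Submodule.mem_top
    obtain ⟨c, hc⟩ := Submodule.mem_span_finset'.1 hx
    refine ⟨∑ b, (MvPowerSeries.C (MvPowerSeries.constantCoeff (c b)) : Ser O n) •
      Ideal.Quotient.mk Q (b : M.alg), Submodule.sum_mem _ fun b _ =>
        Submodule.smul_mem _ _ (Submodule.subset_span ⟨b, b.2, rfl⟩), ?_⟩
    rw [← hc, map_sum, ← Finset.sum_sub_distrib]
    refine Submodule.sum_mem _ fun b _ => ?_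
    rw [Algebra.smul_def, Algebra.smul_def, map_mul, RingHom.algebraMap_toAlgebra, hf,
      RingHom.comp_apply, M.toAlg_C, ← sub_mul, ← map_sub, ← map_sub]
    refine Ideal.mul_mem_right _ _ ?_
    show h _ ∈ _
    rw [Set.range_comp' h, ← Ideal.map_span]
    exact Ideal.mem_map_of_mem _ (Lowering.P5.sub_C_constantCoeff_mem_span_X _)
  · obtain ⟨v, hv⟩ := M.w_dvd j
    refine ⟨2, ?_⟩
    obtain ⟨e, he⟩ := M.ξ_rel j
    have hw : h (M.w j) = f (M.ξ j) := by
      refine (sub_eq_zero.1 ?_).symm
      refine eq_zero_of_pow_eq_zero (n := e) ?_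
      simp only [h, hf, RingHom.comp_apply, ← map_sub, ← map_pow]
      rw [Ideal.Quotient.eq_zero_iff_mem]
      convert zero_mem Q
      exact Subtype.ext (by simpa [coe_algebraMap] using he)
    rw [← map_pow, hv, map_mul, hw]
    exact Ideal.mul_mem_right _ _ (Ideal.mem_map_of_mem _ (M.ξ_mem j))

/-- A prime of the algebra over a point of the support. -/
theorem exists_prime_over {P : Ideal (Ser O n)} (hP : M.InSupp P) :
    ∃ m : Ideal M.alg, m.IsPrime ∧ m.comap M.toAlg = P := by
  have : P.IsPrime := hP.1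
  obtain ⟨Q, hQ, hQP⟩ := exists_lift_le hP
  have : Q.IsPrime := hQ.1.1
  let : Algebra (Ser O n) (M.alg ⧸ Q) := ((Ideal.Quotient.mk Q).comp M.toAlg).toAlgebra
  have : Algebra.IsIntegral (Ser O n) (M.alg ⧸ Q) :=
    ⟨RingHom.Finite.to_isIntegral (finite_component hQ)⟩
  obtain ⟨m, -, hm, hmP⟩ := Ideal.exists_ideal_over_prime_of_isIntegral (S := M.alg ⧸ Q) P ⊥
    (fun x hx => hQP (Ideal.mem_comap.2 (Ideal.Quotient.eq_zero_iff_mem.1
      (show Ideal.Quotient.mk Q (M.toAlg x) = 0 from Ideal.mem_bot.1 (Ideal.mem_comap.1 hx)))))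
  exact ⟨m.comap (Ideal.Quotient.mk Q), hm.comap _, by rw [Ideal.comap_comap]; exact hmP⟩

/-- The quotient by a component of the algebra has the dimension of the coefficient ring. -/
theorem ringKrullDim_component {Q : Ideal M.alg} (hQ : Q ∈ minimalPrimes M.alg) :
    ((Ideal.Quotient.mk Q).comp (algebraMap (Ser O s) M.alg)).Finite ∧
      Function.Injective ((Ideal.Quotient.mk Q).comp (algebraMap (Ser O s) M.alg)) :=
  ⟨(RingHom.Finite.of_surjective _ Ideal.Quotient.mk_surjective).comp
      (RingHom.finite_algebraMap.2 inferInstance),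
    (injective_iff_map_eq_zero _).2 fun _ hc =>
      eq_zero_of_algebraMap_mem hQ (Ideal.Quotient.eq_zero_iff_mem.1 hc)⟩

end Patched

end FLTAgent.ModLift.Patch
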