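import Fermat.Agent.ModLift.Patch.LimitInterface
import Fermat.Agent.Lowering.P5.Patching

/-!
# Compatible systems of level data

The data of the levels, reduced to smaller powers, form finite sets, so a compatible system exists,
and each of its entries has a limit.
-/

set_option autoImplicit false

noncomputable section

open IsLocalRing CategoryTheory Opposite

namespace FLTAgent.ModLift.Patch

section Lift

variable {R : Type} [CommRing R] (J : Ideal R)

/-- Reduction between powers. -/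
abbrev red {m n : ℕ} (h : m ≤ n) : R ⧸ J ^ (n + 1) →+* R ⧸ J ^ (m + 1) :=
  Ideal.Quotient.factor (Ideal.pow_le_pow_right (Nat.add_le_add_right h 1))

theorem red_mk {m n : ℕ} (h : m ≤ n) (x : R) :
    red J h (Ideal.Quotient.mk _ x) = Ideal.Quotient.mk _ x := rfl

theorem red_self {m : ℕ} (x : R ⧸ J ^ (m + 1)) : red J le_rfl x = x := by
  obtain ⟨x, rfl⟩ := Ideal.Quotient.mk_surjective x; rfl

theorem red_red {a b c : ℕ} (hab : a ≤ b) (hbc : b ≤ c) (x : R ⧸ J ^ (c + 1)) :
    red J hab (red J hbc x) = red J (hab.trans hbc) x := by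
  obtain ⟨x, rfl⟩ := Ideal.Quotient.mk_surjective x; rfl

/-- A compatible system of residues is that of an element. -/
theorem exists_lift_of_compatible [IsPrecomplete J R] (a : ∀ m, R ⧸ J ^ (m + 1))
    (ha : ∀ m n (h : m ≤ n), red J h (a n) = a m) :
    ∃ z : R, ∀ m, Ideal.Quotient.mk _ z = a m := by
  choose u hu using fun m => Ideal.Quotient.mk_surjective (a m)
  have hmn : ∀ {m n : ℕ}, m ≤ n → u m - u n ∈ J ^ (m + 1) := fun {m n} h => by
    rw [← Ideal.Quotient.eq, hu, ← ha m n h, ← hu n, red_mk]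
  obtain ⟨L, hL⟩ := IsPrecomplete.prec (I := J) inferInstance (f := u) fun {m n} h => by
    rw [SModEq.sub_mem, smul_eq_mul, Ideal.mul_top]
    exact Ideal.pow_le_pow_right (Nat.le_succ m) (hmn h)
  refine ⟨L, fun m => ?_⟩
  have h1 := hL (m + 1)
  rw [SModEq.sub_mem, smul_eq_mul, Ideal.mul_top] at h1
  rw [← hu m, Ideal.Quotient.eq, ← neg_sub]
  refine neg_mem ?_
  have := add_mem (hmn (Nat.le_succ m)) h1
  rwa [sub_add_sub_cancel] at this

/-- An element is determined by its residues. -/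
theorem eq_of_forall_mk [IsHausdorff J R] {u v : R}
    (h : ∀ m, Ideal.Quotient.mk (J ^ (m + 1)) u = Ideal.Quotient.mk _ v) : u = v :=
  sub_eq_zero.1 (IsHausdorff.haus (I := J) inferInstance _ fun m => by
    rw [SModEq.zero, smul_eq_mul, Ideal.mul_top]
    exact Ideal.pow_le_pow_right (Nat.le_succ m) (Ideal.Quotient.eq.1 (h m)))

/-- A decreasing sequence of open ideals lies, far enough, near its intersection. -/
theorem exists_le_sup_pow [IsPrecomplete J R] (hfin : ∀ N, Finite (R ⧸ J ^ N))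
    (K : ℕ → Ideal R) (hK : Antitone K) (hopen : ∀ m, ∃ N, J ^ N ≤ K m) (N : ℕ) :
    ∃ M, K M ≤ (⨅ m, K m) ⊔ J ^ N := by
  have hstab : ∀ i, ∃ M, i ≤ M ∧ ∀ m, M ≤ m → K M ≤ K m ⊔ J ^ i := by
    intro i
    have := hfin i
    obtain ⟨S, ⟨M, hMi, rfl⟩, hS⟩ := Set.Finite.exists_minimalFor id
      {S : Set (R ⧸ J ^ i) | ∃ M, i ≤ M ∧ (Ideal.Quotient.mk (J ^ i)) '' (K M) = S}
      (Set.toFinite _) ⟨_, i, le_rfl, rfl⟩
    refine ⟨M, hMi, fun m hm x hx => ?_⟩
    obtain ⟨y, hy, hxy⟩ := hS ⟨m, hMi.trans hm, rfl⟩ (Set.image_mono (hK hm)) ⟨x, hx, rfl⟩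
    rw [← add_sub_cancel y x]
    exact add_mem (Submodule.mem_sup_left hy)
      (Submodule.mem_sup_right (Ideal.Quotient.eq.1 hxy.symm))
  choose M hMle hM using hstab
  refine ⟨M N, fun x hx => ?_⟩
  let B : ℕ → ℕ := fun j => j.rec (M N) fun i b => max b (M (N + i + 1))
  have hBmono : Monotone B := monotone_nat_of_le_succ fun i => le_max_left _ _
  have hBM : ∀ i, M (N + i) ≤ B i := by
    intro i; cases i with
    | zero => exact le_rfl
    | succ i => exact le_max_right _ _
  have hstep : ∀ (i : ℕ) (a : R), a ∈ K (M (N + i)) → ∃ b ∈ K (B (i + 1)), a - b ∈ J ^ (N + i) := by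
    intro i a ha
    obtain ⟨b, hb, c, hc, rfl⟩ :=
      Submodule.mem_sup.1 (hM (N + i) _ ((hBM i).trans (hBmono i.le_succ)) ha)
    exact ⟨b, hb, by simpa using hc⟩
  choose g hg hg' using hstep
  let a : ∀ i, K (B i) :=
    fun i => i.rec ⟨x, hx⟩ fun i b => ⟨g i b.1 (hK (hBM i) b.2), hg _ _ _⟩
  let av : ℕ → R := fun i => (a i).1
  have hd : ∀ {i j : ℕ}, i ≤ j → av i - av j ∈ J ^ (N + i) := by
    intro i j h
    induction j, h using Nat.le_induction with
    | base => simp
    | succ j hij ih =>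
      have h1 : av j - av (j + 1) ∈ J ^ (N + j) := hg' j _ _
      have := add_mem ih (Ideal.pow_le_pow_right (by omega : N + i ≤ N + j) h1)
      rwa [sub_add_sub_cancel] at this
  obtain ⟨L, hL⟩ := IsPrecomplete.prec (I := J) inferInstance (f := av)
    fun {i j} h => by
      rw [SModEq.sub_mem, smul_eq_mul, Ideal.mul_top]
      exact Ideal.pow_le_pow_right (Nat.le_add_left i N) (hd h)
  have hL' : ∀ i, av i - L ∈ J ^ i := fun i => by
    have := hL i
    rwa [SModEq.sub_mem, smul_eq_mul, Ideal.mul_top] at this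
  have hLK : L ∈ ⨅ m, K m := by
    rw [Submodule.mem_iInf]
    intro m
    obtain ⟨c, hc⟩ := hopen m
    have hB : m ≤ B (max m c) := (le_max_left m c).trans
      ((Nat.le_add_left _ N).trans ((hMle _).trans (hBM _)))
    have h1 : av (max m c) ∈ K m := hK hB (a (max m c)).2
    have h2 := hc (Ideal.pow_le_pow_right (le_max_right m c) (hL' (max m c)))
    simpa using sub_mem h1 h2
  have hxL : x - L ∈ J ^ N := by
    have h1 : x - av N ∈ J ^ N := hd (Nat.zero_le N)
    have := add_mem h1 (hL' N)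
    rwa [sub_add_sub_cancel] at this
  rw [← add_sub_cancel L x]
  exact add_mem (Submodule.mem_sup_left hLK) (Submodule.mem_sup_right hxL)

end Lift

variable {O : Type} [CommRing O] [IsDomain O] [IsDiscreteValuationRing O]

namespace Shape

variable (P : Shape O)

/-- Coefficients of the stage `m`. -/
abbrev CM (m : ℕ) : Type := P.CoefMod (m + 1)

/-- Reduction of coefficients, linear over `O`. -/
def redC {m n : ℕ} (h : m ≤ n) : P.CM n →ₐ[O] P.CM m :=
  Ideal.Quotient.factorₐ O (Ideal.pow_le_pow_right (Nat.add_le_add_right h 1))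

/-- Reduction of the values of the point. -/
def redO {m n : ℕ} (h : m ≤ n) :
    O ⧸ maximalIdeal O ^ (n + 1) →ₐ[O] O ⧸ maximalIdeal O ^ (m + 1) :=
  Ideal.Quotient.factorₐ O (Ideal.pow_le_pow_right (Nat.add_le_add_right h 1))

/-- The data of a stage. -/
@[ext]
structure Stage (m : ℕ) where
  act : ∀ v, Ser O P.n →ₐ[O] Matrix (Fin (P.d v)) (Fin (P.d v)) (P.CM m)
  ξ : Fin P.s → Ser O P.n ⧸ maximalIdeal (Ser O P.n) ^ (m + 1)
  up : ∀ e, Fin 2 → Fin (P.d (P.src e)) → Fin (P.d (P.tgt e)) → P.CM m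
  down : ∀ e, Fin (P.d (P.tgt e)) → Fin 2 → Fin (P.d (P.src e)) → P.CM m
  pt : Ser O P.n →ₐ[O] O ⧸ maximalIdeal O ^ (m + 1)

variable {P}

/-- The data of a level. -/
def Level.stage {m : ℕ} (L : P.Level (m + 1)) : P.Stage m where
  act := L.act
  ξ j := Ideal.Quotient.mk _ (L.ξ j)
  up e b c := L.up e (Pi.single b (Pi.single c 1))
  down e c := L.down e (Pi.single c 1)
  pt := L.pt

/-- Reduction of stages. -/
def Stage.reduce {m n : ℕ} (h : m ≤ n) (x : P.Stage n) : P.Stage m where
  act v := (P.redC h).mapMatrix.comp (x.act v)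
  ξ j := red _ h (x.ξ j)
  up e b c i := P.redC h (x.up e b c i)
  down e c b i := P.redC h (x.down e c b i)
  pt := (redO h).comp x.pt

theorem redC_self {m : ℕ} (x : P.CM m) : P.redC le_rfl x = x := by
  obtain ⟨x, rfl⟩ := Ideal.Quotient.mk_surjective x; rfl

theorem redC_redC {a b c : ℕ} (hab : a ≤ b) (hbc : b ≤ c) (x : P.CM c) :
    P.redC hab (P.redC hbc x) = P.redC (hab.trans hbc) x := by
  obtain ⟨x, rfl⟩ := Ideal.Quotient.mk_surjective x; rfl

theorem redO_self {m : ℕ} (x : O ⧸ maximalIdeal O ^ (m + 1)) : redO le_rfl x = x := by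
  obtain ⟨x, rfl⟩ := Ideal.Quotient.mk_surjective x; rfl

theorem redO_redO {a b c : ℕ} (hab : a ≤ b) (hbc : b ≤ c) (x : O ⧸ maximalIdeal O ^ (c + 1)) :
    redO hab (redO hbc x) = redO (hab.trans hbc) x := by
  obtain ⟨x, rfl⟩ := Ideal.Quotient.mk_surjective x; rfl

theorem Stage.reduce_self {m : ℕ} (x : P.Stage m) : x.reduce le_rfl = x := by
  ext <;> simp [Stage.reduce, redC_self, redO_self]

theorem Stage.reduce_reduce {a b c : ℕ} (hab : a ≤ b) (hbc : b ≤ c) (x : P.Stage c) :
    (x.reduce hbc).reduce hab = x.reduce (hab.trans hbc) := by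
  ext <;> simp [Stage.reduce, redC_redC, redO_redO]

variable [Finite (ResidueField O)]

instance (m : ℕ) : Finite (P.CM m) := Lowering.P5.finite_quotient_pow_maximalIdeal _ _

theorem finite_quotient_scalars (m : ℕ) : Finite (O ⧸ maximalIdeal O ^ m) :=
  IsLocalRing.finite_quotient_iff.2 ⟨m, le_rfl⟩

instance (m : ℕ) : Finite (P.Stage m) := by
  have := Lowering.P5.finite_quotient_pow_maximalIdeal (O := O) (Fin P.n) (m + 1)
  have := finite_quotient_scalars (O := O) (m + 1)
  have : ∀ v, Finite (Ser O P.n →ₐ[O] Matrix (Fin (P.d v)) (Fin (P.d v)) (P.CM m)) := fun v =>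
    Finite.of_injective (fun f i => f (MvPowerSeries.X i))
      fun f g h => Lowering.P5.algHom_eq_of_X f g (congrFun h)
  have : Finite (Ser O P.n →ₐ[O] O ⧸ maximalIdeal O ^ (m + 1)) :=
    Finite.of_injective (fun f i => f (MvPowerSeries.X i))
      fun f g h => Lowering.P5.algHom_eq_of_X f g (congrFun h)
  exact Finite.of_injective (fun x : P.Stage m => (x.act, x.ξ, x.up, x.down, x.pt))
    fun x y h => by
      simp only [Prod.mk.injEq] at h
      ext1 <;> tauto

/-- A stage coming from a level above it. -/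
def Stage.FromLevel {m : ℕ} (x : P.Stage m) : Prop :=
  ∃ (n : ℕ) (h : m ≤ n) (L : P.Level (n + 1)), L.stage.reduce h = x

/-- A compatible system of stages, each coming from levels arbitrarily high. -/
theorem exists_compatible (hP : ∀ m, 0 < m → Nonempty (P.Level m)) :
    ∃ x : ∀ m, P.Stage m, ∀ b m, ∃ (n : ℕ) (h : m ≤ n) (L : P.Level (n + 1)), b ≤ n ∧
      L.stage.reduce h = x m ∧ ∀ k (hk : k ≤ n), k ≤ max b m → L.stage.reduce hk = x k := by
  let F : ℕᵒᵖ ⥤ Type :=
    { obj := fun m => {x : P.Stage m.unop // x.FromLevel}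
      map := fun {a b} f => TypeCat.ofHom fun x => ⟨x.1.reduce (leOfHom f.unop), by
        obtain ⟨n, h, L, hL⟩ := x.2
        exact ⟨n, (leOfHom f.unop).trans h, L, by rw [← hL, Stage.reduce_reduce]⟩⟩
      map_id := fun a => by
        refine ConcreteCategory.hom_ext _ _ fun x => Subtype.ext ?_
        exact Stage.reduce_self _
      map_comp := fun {a b c} f g => by
        refine ConcreteCategory.hom_ext _ _ fun x => Subtype.ext ?_
        exact (Stage.reduce_reduce _ _ _).symm }
  have : ∀ m, Finite (F.obj m) := fun m =>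
    inferInstanceAs (Finite {x : P.Stage m.unop // x.FromLevel})
  have : ∀ m, Nonempty (F.obj m) := fun m => (hP _ (Nat.succ_pos m.unop)).map fun L =>
    ⟨L.stage, _, le_rfl, L, Stage.reduce_self _⟩
  obtain ⟨x, hx⟩ := nonempty_sections_of_finite_inverse_system F
  have hx' : ∀ {i j : ℕ} (h : i ≤ j), (x (op j)).1.reduce h = (x (op i)).1 := fun h =>
    congrArg Subtype.val (hx (homOfLE h).op)
  refine ⟨fun m => (x (op m)).1, fun b m => ?_⟩
  obtain ⟨n, h, L, hL⟩ := (x (op (max b m))).2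
  refine ⟨n, (le_max_right _ _).trans h, L, (le_max_left _ _).trans h, ?_, fun k hk hkb => ?_⟩
  · rw [← Stage.reduce_reduce (le_max_right _ _) h, hL, hx']
  · rw [← Stage.reduce_reduce hkb h, hL, hx']

end Shape

end FLTAgent.ModLift.Patch
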