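import Fermat.Agent.ModLift.Patch.Algebra

/-!
# Components meeting a small pattern, and supports in the special fibre
-/

set_option autoImplicit false

noncomputable section

open IsLocalRing

namespace FLTAgent.ModLift.Patch

/-- A component meeting a pattern generated by as many variables as the coefficient ring is that
pattern. -/
theorem targetComponent : TargetComponent := by
  intro O _ _ _ _ _ n s M q I hq hI hgen
  obtain ⟨γ, hγ⟩ := hgen
  obtain ⟨Q, hQ, rfl⟩ := Patched.exists_lift hq
  have : Q.IsPrime := hQ.1.1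
  have : IsDomain (Ser O s) := isDomain_ser
  set φ : Ser O n ⧸ I →+* M.alg ⧸ Q := Ideal.Quotient.lift I
    ((Ideal.Quotient.mk Q).comp M.toAlg) fun x hx =>
      Ideal.Quotient.eq_zero_iff_mem.2 (Ideal.mem_comap.1 (hI hx))
  have hφ : φ.Finite := RingHom.Finite.of_comp_finite (f := Ideal.Quotient.mk I) (by
    rw [Ideal.Quotient.lift_comp_mk]; exact Patched.finite_component hQ)
  obtain ⟨hgf, hgi⟩ := Patched.ringKrullDim_component hQ
  have hinj : Function.Injective (φ.comp γ.toRingHom) :=
    injective_of_finite_of_dim le_rfl _ (hφ.comp (RingHom.Finite.of_surjective _ hγ)) _ hgf hgi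
  refine ⟨le_antisymm (fun x hx => ?_) hI, fun a ha hmem => ?_⟩
  · obtain ⟨y, hy⟩ := hγ (Ideal.Quotient.mk I x)
    have : y = 0 := hinj (by
      rw [map_zero, RingHom.comp_apply]
      show φ (γ y) = 0
      rw [hy]
      exact Ideal.Quotient.eq_zero_iff_mem.2 (Ideal.mem_comap.1 hx))
    rw [this, map_zero] at hy
    exact Ideal.Quotient.eq_zero_iff_mem.1 hy.symm
  · have h0 : (MvPowerSeries.C a : Ser O s) = 0 := hgi (by
      rw [map_zero, RingHom.comp_apply, ← M.toAlg_C, Ideal.Quotient.eq_zero_iff_mem]
      exact Ideal.mem_comap.1 hmem)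
    exact ha (by simpa using congrArg MvPowerSeries.constantCoeff h0)

/-- Congruent modules have the same support in characteristic `p`. -/
theorem targetSpecial : TargetSpecial := by
  intro O _ _ _ _ _ n s d M M' h h' hcong P hP hM
  refine ⟨hM.1, fun x hx => ?_⟩
  obtain ⟨w, hw⟩ := IsDiscreteValuationRing.exists_irreducible O
  have hwm : w ∈ maximalIdeal O := hw.maximalIdeal_eq ▸ Ideal.mem_span_singleton_self w
  obtain ⟨m, hm, hmP⟩ := Patched.exists_prime_over hM
  have hent : ∀ i j, M.alg.val (M.toAlg x) i j ∈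
      Ideal.span {(MvPowerSeries.C w : Ser O s)} := fun i j => by
    have he := hcong x (Fin.cast h i) (Fin.cast h j)
    rw [RingHom.mem_ker.1 hx, Matrix.zero_apply, sub_zero, hw.maximalIdeal_eq, Ideal.map_span,
      Set.image_singleton] at he
    exact he
  have hp := Lowering.P5.pow_mem_map_of_entries_mem M.alg.val Subtype.val_injective _ _ hent
  rw [Ideal.map_span, Set.image_singleton, ← M.toAlg_C, Ideal.mem_span_singleton] at hp
  obtain ⟨c, hc⟩ := hp
  rw [← hmP, Ideal.mem_comap]
  refine hm.mem_of_pow_mem M.d ?_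
  rw [hc]
  refine Ideal.mul_mem_right _ _ ?_
  have := hP w hwm
  rwa [← hmP, Ideal.mem_comap] at this

end FLTAgent.ModLift.Patch
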