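import Fermat.Agent.Lowering.P5.Interface

/-!
# Supports of patched modules: interface

A patched module is a free module over the patched coefficient ring with an action of a local
ring with free variables through which the coefficient variables act. A degeneracy pair relates
two of them. All statements about supports are stated with the minimal primes of the annihilator.
-/

set_option autoImplicit false

noncomputable section

open IsLocalRing

namespace FLTAgent.ModLift.Patch

/-- Power series in `n` variables. -/
abbrev Ser (O : Type) [CommRing O] (n : ℕ) : Type := MvPowerSeries (Fin n) O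

variable (O : Type) [CommRing O] [IsDomain O] [IsDiscreteValuationRing O] (n s : ℕ)

/-- A patched module. -/
structure Patched where
  d : ℕ
  d_pos : 0 < d
  act : Ser O n →ₐ[O] Matrix (Fin d) (Fin d) (Ser O s)
  ξ : Fin s → Ser O n
  ξ_mem : ∀ j, ξ j ∈ maximalIdeal (Ser O n)
  /-- The elements by which the coefficient variables are recovered. -/
  w : Fin s → Ser O s
  w_dvd : ∀ j, w j ∣ MvPowerSeries.X j ^ 2
  ξ_rel : ∀ j, IsNilpotent (act (ξ j) -
    algebraMap (Ser O s) (Matrix (Fin d) (Fin d) (Ser O s)) (w j))
  mem : ∀ x ∈ maximalIdeal (Ser O n), ∃ N : ℕ, ∀ i j,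
    (act x ^ N) i j ∈ maximalIdeal (Ser O s)

variable {O n s}

namespace Patched

variable (M : Patched O n s)

/-- The points of the support. -/
def InSupp (P : Ideal (Ser O n)) : Prop := P.IsPrime ∧ RingHom.ker M.act ≤ P

/-- The components of the support. -/
def IsComp (Q : Ideal (Ser O n)) : Prop := Q ∈ (RingHom.ker M.act).minimalPrimes

end Patched

variable (s) in
/-- The quotient by `I` is generated by `s` variables. -/
def GenBound (I : Ideal (Ser O n)) : Prop :=
  ∃ γ : Ser O s →ₐ[O] Ser O n ⧸ I, Function.Surjective γ

/-- A pair of degeneracy maps with the matrix of the composite. -/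
structure Pair (M N : Patched O n s) where
  i : (Fin 2 → Fin M.d → Ser O s) →ₗ[Ser O s] Fin N.d → Ser O s
  j : (Fin N.d → Ser O s) →ₗ[Ser O s] Fin 2 → Fin M.d → Ser O s
  i_act : ∀ x v, i (fun b => (M.act x).mulVec (v b)) = (N.act x).mulVec (i v)
  j_act : ∀ x v, j ((N.act x).mulVec v) = fun b => (M.act x).mulVec (j v b)
  i_inj : ∀ v, (∀ c, i v c ∈ maximalIdeal (Ser O s)) →
    ∀ b c, v b c ∈ maximalIdeal (Ser O s)
  j_surj : Function.Surjective j
  A : Matrix (Fin 2) (Fin 2) (Ser O n)
  comp : ∀ v b, j (i v) b = ∑ c, (M.act (A b c)).mulVec (v c)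

/-- A component meeting a pattern generated by as many variables as the coefficient ring is that
pattern, and the pattern is then prime, free of `p`-torsion. -/
def TargetComponent : Prop :=
  ∀ (O : Type) [CommRing O] [IsDomain O] [IsDiscreteValuationRing O]
    [IsAdicComplete (maximalIdeal O) O] [Finite (ResidueField O)] (n s : ℕ) (M : Patched O n s)
    (Q I : Ideal (Ser O n)), M.IsComp Q → I ≤ Q → GenBound s I →
      Q = I ∧ ∀ a : O, a ≠ 0 → MvPowerSeries.C a ∉ Q

/-- Modules congruent modulo the maximal ideal of `O` have the same support in characteristic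
`p`. -/
def TargetSpecial : Prop :=
  ∀ (O : Type) [CommRing O] [IsDomain O] [IsDiscreteValuationRing O]
    [IsAdicComplete (maximalIdeal O) O] [Finite (ResidueField O)] (n s d : ℕ)
    (M M' : Patched O n s) (h : M.d = d) (h' : M'.d = d),
    (∀ x i j, M.act x (Fin.cast h.symm i) (Fin.cast h.symm j) -
      M'.act x (Fin.cast h'.symm i) (Fin.cast h'.symm j) ∈
        (maximalIdeal O).map (algebraMap O (Ser O s))) →
    ∀ P : Ideal (Ser O n), (∀ a ∈ maximalIdeal O, MvPowerSeries.C a ∈ P) →
      M.InSupp P → M'.InSupp P

/-- Raising the level: if a component of the lower module meets the vanishing locus of the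
determinant of the composite in a prime `P`, some component of the upper module through `P` is in
the new part, given by the ideal `J`. -/
def TargetRaise : Prop :=
  ∀ (O : Type) [CommRing O] [IsDomain O] [IsDiscreteValuationRing O]
    [IsAdicComplete (maximalIdeal O) O] [Finite (ResidueField O)] (n s : ℕ)
    (M N : Patched O n s) (D : Pair M N) (P J : Ideal (Ser O n)), M.InSupp P → D.A.det ∈ P →
    (∀ x ∈ J, ∃ e : ℕ, ∀ v, ((N.act x ^ e).mulVec v) ∈ LinearMap.range D.i) →
      ∃ Q, N.IsComp Q ∧ J ≤ Q ∧ Q ≤ P

end FLTAgent.ModLift.Patch
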