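import Fermat.Agent.ModLift.Patch.Compactness
import Fermat.Agent.ModLift.Patch.Component

/-!
# The limit of finite levels

A compatible system of stages gives patched modules, pairs, congruences, a point and bounds on the
numbers of generators of the patterns.
-/

set_option autoImplicit false

noncomputable section

open IsLocalRing

namespace FLTAgent.ModLift.Patch

variable {O : Type} [CommRing O] [IsDomain O] [IsDiscreteValuationRing O]

/-- The constant coefficient, linear over the coefficients. -/
def coeffZero (n : ℕ) : Ser O n →ₐ[O] O :=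
  { (MvPowerSeries.constantCoeff : Ser O n →+* O) with
    commutes' := fun a => MvPowerSeries.constantCoeff_C a }

theorem constantCoeff_mem_pow {n k : ℕ} {f : Ser O n} (hf : f ∈ maximalIdeal (Ser O n) ^ k) :
    MvPowerSeries.constantCoeff f ∈ maximalIdeal O ^ k := by
  have h1 : (maximalIdeal (Ser O n)).map MvPowerSeries.constantCoeff ≤ maximalIdeal O := by
    refine Ideal.map_le_iff_le_comap.2 fun g hg => ?_
    rw [mem_maximalIdeal, mem_nonunits_iff, MvPowerSeries.isUnit_iff_constantCoeff] at hg
    exact hg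
  refine Ideal.pow_right_mono h1 k ?_
  rw [← Ideal.map_pow]
  exact Ideal.mem_map_of_mem _ hf

/-- An algebra map between power series rings is local. -/
theorem algHom_mem_maximalIdeal {g n : ℕ} (f : Ser O g →ₐ[O] Ser O n) {y : Ser O g}
    (hy : y ∈ maximalIdeal (Ser O g)) : f y ∈ maximalIdeal (Ser O n) := by
  rw [mem_maximalIdeal, mem_nonunits_iff, MvPowerSeries.isUnit_iff_constantCoeff]
  intro hc
  set c := MvPowerSeries.constantCoeff (f y)
  have hu : IsUnit (y - MvPowerSeries.C c) := by
    rw [MvPowerSeries.isUnit_iff_constantCoeff, map_sub, MvPowerSeries.constantCoeff_C]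
    refine (IsLocalRing.isUnit_or_isUnit_of_isUnit_add
      (a := MvPowerSeries.constantCoeff y - c) (b := - MvPowerSeries.constantCoeff y)
      (by rw [show MvPowerSeries.constantCoeff y - c + -MvPowerSeries.constantCoeff y = -c by ring]
          exact hc.neg)).resolve_right fun h => ?_
    rw [mem_maximalIdeal, mem_nonunits_iff, MvPowerSeries.isUnit_iff_constantCoeff] at hy
    exact hy (by simpa using h.neg)
  have h1 := hu.map f
  rw [map_sub, show f (MvPowerSeries.C c) = MvPowerSeries.C c from f.commutes c,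
    MvPowerSeries.isUnit_iff_constantCoeff, map_sub, MvPowerSeries.constantCoeff_C, sub_self] at h1
  exact not_isUnit_zero h1

theorem mem_smul_top_fun {R ι : Type*} [CommRing R] [Fintype ι] [DecidableEq ι] (I : Ideal R)
    {u : ι → R} (h : ∀ i, u i ∈ I) : u ∈ I • (⊤ : Submodule R (ι → R)) := by
  rw [pi_eq_sum_univ' u]
  exact Submodule.sum_mem _ fun i _ => Submodule.smul_mem_smul (h i) trivial

theorem mem_smul_top_fun₂ {R ι κ : Type*} [CommRing R] [Fintype ι] [DecidableEq ι] [Fintype κ]
    [DecidableEq κ] (I : Ideal R) {u : ι → κ → R} (h : ∀ i k, u i k ∈ I) :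
    u ∈ I • (⊤ : Submodule R (ι → κ → R)) := by
  have : u = ∑ i, ∑ k, u i k • (Pi.single i (Pi.single k 1) : ι → κ → R) := by
    ext i k
    simp [Finset.sum_apply, Pi.single_apply, apply_ite (fun f : κ → R => f k)]
  rw [this]
  exact Submodule.sum_mem _ fun i _ => Submodule.sum_mem _ fun k _ =>
    Submodule.smul_mem_smul (h i k) trivial

variable [IsAdicComplete (maximalIdeal O) O] [Finite (ResidueField O)]

omit [Finite (ResidueField O)] in
/-- A pattern is generated by the images of `g` variables as soon as it is so modulo the square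
of the maximal ideal. -/
theorem genBound_of_forall {g n : ℕ} (E : Ideal (Ser O n)) (f : Ser O g →ₐ[O] Ser O n)
    (hsp : ∀ y : Ser O n, ∃ z, y - f z ∈ E ⊔ maximalIdeal (Ser O n) ^ 2) : GenBound g E := by
  set γ : Ser O g →ₐ[O] Ser O n ⧸ E := (Ideal.Quotient.mkₐ O E).comp f
  set I := maximalIdeal (Ser O n)
  refine ⟨γ, ?_⟩
  by_cases hEtop : E = ⊤
  · intro a
    have : Subsingleton (Ser O n ⧸ E) := Ideal.Quotient.subsingleton_iff.2 hEtop
    exact ⟨0, Subsingleton.elim _ _⟩
  have : Nontrivial (Ser O n ⧸ E) := Ideal.Quotient.nontrivial_iff.2 hEtop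
  have : IsLocalRing (Ser O n ⧸ E) :=
    IsLocalRing.of_surjective' _ Ideal.Quotient.mk_surjective
  let : Algebra (Ser O g) (Ser O n ⧸ E) := γ.toRingHom.toAlgebra
  set R := Ser O g
  set A := Ser O n ⧸ E
  have hI : I.map (Ideal.Quotient.mk E) = maximalIdeal A := by
    have hl : IsLocalHom (Ideal.Quotient.mk E) :=
      IsLocalHom.of_surjective _ Ideal.Quotient.mk_surjective
    have hcm : (maximalIdeal A).comap (Ideal.Quotient.mk E) = I := by
      ext y
      simp only [Ideal.mem_comap, I, mem_maximalIdeal, mem_nonunits_iff, isUnit_map_iff]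
    rw [← hcm]
    exact Ideal.map_comap_of_surjective _ Ideal.Quotient.mk_surjective _
  have hloc : ∀ y ∈ maximalIdeal R, γ y ∈ maximalIdeal A := fun y hy => by
    rw [← hI]
    exact Ideal.mem_map_of_mem _ (algHom_mem_maximalIdeal _ hy)
  have hle : (maximalIdeal R).map (algebraMap R A) ≤ maximalIdeal A :=
    Ideal.map_le_iff_le_comap.2 hloc
  have hnak : maximalIdeal A ≤ (maximalIdeal R).map (algebraMap R A) := by
    refine Submodule.le_of_le_smul_of_le_jacobson_bot (IsNoetherian.noetherian _)
      (maximalIdeal_le_jacobson (⊥ : Ideal A)) fun a ha => ?_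
    obtain ⟨y, rfl⟩ := Ideal.Quotient.mk_surjective a
    obtain ⟨z, hz⟩ := hsp y
    obtain ⟨e, he, q, hq, heq⟩ := Submodule.mem_sup.1 hz
    have h1 : Ideal.Quotient.mk E y = γ z + Ideal.Quotient.mk E q := by
      rw [show y = f z + (e + q) by rw [heq]; ring, map_add, map_add,
        Ideal.Quotient.eq_zero_iff_mem.2 he, zero_add]
      rfl
    have h2 : Ideal.Quotient.mk E q ∈ maximalIdeal A * maximalIdeal A := by
      rw [← pow_two, ← hI, ← Ideal.map_pow]
      exact Ideal.mem_map_of_mem _ hq
    have hz' : z ∈ maximalIdeal R := by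
      by_contra hu
      rw [mem_maximalIdeal, mem_nonunits_iff, not_not] at hu
      have h3 : γ z ∈ maximalIdeal A := by
        rw [h1] at ha
        have h4 := sub_mem ha (Ideal.mul_le_left h2)
        rwa [add_sub_cancel_right] at h4
      exact (mem_maximalIdeal _).1 h3 (hu.map γ)
    rw [h1, smul_eq_mul]
    exact Submodule.mem_sup.2 ⟨_, Ideal.mem_map_of_mem (algebraMap R A) hz', _, h2, rfl⟩
  have hmap : (maximalIdeal R).map (algebraMap R A) = maximalIdeal A := le_antisymm hle hnak
  have : IsHausdorff ((maximalIdeal R).map (algebraMap R A)) A := by rw [hmap]; infer_instance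
  have := Lowering.P5.isAdicComplete_mvPowerSeries_of_finite (O := O) (Fin (g))
  have hX : ∀ i, Ideal.Quotient.mk E (MvPowerSeries.X i) ∈ maximalIdeal A := fun i => by
    rw [← hI]
    refine Ideal.mem_map_of_mem _ ?_
    rw [mem_maximalIdeal, mem_nonunits_iff, MvPowerSeries.isUnit_iff_constantCoeff]
    simp
  have hdec : ∀ a : A, ∃ c : R, a - γ c ∈
      Ideal.span (Set.range fun i => Ideal.Quotient.mk E (MvPowerSeries.X i)) := by
    intro a
    obtain ⟨y, rfl⟩ := Ideal.Quotient.mk_surjective a
    refine ⟨MvPowerSeries.C (MvPowerSeries.constantCoeff y), ?_⟩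
    rw [show γ (MvPowerSeries.C (MvPowerSeries.constantCoeff y)) =
        Ideal.Quotient.mk E (MvPowerSeries.C (MvPowerSeries.constantCoeff y)) from
          γ.commutes _, ← map_sub, Set.range_comp' (Ideal.Quotient.mk E), ← Ideal.map_span]
    exact Ideal.mem_map_of_mem _ (Lowering.P5.sub_C_constantCoeff_mem_span_X _)
  have hfin : Module.Finite R A := (Lowering.P5.finite_and_adjoin_eq_top (maximalIdeal R)
    (fun i => Ideal.Quotient.mk E (MvPowerSeries.X i)) (Set.finite_singleton (1 : A))
    (fun a => by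
      obtain ⟨c, hc'⟩ := hdec a
      exact ⟨algebraMap R A c, Submodule.mem_span_singleton.2
        ⟨c, by rw [Algebra.smul_def, mul_one]⟩, hc'⟩)
    fun i => Ideal.le_radical (hmap.symm ▸ hX i)).1
  suffices h : (⊤ : Submodule R A) ≤ LinearMap.range (Algebra.linearMap R A) by
    intro a
    obtain ⟨c, hc'⟩ := h (Submodule.mem_top (x := a))
    exact ⟨c, hc'⟩
  refine Submodule.le_of_le_smul_of_le_jacobson_bot Module.Finite.fg_top
    (maximalIdeal_le_jacobson (⊥ : Ideal R)) fun a _ => ?_
  obtain ⟨c, hc'⟩ := hdec a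
  refine Submodule.mem_sup.2 ⟨γ c, ⟨c, rfl⟩, a - γ c, ?_, add_sub_cancel _ _⟩
  rw [Ideal.smul_top_eq_map, Submodule.restrictScalars_mem, hmap]
  exact Ideal.span_le.2 (Set.range_subset_iff.2 hX) hc'

omit [Finite (ResidueField O)] in
/-- A point of the support killing the elements attached to the coefficient variables factors
through the constant terms of the action. -/
theorem apply_eq_zero_of_inSupp {n s : ℕ} (M : Patched O n s) (pt : Ser O n →ₐ[O] O)
    (hv : M.InSupp (RingHom.ker pt)) (hpt : ∀ j, pt (M.ξ j) = 0) {y : Ser O n}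
    (hy : ∀ i j, MvPowerSeries.constantCoeff (M.act y i j) = 0) : pt y = 0 := by
  obtain ⟨m, hm, hmP⟩ := Patched.exists_prime_over hv
  have hwm : ∀ j, algebraMap (Ser O s) M.alg (M.w j) ∈ m := fun j => by
    have h1 : M.toAlg (M.ξ j) ∈ m := by
      rw [← Ideal.mem_comap, hmP]
      exact hpt j
    obtain ⟨e, he⟩ := M.ξ_rel j
    have h2 : M.toAlg (M.ξ j) - algebraMap (Ser O s) M.alg (M.w j) ∈ m :=
      hm.mem_of_pow_mem e (by
        convert zero_mem m
        exact Subtype.ext (by simpa [Patched.coe_algebraMap] using he))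
    simpa using sub_mem h1 h2
  have hXm : Ideal.span (Set.range (MvPowerSeries.X : Fin s → Ser O s)) ≤
      m.comap (algebraMap (Ser O s) M.alg) := by
    rw [Ideal.span_le, Set.range_subset_iff]
    intro j
    obtain ⟨r, hr⟩ := M.w_dvd j
    refine hm.mem_of_pow_mem 2 ?_
    rw [← map_pow, hr, map_mul]
    exact m.mul_mem_right _ (hwm j)
  have h1 := Lowering.P5.pow_mem_map_of_entries_mem M.alg.val Subtype.val_injective
    (Ideal.span (Set.range (MvPowerSeries.X : Fin s → Ser O s))) (M.toAlg y) fun i j => by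
      have h3 := Lowering.P5.sub_C_constantCoeff_mem_span_X (M.act y i j)
      rw [hy i j, map_zero, sub_zero] at h3
      exact h3
  have h4 : M.toAlg y ∈ m := hm.mem_of_pow_mem _ (Ideal.map_le_iff_le_comap.2 hXm h1)
  rw [← Ideal.mem_comap, hmP] at h4
  exact h4

set_option maxHeartbeats 1000000 in
-- one structure with many fields, each a short computation
/-- Levels modulo every power give a patched outcome. -/
theorem Shape.exists_limit (P : Shape O) (hP : ∀ m, 0 < m → Nonempty (P.Level m)) :
    Nonempty P.Limit := by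
  obtain ⟨x, hx⟩ := Shape.exists_compatible hP
  have := Lowering.P5.isAdicComplete_mvPowerSeries_of_finite (O := O) (Fin P.s)
  have := Lowering.P5.isAdicComplete_mvPowerSeries_of_finite (O := O) (Fin P.n)
  set J := maximalIdeal (Ser O P.s)
  set I := maximalIdeal (Ser O P.n)
  have hc : ∀ m n (h : m ≤ n), (x n).reduce h = x m := fun m n h => by
    obtain ⟨k, hk, L, -, hL, hL'⟩ := hx 0 n
    rw [← hL, Shape.Stage.reduce_reduce, hL' m (h.trans hk) (h.trans (le_max_right _ _))]
  have hmk : ∀ {m n} (h : m ≤ n) (z : Ser O P.s),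
      P.redC h (Ideal.Quotient.mk _ z) = Ideal.Quotient.mk (J ^ (m + 1)) z := fun h z => rfl
  -- the entries
  have hA : ∀ v y i j, ∃ z : Ser O P.s, ∀ m,
      Ideal.Quotient.mk (J ^ (m + 1)) z = (x m).act v y i j := fun v y i j =>
    exists_lift_of_compatible J _ fun m n h => by rw [← hc m n h]; rfl
  choose za hza using hA
  have hX : ∀ j, ∃ z : Ser O P.n, ∀ m, Ideal.Quotient.mk (I ^ (m + 1)) z = (x m).ξ j := fun j =>
    exists_lift_of_compatible I _ fun m n h => by rw [← hc m n h]; rfl
  choose ξ hξ using hX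
  have hU : ∀ e b c i, ∃ z : Ser O P.s, ∀ m,
      Ideal.Quotient.mk (J ^ (m + 1)) z = (x m).up e b c i := fun e b c i =>
    exists_lift_of_compatible J _ fun m n h => by rw [← hc m n h]; rfl
  choose U hU using hU
  have hD : ∀ e c b i, ∃ z : Ser O P.s, ∀ m,
      Ideal.Quotient.mk (J ^ (m + 1)) z = (x m).down e c b i := fun e c b i =>
    exists_lift_of_compatible J _ fun m n h => by rw [← hc m n h]; rfl
  choose D hD using hD
  have hT : ∀ y, ∃ z : O, ∀ m,
      Ideal.Quotient.mk (maximalIdeal O ^ (m + 1)) z = (x m).pt y := fun y =>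
    exists_lift_of_compatible (maximalIdeal O) _ fun m n h => by rw [← hc m n h]; rfl
  choose zp hzp using hT
  -- the maps
  let Mat : ∀ v, Ser O P.n → Matrix (Fin (P.d v)) (Fin (P.d v)) (Ser O P.s) :=
    fun v y => Matrix.of (za v y)
  have hMat : ∀ v y m, (Mat v y).map (Ideal.Quotient.mk (J ^ (m + 1))) = (x m).act v y :=
    fun v y m => Matrix.ext fun i j => hza v y i j m
  have hext : ∀ {v} (A B : Matrix (Fin (P.d v)) (Fin (P.d v)) (Ser O P.s)),
      (∀ m, A.map (Ideal.Quotient.mk (J ^ (m + 1))) = B.map (Ideal.Quotient.mk (J ^ (m + 1)))) →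
        A = B := fun A B h => Matrix.ext fun i j => eq_of_forall_mk J fun m =>
    congrFun (congrFun (h m) i) j
  let act : ∀ v, Ser O P.n →ₐ[O] Matrix (Fin (P.d v)) (Fin (P.d v)) (Ser O P.s) := fun v =>
    { toFun := Mat v
      map_one' := hext _ _ fun m => by
        rw [hMat, map_one]
        exact (map_one (Ideal.Quotient.mk (J ^ (m + 1))).mapMatrix).symm
      map_mul' := fun a b => hext _ _ fun m => by
        rw [hMat, map_mul, ← hMat v a m, ← hMat v b m]
        exact (map_mul (Ideal.Quotient.mk (J ^ (m + 1))).mapMatrix _ _).symm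
      map_zero' := hext _ _ fun m => by
        rw [hMat, map_zero]
        exact (map_zero (Ideal.Quotient.mk (J ^ (m + 1))).mapMatrix).symm
      map_add' := fun a b => hext _ _ fun m => by
        rw [hMat, map_add, ← hMat v a m, ← hMat v b m]
        exact (map_add (Ideal.Quotient.mk (J ^ (m + 1))).mapMatrix _ _).symm
      commutes' := fun c => hext _ _ fun m => by
        rw [hMat, ((x m).act v).commutes]
        exact ((Ideal.Quotient.mkₐ O (J ^ (m + 1))).mapMatrix.commutes c).symm }
  have hptext : ∀ {a b : O}, (∀ m, Ideal.Quotient.mk (maximalIdeal O ^ (m + 1)) a =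
      Ideal.Quotient.mk _ b) → a = b := fun h => eq_of_forall_mk _ h
  let pt : Ser O P.n →ₐ[O] O :=
    { toFun := zp
      map_one' := hptext fun m => by rw [hzp, map_one, map_one]
      map_mul' := fun a b => hptext fun m => by rw [hzp, map_mul, map_mul, hzp, hzp]
      map_zero' := hptext fun m => by rw [hzp, map_zero, map_zero]
      map_add' := fun a b => hptext fun m => by rw [hzp, map_add, map_add, hzp, hzp]
      commutes' := fun c => hptext fun m => by rw [hzp, ((x m).pt).commutes]; rfl }
  let up : ∀ e, (Fin 2 → Fin (P.d (P.src e)) → Ser O P.s) →ₗ[Ser O P.s]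
      Fin (P.d (P.tgt e)) → Ser O P.s := fun e =>
    { toFun := fun v i => ∑ b, ∑ c, v b c * U e b c i
      map_add' := fun a b => by ext i; simp [add_mul, Finset.sum_add_distrib]
      map_smul' := fun r a => by funext i; simp [mul_assoc, Finset.mul_sum, mul_add] }
  let down : ∀ e, (Fin (P.d (P.tgt e)) → Ser O P.s) →ₗ[Ser O P.s]
      Fin 2 → Fin (P.d (P.src e)) → Ser O P.s := fun e =>
    { toFun := fun v b i => ∑ c, v c * D e c b i
      map_add' := fun a b => by ext j i; simp [add_mul, Finset.sum_add_distrib]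
      map_smul' := fun r a => by funext j i; simp [mul_assoc, Finset.mul_sum] }
  -- comparison with a level above
  have hact : ∀ {m n : ℕ} {h : m ≤ n} {L : P.Level (n + 1)}, L.stage.reduce h = x m → ∀ v y i j,
      P.redC h (L.act v y i j) = Ideal.Quotient.mk (J ^ (m + 1)) (act v y i j) := by
    intro m n h L hL v y i j
    show _ = Ideal.Quotient.mk (J ^ (m + 1)) (za v y i j)
    rw [hza, ← hL]
    rfl
  have hmv : ∀ {m n : ℕ} {h : m ≤ n} {L : P.Level (n + 1)}, L.stage.reduce h = x m → ∀ v y
      (u' : Fin (P.d v) → P.CM n) (u : Fin (P.d v) → Ser O P.s),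
      (∀ i, P.redC h (u' i) = Ideal.Quotient.mk (J ^ (m + 1)) (u i)) → ∀ i,
      P.redC h ((L.act v y).mulVec u' i) =
        Ideal.Quotient.mk (J ^ (m + 1)) ((act v y).mulVec u i) := by
    intro m n h L hL v y u' u hu i
    simp only [Matrix.mulVec, dotProduct, map_sum, map_mul, hu, hact hL]
  have hmvp : ∀ {m n : ℕ} {h : m ≤ n} {L : P.Level (n + 1)}, L.stage.reduce h = x m → ∀ v y (l : ℕ)
      (u' : Fin (P.d v) → P.CM n) (u : Fin (P.d v) → Ser O P.s),
      (∀ i, P.redC h (u' i) = Ideal.Quotient.mk (J ^ (m + 1)) (u i)) → ∀ i,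
      P.redC h ((L.act v y ^ l).mulVec u' i) =
        Ideal.Quotient.mk (J ^ (m + 1)) ((act v y ^ l).mulVec u i) := by
    intro m n h L hL v y l u' u hu i
    rw [← map_pow, ← map_pow]
    exact hmv hL v _ u' u hu i
  have hupL : ∀ {m n : ℕ} {h : m ≤ n} {L : P.Level (n + 1)}, L.stage.reduce h = x m → ∀ e
      (w : Fin 2 → Fin (P.d (P.src e)) → P.CM n) (v : Fin 2 → Fin (P.d (P.src e)) → Ser O P.s),
      (∀ b c, P.redC h (w b c) = Ideal.Quotient.mk (J ^ (m + 1)) (v b c)) → ∀ i,
      P.redC h (L.up e w i) = Ideal.Quotient.mk (J ^ (m + 1)) (up e v i) := by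
    intro m n h L hL e w v hv i
    have hw : w = ∑ b, ∑ c, w b c •
        (Pi.single b (Pi.single c 1) : Fin 2 → Fin (P.d (P.src e)) → P.CM n) := by
      ext b c
      simp [Finset.sum_apply, Pi.single_apply,
        apply_ite (fun f : Fin (P.d (P.src e)) → P.CM n => f c)]
    conv_lhs => rw [hw]
    show _ = Ideal.Quotient.mk (J ^ (m + 1)) (∑ b, ∑ c, v b c * U e b c i)
    simp only [map_sum, map_smul, Finset.sum_apply, Pi.smul_apply, smul_eq_mul, map_mul, hv, hU,
      ← hL]
    rfl
  have hdownL : ∀ {m n : ℕ} {h : m ≤ n} {L : P.Level (n + 1)}, L.stage.reduce h = x m → ∀ e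
      (w : Fin (P.d (P.tgt e)) → P.CM n) (v : Fin (P.d (P.tgt e)) → Ser O P.s),
      (∀ c, P.redC h (w c) = Ideal.Quotient.mk (J ^ (m + 1)) (v c)) → ∀ b i,
      P.redC h (L.down e w b i) = Ideal.Quotient.mk (J ^ (m + 1)) (down e v b i) := by
    intro m n h L hL e w v hv b i
    have hw : w = ∑ c, w c • (Pi.single c 1 : Fin (P.d (P.tgt e)) → P.CM n) := by
      ext c
      simp [Finset.sum_apply, Pi.single_apply]
    conv_lhs => rw [hw]
    show _ = Ideal.Quotient.mk (J ^ (m + 1)) (∑ c, v c * D e c b i)
    simp only [map_sum, map_smul, Finset.sum_apply, Pi.smul_apply, smul_eq_mul, map_mul, hv, hD,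
      ← hL]
    rfl
  -- the joint map of a stage
  let f : ∀ m, Ser O P.n →ₐ[O]
      (∀ v, Matrix (Fin (P.d v)) (Fin (P.d v)) (P.CM m)) × (O ⧸ maximalIdeal O ^ (m + 1)) :=
    fun m => (AlgHom.pi fun v => (x m).act v).prod (x m).pt
  have hN : ∀ m, ∃ N, I ^ N ≤ RingHom.ker (f m) := fun m => by
    have := Shape.finite_quotient_scalars (O := O) (m + 1)
    exact Lowering.P5.exists_pow_le_ker (f m)
  choose N hN using hN
  have hker : ∀ {m y}, y ∈ I ^ N m → (∀ v, (x m).act v y = 0) ∧ (x m).pt y = 0 := fun {m y} hy => by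
    have h0 : f m y = 0 := hN m hy
    exact ⟨fun v => congrFun (congrArg Prod.fst h0) v, congrArg Prod.snd h0⟩
  -- levels whose variables agree with the limit
  have hlev : ∀ m, ∃ (n : ℕ) (h : m ≤ n) (L : P.Level (n + 1)), L.stage.reduce h = x m ∧
      ∀ j, ξ j - L.ξ j ∈ I ^ N m := by
    intro m
    obtain ⟨n, h, L, hb, hL, hL'⟩ := hx (N m) m
    refine ⟨n, h, L, hL, fun j => ?_⟩
    have h2 := hξ j (N m)
    rw [← hL' (N m) hb (le_max_left _ _)] at h2
    exact Ideal.pow_le_pow_right (Nat.le_succ _) (Ideal.Quotient.eq.1 h2)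
  let node : Fin P.nodes → Patched O P.n P.s := fun v =>
    { d := P.d v
      d_pos := P.d_pos v
      act := act v
      ξ := ξ
      ξ_mem := fun j => by
        obtain ⟨n, h, L, -, hL, -⟩ := hx 0 0
        have h1 := hξ j 0
        rw [← hL] at h1
        have h2 : ξ j - L.ξ j ∈ I ^ (0 + 1) := Ideal.Quotient.eq.1 h1
        rw [pow_one] at h2
        have h3 := add_mem h2 (L.ξ_mem j)
        rwa [sub_add_cancel] at h3
      w := P.w
      w_dvd := P.w_dvd
      ξ_rel := fun j => ⟨P.expo, hext _ _ fun m => by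
        obtain ⟨n, h, L, hL, hξL⟩ := hlev m
        have h1 : Mat v (ξ j) = act v (ξ j) := rfl
        have h2 : (x m).act v (ξ j) = (P.redC h).mapMatrix (L.act v (L.ξ j)) := by
          have h3 := (hker (hξL j)).1 v
          rw [map_sub, sub_eq_zero] at h3
          rw [h3, ← hL]
          rfl
        have h4 := congrArg (P.redC h).mapMatrix (L.ξ_rel v j)
        rw [map_pow, map_sub, map_zero, ← h2] at h4
        show (Ideal.Quotient.mk (J ^ (m + 1))).mapMatrix _ = _
        rw [map_pow, map_sub, RingHom.mapMatrix_apply, ← h1, hMat]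
        convert h4 using 2
        · congr 1
          ext i l
          simp only [RingHom.mapMatrix_apply, AlgHom.mapMatrix_apply, Matrix.map_apply,
            Matrix.algebraMap_matrix_apply, Algebra.algebraMap_self, RingHom.id_apply]
          split_ifs
          · rfl
          · simp
        · exact Matrix.map_zero _ (map_zero _)⟩
      mem := fun y hy => by
        refine ⟨N 0, fun i j => ?_⟩
        have h0 := (hker (m := 0) (Ideal.pow_mem_pow hy (N 0))).1 v
        show (act v y ^ N 0) i j ∈ J
        rw [← map_pow, ← pow_one J]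
        refine Ideal.Quotient.eq_zero_iff_mem.1 ?_
        exact (congrFun (congrFun (hMat v (y ^ N 0) 0) i) j).trans (by rw [h0]; rfl) }
  let pair : ∀ e, Pair (node (P.src e)) (node (P.tgt e)) := fun e =>
    { i := up e
      j := down e
      i_act := fun y v => funext fun i => eq_of_forall_mk J fun m => by
        obtain ⟨n, h, L, hL, -⟩ := hlev m
        set w : Fin 2 → Fin (P.d (P.src e)) → P.CM n := fun b c => Ideal.Quotient.mk _ (v b c)
        rw [← hupL hL e (fun b => (L.act (P.src e) y).mulVec (w b)) _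
            (fun b c => hmv hL _ y (w b) (v b) (fun _ => rfl) c) i,
          L.up_act, hmv hL _ y _ (up e v) (hupL hL e w v fun _ _ => rfl) i]
      j_act := fun y v => funext fun b => funext fun i => eq_of_forall_mk J fun m => by
        obtain ⟨n, h, L, hL, -⟩ := hlev m
        set w : Fin (P.d (P.tgt e)) → P.CM n := fun c => Ideal.Quotient.mk _ (v c)
        rw [← hdownL hL e ((L.act (P.tgt e) y).mulVec w) _
            (fun c => hmv hL _ y w v (fun _ => rfl) c) b i,
          L.down_act, hmv hL _ y _ (down e v b) (hdownL hL e w v (fun _ => rfl) b) i]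
      i_inj := fun v hv b c => by
        obtain ⟨n, h, L, hL, -⟩ := hlev 0
        set w : Fin 2 → Fin (P.d (P.src e)) → P.CM n := fun b c => Ideal.Quotient.mk _ (v b c)
        have h1 : ∀ i, ¬ IsUnit (L.up e w i) := fun i hi => by
          have h2 := hi.map (P.redC h)
          rw [hupL hL e w v (fun _ _ => rfl) i, Ideal.Quotient.eq_zero_iff_mem.2
            (by rw [pow_one]; exact hv i)] at h2
          have : Nontrivial (P.CM 0) := Ideal.Quotient.nontrivial_iff.2 (by
            rw [pow_one]; exact (maximalIdeal.isMaximal _).ne_top)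
          exact not_isUnit_zero h2
        have h3 := L.up_inj e w h1 b c
        rw [mem_maximalIdeal, mem_nonunits_iff]
        exact fun hu => h3 (hu.map _)
      j_surj := by
        refine LinearMap.range_eq_top.1 (eq_top_iff.2 ?_)
        refine Submodule.le_of_le_smul_of_le_jacobson_bot Module.Finite.fg_top
          (maximalIdeal_le_jacobson (⊥ : Ideal (Ser O P.s))) fun y _ => ?_
        obtain ⟨n, h, L, hL, -⟩ := hlev 0
        obtain ⟨w, hw⟩ := L.down_surj e fun b c => Ideal.Quotient.mk _ (y b c)
        choose w' hw' using fun c => Ideal.Quotient.mk_surjective (w c)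
        refine Submodule.mem_sup.2 ⟨down e w', LinearMap.mem_range_self _ _, y - down e w', ?_,
          add_sub_cancel _ _⟩
        refine mem_smul_top_fun₂ J fun b c => ?_
        have h1 := hdownL hL e w w' (fun c => by rw [← hw' c]; rfl) b c
        rw [hw, hmk, Ideal.Quotient.eq, pow_one] at h1
        exact h1
      A := P.comp e
      comp := fun v b => funext fun i => eq_of_forall_mk J fun m => by
        obtain ⟨n, h, L, hL, -⟩ := hlev m
        set w : Fin 2 → Fin (P.d (P.src e)) → P.CM n := fun b c => Ideal.Quotient.mk _ (v b c)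
        rw [← hdownL hL e _ _ (hupL hL e w v fun _ _ => rfl) b i, L.comp_eq, Finset.sum_apply,
          Finset.sum_apply, map_sum, map_sum]
        exact Finset.sum_congr rfl fun c _ => hmv hL _ _ (w c) (v c) (fun _ => rfl) i }
  have hcc : ∀ v y, (act v y).map MvPowerSeries.constantCoeff ∈ P.A0 v := by
    intro v y
    refine Lowering.P5.mem_of_forall_mem_sup (Subalgebra.toSubmodule (P.A0 v)) _ fun m => ?_
    obtain ⟨n, h, L, hL, -⟩ := hlev m
    obtain ⟨a, ha, ha'⟩ := L.base v y
    refine Submodule.mem_sup.2 ⟨a, ha, (act v y).map MvPowerSeries.constantCoeff - a, ?_,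
      add_sub_cancel _ _⟩
    rw [Matrix.matrix_eq_sum_single ((act v y).map MvPowerSeries.constantCoeff - a)]
    refine Submodule.sum_mem _ fun i _ => Submodule.sum_mem _ fun j _ => ?_
    obtain ⟨b, hb, hb'⟩ := ha' i j
    have h1 := hact hL v y i j
    rw [hb, hmk, Ideal.Quotient.eq] at h1
    have h2 := constantCoeff_mem_pow h1
    rw [map_sub] at h2
    have h3 : MvPowerSeries.constantCoeff (act v y i j) - a i j ∈ maximalIdeal O ^ m := by
      have := sub_mem (Ideal.pow_le_pow_right (by omega : m ≤ n + 1) hb')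
        (Ideal.pow_le_pow_right (Nat.le_succ m) h2)
      rwa [show MvPowerSeries.constantCoeff (act v y i j) - a i j =
        MvPowerSeries.constantCoeff b - a i j - (MvPowerSeries.constantCoeff b -
          MvPowerSeries.constantCoeff (act v y i j)) by ring]
    rw [Matrix.sub_apply, Matrix.map_apply, ← mul_one (_ - a i j), ← smul_eq_mul,
      ← Matrix.smul_single]
    exact Submodule.smul_mem_smul h3 Submodule.mem_top
  refine ⟨{
    node := node
    d_eq := fun _ => rfl
    rel := fun v y hy => ⟨P.expo, hext _ _ fun m => ?_⟩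
    pair := pair
    pair_A := fun _ => rfl
    old_range := fun e y hy => ⟨P.expo, fun v => ?_⟩
    special := fun c y i j => ?_
    pt := pt
    pt_ξ := fun v j => hptext fun m => ?_
    fix_spec := fun v xa hxa i j => ?_
    pt_fix := fun xc hxc => hptext fun m => ?_
    gen := fun u => ?_
    char := fun v hv act0 h0 y hy => ?_
    base := fun v => ?_ }⟩
  · obtain ⟨n, h, L, hL, -⟩ := hlev m
    ext i j
    show Ideal.Quotient.mk (J ^ (m + 1)) ((act v y ^ P.expo) i j) =
      Ideal.Quotient.mk (J ^ (m + 1)) 0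
    rw [← map_pow, ← hact hL, map_pow, L.rel v y hy, Matrix.zero_apply, map_zero, map_zero]
  · refine Lowering.P5.mem_of_forall_mem_sup _ _ fun m => ?_
    obtain ⟨n, h, L, hL, -⟩ := hlev m
    set w : Fin (P.d (P.tgt e)) → P.CM n := fun c => Ideal.Quotient.mk _ (v c)
    obtain ⟨u, hu⟩ := L.old_range e y hy w
    choose u' hu' using fun b c => Ideal.Quotient.mk_surjective (u b c)
    refine Submodule.mem_sup.2 ⟨up e u', LinearMap.mem_range_self _ _,
      (act (P.tgt e) y ^ P.expo).mulVec v - up e u', ?_, add_sub_cancel _ _⟩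
    refine mem_smul_top_fun _ fun i => ?_
    have h1 := hupL hL e u u' (fun b c => by rw [← hu' b c]; rfl) i
    rw [hu, hmvp hL _ y P.expo w v (fun _ => rfl) i, Ideal.Quotient.eq] at h1
    exact Ideal.pow_le_pow_right (Nat.le_succ m) h1
  · refine Lowering.P5.mem_of_forall_mem_sup _ _ fun m => ?_
    obtain ⟨n, h, L, hL, -⟩ := hlev m
    have h1 := Ideal.mem_map_of_mem (P.redC h) (L.congr c y i j)
    rw [map_sub, hact hL, hact hL, ← map_sub, ← Ideal.map_coe, Ideal.map_map,
      AlgHom.comp_algebraMap, IsScalarTower.algebraMap_eq O (Ser O P.s) (P.CM m), ← Ideal.map_map,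
      Ideal.Quotient.algebraMap_eq, Ideal.mem_map_iff_of_surjective _ Ideal.Quotient.mk_surjective]
      at h1
    obtain ⟨b, hb, hb'⟩ := h1
    rw [smul_eq_mul, Ideal.mul_top]
    refine Submodule.mem_sup.2 ⟨b, hb, _, ?_, add_sub_cancel _ _⟩
    exact Ideal.pow_le_pow_right (Nat.le_succ m) (Ideal.Quotient.eq.1 hb'.symm)
  · obtain ⟨n, h, L, hL, hξL⟩ := hlev m
    show Ideal.Quotient.mk _ (zp (ξ j)) = _
    have h3 := (hker (hξL j)).2
    rw [map_sub, sub_eq_zero] at h3
    rw [hzp, h3, ← hL, map_zero]
    show Shape.redO h (L.pt (L.ξ j)) = 0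
    rw [L.pt_ξ, map_zero]
  · show MvPowerSeries.constantCoeff (act v xa.1 i j) = xa.2 i j
    rw [← sub_eq_zero]
    refine IsHausdorff.haus (I := maximalIdeal O) inferInstance _ fun m => ?_
    rw [SModEq.zero, smul_eq_mul, Ideal.mul_top]
    obtain ⟨n, h, L, hL, -⟩ := hlev m
    obtain ⟨b, hb, hb'⟩ := L.fix_spec v xa hxa i j
    have h1 := hact hL v xa.1 i j
    rw [hb, hmk, Ideal.Quotient.eq] at h1
    have h2 := constantCoeff_mem_pow h1
    rw [map_sub] at h2
    have h3 := sub_mem (Ideal.pow_le_pow_right (by omega : m ≤ n + 1) hb')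
      (Ideal.pow_le_pow_right (Nat.le_succ m) h2)
    rwa [show MvPowerSeries.constantCoeff (act v xa.1 i j) - xa.2 i j =
      MvPowerSeries.constantCoeff b - xa.2 i j - (MvPowerSeries.constantCoeff b -
        MvPowerSeries.constantCoeff (act v xa.1 i j)) by ring]
  · obtain ⟨n, h, L, hL, -⟩ := hlev m
    show Ideal.Quotient.mk _ (zp xc.1) = _
    rw [hzp, ← hL]
    show Shape.redO h (L.pt xc.1) = _
    rw [L.pt_fix xc hxc]
    rfl
  · -- the bound on generators
    let K : ℕ → Ideal (Ser O P.n) := fun m => (⨅ v ∈ P.patNodes u, RingHom.ker ((x m).act v)) ⊓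
      (if P.patPoint u then RingHom.ker (x m).pt else ⊤)
    have hK : Antitone K := by
      intro m n h y hy
      simp only [K, Submodule.mem_inf, Submodule.mem_iInf, RingHom.mem_ker] at hy ⊢
      refine ⟨fun v hv => ?_, ?_⟩
      · rw [← hc m n h]
        show (P.redC h).mapMatrix ((x n).act v y) = 0
        rw [hy.1 v hv, map_zero]
      · split_ifs with hp
        · have := hy.2
          rw [if_pos hp, RingHom.mem_ker] at this
          rw [RingHom.mem_ker, ← hc m n h]
          show Shape.redO h ((x n).pt y) = 0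
          rw [this, map_zero]
        · trivial
    have hopen : ∀ m, ∃ c, I ^ c ≤ K m := fun m => ⟨N m, fun y hy => by
      simp only [K, Submodule.mem_inf, Submodule.mem_iInf, RingHom.mem_ker]
      refine ⟨fun v _ => (hker hy).1 v, ?_⟩
      split_ifs
      · exact (hker hy).2
      · trivial⟩
    obtain ⟨M, hM⟩ := exists_le_sup_pow I
      (fun k => Lowering.P5.finite_quotient_pow_maximalIdeal _ k) K hK hopen 2
    set E := (⨅ v ∈ P.patNodes u, RingHom.ker (node v).act) ⊓
        (if P.patPoint u then RingHom.ker pt else ⊤) ⊔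
      Ideal.span (P.patEqs u : Set (Ser O P.n))
    have hinf : (⨅ m, K m) ≤ E := by
      intro y hy
      refine Submodule.mem_sup_left ?_
      simp only [K, Submodule.mem_inf, Submodule.mem_iInf, RingHom.mem_ker] at hy
      simp only [Submodule.mem_inf, Submodule.mem_iInf, RingHom.mem_ker]
      refine ⟨fun v hv => hext _ _ fun m => ?_, ?_⟩
      · show (Mat v y).map _ = _
        rw [hMat, (hy m).1 v hv]
        exact (Matrix.map_zero _ (map_zero _)).symm
      · split_ifs with hp
        · refine hptext fun m => ?_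
          have := (hy m).2
          rw [if_pos hp, RingHom.mem_ker] at this
          show Ideal.Quotient.mk _ (zp y) = _
          rw [hzp, this, map_zero]
        · trivial
    obtain ⟨n, h, L, hL, -⟩ := hlev M
    have hsp : ∀ y : Ser O P.n, ∃ z, y - L.gen u z ∈ E ⊔ I ^ 2 := by
      intro y
      obtain ⟨z, e, he, hv, hp⟩ := L.gen_spec u y
      refine ⟨z, ?_⟩
      have h1 : y - L.gen u z - e ∈ K M := by
        simp only [K, Submodule.mem_inf, Submodule.mem_iInf, RingHom.mem_ker]
        refine ⟨fun v hv' => ?_, ?_⟩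
        · rw [← hL]
          show (P.redC h).mapMatrix (L.act v _) = 0
          rw [hv v hv', map_zero]
        · split_ifs with hp'
          · rw [RingHom.mem_ker, ← hL]
            show Shape.redO h (L.pt _) = 0
            rw [hp hp', map_zero]
          · trivial
      have h2 : y - L.gen u z - e ∈ E ⊔ I ^ 2 := sup_le_sup_right hinf _ (hM h1)
      rw [← sub_add_cancel (y - L.gen u z) e]
      exact add_mem h2 (Submodule.mem_sup_left (Submodule.mem_sup_right he))
    exact genBound_of_forall E (L.gen u) hsp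
  · have hpt : ∀ j, pt ((node v).ξ j) = 0 := fun j => hptext fun m => by
      obtain ⟨n, h, L, hL, hξL⟩ := hlev m
      show Ideal.Quotient.mk _ (zp (ξ j)) = _
      have h3 := (hker (hξL j)).2
      rw [map_sub, sub_eq_zero] at h3
      rw [hzp, h3, ← hL, map_zero]
      show Shape.redO h (L.pt (L.ξ j)) = 0
      rw [L.pt_ξ, map_zero]
    exact apply_eq_zero_of_inSupp (node v) pt hv hpt fun i j => (h0 y i j).trans (by rw [hy]; rfl)
  · exact ⟨((coeffZero P.s).mapMatrix.comp (act v)).codRestrict (P.A0 v) (hcc v),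
      fun _ _ _ => rfl⟩

/-- Levels modulo every power give a patched outcome. -/
theorem targetLimit : TargetLimit := by
  intro O _ _ _ _ _ P hP
  exact P.exists_limit hP

end FLTAgent.ModLift.Patch
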