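import Mathlib

/-!
# Power series over normal Noetherian domains

A formal power series ring over an integrally closed Noetherian domain is integrally closed.
-/

set_option autoImplicit false

noncomputable section

namespace FLTAgent.ModLift.Patch

open PowerSeries

variable {R : Type*} [CommRing R] [IsDomain R] [IsNoetherianRing R] [IsIntegrallyClosed R]

/-- The coefficients of an almost integral series lie in the ring. -/
theorem coeff_mem_range_of_almostIntegral {K : Type*} [Field K] [Algebra R K] [IsFractionRing R K]
    {c : PowerSeries R} (hc : c ≠ 0) (k : ℕ) :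
    ∀ f : PowerSeries K, (∀ n : ℕ, PowerSeries.map (algebraMap R K) c * f ^ n ∈
      (PowerSeries.map (algebraMap R K)).range) →
    PowerSeries.coeff k f ∈ (algebraMap R K).range := by
  set ι := PowerSeries.map (algebraMap R K)
  have h0 : ∀ f : PowerSeries K, (∀ n : ℕ, ι c * f ^ n ∈ ι.range) →
      PowerSeries.constantCoeff f ∈ (algebraMap R K).range := by
    intro f hf
    obtain ⟨m, hm, hmin⟩ : ∃ m, PowerSeries.coeff m c ≠ 0 ∧ ∀ j < m, PowerSeries.coeff j c = 0 := by
      classical
      have h := PowerSeries.exists_coeff_ne_zero_iff_ne_zero.2 hc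
      exact ⟨Nat.find h, Nat.find_spec h, fun j hj => not_not.1 (Nat.find_min h hj)⟩
    have ha : IsAlmostIntegral R (PowerSeries.constantCoeff f) := by
      refine ⟨PowerSeries.coeff m c, mem_nonZeroDivisors_of_ne_zero hm, fun n => ?_⟩
      obtain ⟨r, hr⟩ := hf n
      refine ⟨PowerSeries.coeff m r, ?_⟩
      have h1 := congrArg (PowerSeries.coeff m) hr
      rw [PowerSeries.coeff_map, PowerSeries.coeff_mul, Finset.sum_eq_single (m, 0)] at h1
      · rw [h1, Algebra.smul_def, PowerSeries.coeff_map, PowerSeries.coeff_zero_eq_constantCoeff,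
          map_pow]
      · rintro ⟨i, j⟩ hij hne
        rw [Finset.HasAntidiagonal.mem_antidiagonal] at hij
        have hi : i < m := by
          by_contra h
          exact hne (Prod.ext (show i = m by omega) (show j = 0 by omega))
        rw [PowerSeries.coeff_map, hmin i hi, map_zero, zero_mul]
      · simp
    obtain ⟨y, hy⟩ := IsIntegrallyClosed.isIntegral_iff.1 ha.isIntegral
    exact ⟨y, hy⟩
  induction k with
  | zero =>
    intro f hf
    rw [PowerSeries.coeff_zero_eq_constantCoeff]
    exact h0 f hf
  | succ k ih =>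
    intro f hf
    obtain ⟨r, hr⟩ := h0 f hf
    obtain ⟨g, hg⟩ : (PowerSeries.X : PowerSeries K) ∣ f - PowerSeries.C (algebraMap R K r) :=
      PowerSeries.X_dvd_iff.2 (by simp [hr])
    have hf' : f = PowerSeries.C (algebraMap R K r) + PowerSeries.X * g :=
      eq_add_of_sub_eq' hg
    rw [hf', map_add, PowerSeries.coeff_C, if_neg (Nat.succ_ne_zero k), zero_add,
      PowerSeries.coeff_succ_X_mul]
    refine ih g fun n => ?_
    have h1 : ι c * (f - PowerSeries.C (algebraMap R K r)) ^ n ∈ ι.range := by
      rw [sub_eq_add_neg, add_pow, Finset.mul_sum]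
      refine Subring.sum_mem _ fun i _ => ?_
      rw [← mul_assoc, ← mul_assoc]
      refine mul_mem (mul_mem (hf i) (pow_mem ?_ _)) (natCast_mem _ _)
      exact neg_mem ⟨PowerSeries.C r, PowerSeries.map_C _ _⟩
    obtain ⟨d, hd⟩ := h1
    rw [hg, mul_pow, ← mul_assoc, mul_comm (ι c), mul_assoc] at hd
    refine ⟨PowerSeries.mk fun j => PowerSeries.coeff (j + n) d, PowerSeries.ext fun j => ?_⟩
    have h2 := congrArg (PowerSeries.coeff (j + n)) hd
    rw [PowerSeries.coeff_map, PowerSeries.coeff_X_pow_mul] at h2
    rw [PowerSeries.coeff_map, PowerSeries.coeff_mk]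
    exact h2

/-- Power series over an integrally closed Noetherian domain are integrally closed. -/
theorem isIntegrallyClosed_powerSeries : IsIntegrallyClosed (PowerSeries R) := by
  set K := FractionRing R
  set L := FractionRing (PowerSeries R)
  set M := FractionRing (PowerSeries K)
  set ι : PowerSeries R →+* PowerSeries K := PowerSeries.map (algebraMap R K)
  have hι : Function.Injective ι := PowerSeries.map_injective _ (IsFractionRing.injective R K)
  set κ := algebraMap (PowerSeries K) M
  have hκ : Function.Injective κ := IsFractionRing.injective _ _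
  have hj : Function.Injective (κ.comp ι) := hκ.comp hι
  set φ : L →+* M := IsFractionRing.lift hj
  have hφ : ∀ a, φ (algebraMap (PowerSeries R) L a) = κ (ι a) :=
    fun a => IsFractionRing.lift_algebraMap hj a
  refine (isIntegrallyClosed_iff L).2 fun {x} hx => ?_
  have hint : IsIntegral (PowerSeries K) (φ x) := by
    obtain ⟨p, hp, hpx⟩ := hx
    refine ⟨p.map ι, hp.map ι, ?_⟩
    rw [Polynomial.eval₂_map]
    have := congrArg φ hpx
    rw [map_zero, Polynomial.hom_eval₂] at this
    rw [show κ.comp ι = φ.comp (algebraMap (PowerSeries R) L) from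
      RingHom.ext fun a => (hφ a).symm]
    exact this
  obtain ⟨f, hf⟩ := IsIntegrallyClosed.isIntegral_iff.1 hint
  obtain ⟨c, hc, hcn⟩ := hx.isAlmostIntegral
  have hfc : ∀ n : ℕ, ι c * f ^ n ∈ ι.range := fun n => by
    obtain ⟨d, hd⟩ := hcn n
    refine ⟨d, hκ ?_⟩
    rw [map_mul, map_pow, hf, ← hφ, ← hφ, hd, Algebra.smul_def, map_mul, map_pow]
  choose g hg using fun k => coeff_mem_range_of_almostIntegral (nonZeroDivisors.ne_zero hc) k f hfc
  refine ⟨PowerSeries.mk g, φ.injective ?_⟩
  rw [hφ, ← hf]
  exact congrArg κ (PowerSeries.ext fun k => by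
    rw [PowerSeries.coeff_map, PowerSeries.coeff_mk, hg])

/-- Power series in finitely many variables over an integrally closed Noetherian domain are
integrally closed. -/
theorem isIntegrallyClosed_mvPowerSeries_fin :
    ∀ n : ℕ, IsIntegrallyClosed (MvPowerSeries (Fin n) R) := by
  intro n
  induction n with
  | zero =>
    exact IsIntegrallyClosed.of_equiv
      (MvPowerSeries.isEmptyEquiv (σ := Fin 0) (R := R)).symm.toRingEquiv
  | succ n ih =>
    have : IsDomain (MvPowerSeries (Fin n) R) := NoZeroDivisors.to_isDomain _
    have := isIntegrallyClosed_powerSeries (R := MvPowerSeries (Fin n) R)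
    exact IsIntegrallyClosed.of_equiv
      (MvPowerSeries.finSuccEquiv R n).symm.toRingEquiv

theorem isIntegrallyClosed_mvPowerSeries (σ : Type*) [Finite σ] :
    IsIntegrallyClosed (MvPowerSeries σ R) := by
  have := Fintype.ofFinite σ
  have := isIntegrallyClosed_mvPowerSeries_fin (R := R) (Fintype.card σ)
  exact IsIntegrallyClosed.of_equiv
    (MvPowerSeries.renameEquiv R (Fintype.equivFin σ).symm).toRingEquiv

end FLTAgent.ModLift.Patch
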