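import Fermat.Agent.ModLift.Patch.PlaneInterface
import Fermat.Agent.ModLift.Patch.Evaluation
import Fermat.Agent.ModLift.Patch.NormalSeries
import Fermat.Agent.ModLift.Patch.Algebra
import Fermat.Agent.Lowering.P5.Patching

/-!
# Parameters of the local model

If three equations at each prime cut the local model finitely over the base, the model is finite
over the power series in the equations and the base, so every prime containing the equations lies
over a prime containing them which meets the base trivially.
-/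

set_option autoImplicit false

noncomputable section

open IsLocalRing

namespace FLTAgent.ModLift.Patch

open FLTAgent.Lowering.P5

variable {O : Type} [CommRing O] [IsDomain O] [IsDiscreteValuationRing O]

/-- An algebra map between power series rings is local. -/
theorem algHom_local {σ τ : Type} (f : MvPowerSeries σ O →ₐ[O] MvPowerSeries τ O)
    {y : MvPowerSeries σ O} (hy : y ∈ maximalIdeal (MvPowerSeries σ O)) :
    f y ∈ maximalIdeal (MvPowerSeries τ O) := by
  rw [mem_maximalIdeal, mem_nonunits_iff, MvPowerSeries.isUnit_iff_constantCoeff] at hy ⊢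
  intro hc
  set c := MvPowerSeries.constantCoeff (f y)
  have hu : IsUnit (y - MvPowerSeries.C c) := by
    rw [MvPowerSeries.isUnit_iff_constantCoeff, map_sub, MvPowerSeries.constantCoeff_C]
    refine (IsLocalRing.isUnit_or_isUnit_of_isUnit_add
      (a := MvPowerSeries.constantCoeff y - c) (b := - MvPowerSeries.constantCoeff y)
      (by rw [show MvPowerSeries.constantCoeff y - c + -MvPowerSeries.constantCoeff y = -c by ring]
          exact hc.neg)).resolve_right fun h => hy (by simpa using h.neg)
  have h1 := hu.map f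
  rw [map_sub, show f (MvPowerSeries.C c) = MvPowerSeries.C c from f.commutes c,
    MvPowerSeries.isUnit_iff_constantCoeff, map_sub, MvPowerSeries.constantCoeff_C, sub_self] at h1
  exact not_isUnit_zero h1

/-- Algebra maps between power series rings agreeing on the variables are equal. -/
theorem algHom_ext_of_X [IsAdicComplete (maximalIdeal O) O] [Finite (ResidueField O)] {σ τ : Type}
    [Finite σ] [Finite τ] {f g : MvPowerSeries σ O →ₐ[O] MvPowerSeries τ O}
    (h : ∀ v, f (MvPowerSeries.X v) = g (MvPowerSeries.X v)) : f = g := by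
  have := isAdicComplete_mvPowerSeries_of_finite (O := O) τ
  refine AlgHom.ext fun x => eq_of_forall_mk (maximalIdeal (MvPowerSeries τ O)) fun m => ?_
  have := finite_quotient_pow_maximalIdeal (O := O) τ (m + 1)
  exact DFunLike.congr_fun (algHom_eq_of_X
    ((Ideal.Quotient.mkₐ O (maximalIdeal (MvPowerSeries τ O) ^ (m + 1))).comp f)
    ((Ideal.Quotient.mkₐ O (maximalIdeal (MvPowerSeries τ O) ^ (m + 1))).comp g)
    fun v => congrArg _ (h v)) x

variable {k g : ℕ}

/-- The quotient of the local model by equations in which the inertia coordinates are nilpotent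
modulo the base is finite over the base and generated by these coordinates. -/
theorem finite_quotient_of_nil [IsAdicComplete (maximalIdeal O) O] {I : Ideal (Loc O k g)}
    (hI : I ≤ maximalIdeal (Loc O k g))
    (hnil : ∀ {B : Type} [CommRing B] (π : Loc O k g →+* B), I ≤ RingHom.ker π →
      (∀ a ∈ maximalIdeal (MvPowerSeries (BaseVar k g) O), π (ofBase a) = 0) →
      ∀ t i, IsNilpotent (π (Xc t i))) :
    letI : Algebra (MvPowerSeries (BaseVar k g) O) (Loc O k g ⧸ I) :=
      ((Ideal.Quotient.mk I).comp ofBase.toRingHom).toAlgebra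
    Module.Finite (MvPowerSeries (BaseVar k g) O) (Loc O k g ⧸ I) ∧
      Algebra.adjoin (MvPowerSeries (BaseVar k g) O)
        (Set.range fun v : Fin k × Fin 3 => Ideal.Quotient.mk I (Xc v.1 v.2)) =
          (⊤ : Subalgebra (MvPowerSeries (BaseVar k g) O) (Loc O k g ⧸ I)) := by
  let : Algebra (MvPowerSeries (BaseVar k g) O) (Loc O k g ⧸ I) :=
    ((Ideal.Quotient.mk I).comp ofBase.toRingHom).toAlgebra
  set R' := MvPowerSeries (BaseVar k g) O
  set q := Ideal.Quotient.mk I
  have hal : ∀ a : R', algebraMap R' (Loc O k g ⧸ I) a = q (ofBase a) := fun a => rfl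
  have := isAdicComplete_mvPowerSeries_of_finite (O := O) (BaseVar k g)
  set M := (maximalIdeal R').map (algebraMap R' (Loc O k g ⧸ I)) with hM
  have hnt : Nontrivial (Loc O k g ⧸ I) :=
    Ideal.Quotient.nontrivial_iff.2 fun h => (maximalIdeal.isMaximal _).ne_top
      (eq_top_iff.2 (h ▸ hI))
  have : IsLocalRing (Loc O k g ⧸ I) :=
    IsLocalRing.of_surjective' q Ideal.Quotient.mk_surjective
  have : IsHausdorff M (Loc O k g ⧸ I) := by
    refine IsHausdorff.of_isLocalRing (I := M) _ fun htop => ?_
    refine (maximalIdeal.isMaximal (Loc O k g ⧸ I)).ne_top (eq_top_iff.2 ?_)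
    rw [← htop, hM, Ideal.map_le_iff_le_comap]
    intro a ha
    rw [Ideal.mem_comap, hal, mem_maximalIdeal, mem_nonunits_iff]
    intro hu
    exact (mem_maximalIdeal _).1 (algHom_local ofBase ha)
      ((IsLocalHom.of_surjective q Ideal.Quotient.mk_surjective).map_nonunit _ hu)
  have hnil' : ∀ v : Fin k × Fin 3, q (Xc v.1 v.2) ∈ M.radical := fun v => by
    obtain ⟨N, hN⟩ := hnil (B := (Loc O k g ⧸ I) ⧸ M) ((Ideal.Quotient.mk M).comp q)
      (fun x hx => by
        rw [RingHom.mem_ker, RingHom.comp_apply, Ideal.Quotient.eq_zero_iff_mem.2 hx, map_zero])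
      (fun a ha => by
        rw [RingHom.comp_apply, ← hal, Ideal.Quotient.eq_zero_iff_mem]
        exact Ideal.mem_map_of_mem _ ha) v.1 v.2
    refine ⟨N, Ideal.Quotient.eq_zero_iff_mem.1 ?_⟩
    rw [map_pow]
    exact hN
  have h := finite_and_adjoin_eq_top (maximalIdeal R') (fun v : Fin k × Fin 3 => q (Xc v.1 v.2))
    (F := {1}) (Set.finite_singleton 1) (fun x => ?_) hnil'
  · refine ⟨h.1, eq_top_iff.2 (h.2 ▸ Algebra.adjoin_le (Set.union_subset ?_ Algebra.subset_adjoin))⟩
    rintro _ rfl
    exact one_mem _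
  · obtain ⟨x, rfl⟩ := Ideal.Quotient.mk_surjective x
    refine ⟨q (ofBase (toBaseLoc x)), Submodule.mem_span_singleton.2 ⟨toBaseLoc x, ?_⟩, ?_⟩
    · rw [Algebra.smul_def, mul_one, hal]
    · rw [← map_sub, ← Function.comp_def (f := q), Set.range_comp, ← Ideal.map_span]
      exact Ideal.mem_map_of_mem _ (sub_ofBase_mem x)

/-- The local model as an algebra over the parameters. -/
def Model (O : Type) [CommRing O] (k g : ℕ) : Type := Loc O k g

instance : CommRing (Model O k g) := inferInstanceAs (CommRing (Loc O k g))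

instance : IsLocalRing (Model O k g) := inferInstanceAs (IsLocalRing (Loc O k g))

instance : IsNoetherianRing (Model O k g) := inferInstanceAs (IsNoetherianRing (Loc O k g))

/-- A prime containing three equations at each prime cutting the model finitely over the base
contains a prime which contains them and meets the base trivially. -/
theorem exists_prime_below [IsAdicComplete (maximalIdeal O) O] [Finite (ResidueField O)]
    (f : Fin k × Fin 3 → Loc O k g) (hf : ∀ v, f v ∈ maximalIdeal (Loc O k g))
    (hnil : ∀ {B : Type} [CommRing B] (π : Loc O k g →+* B), (∀ v, π (f v) = 0) →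
      (∀ a ∈ maximalIdeal (MvPowerSeries (BaseVar k g) O), π (ofBase a) = 0) →
      ∀ t i, IsNilpotent (π (Xc t i)))
    (P : Ideal (Loc O k g)) [P.IsPrime] (hP : ∀ v, f v ∈ P) :
    ∃ Q : Ideal (Loc O k g), Q.IsPrime ∧ Q ≤ P ∧ (∀ v, f v ∈ Q) ∧
      ∀ a, ofBase a ∈ Q → a = 0 := by
  classical
  have := isAdicComplete_mvPowerSeries_of_finite (O := O) (LocVar k g)
  have hdom : IsDomain (Loc O k g) := NoZeroDivisors.to_isDomain _
  let a : LocVar k g → Loc O k g := Sum.elim f fun b => MvPowerSeries.X (Sum.inr b)
  obtain ⟨θ, hθ⟩ := exists_evalAlgHom (O := O) a (fun v => by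
    rcases v with v | b
    · exact hf v
    · rw [mem_maximalIdeal, mem_nonunits_iff, MvPowerSeries.isUnit_iff_constantCoeff]
      simp [a])
  have hbase : θ.comp ofBase = ofBase := algHom_ext_of_X fun b => by
    rw [AlgHom.comp_apply, ofBase_X, hθ]
    rfl
  have hbase' : ∀ x, θ (ofBase x) = ofBase x := fun x => DFunLike.congr_fun hbase x
  have hfin : θ.toRingHom.Finite := by
    let θ' : Loc O k g →+* Model O k g := θ.toRingHom
    let : Algebra (Loc O k g) (Model O k g) := θ'.toAlgebra
    set M : Ideal (Loc O k g) := (maximalIdeal (Loc O k g)).map θ.toRingHom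
    set M' : Ideal (Model O k g) :=
      (maximalIdeal (Loc O k g)).map (algebraMap (Loc O k g) (Model O k g))
    have : IsHausdorff M' (Model O k g) := by
      refine IsHausdorff.of_isLocalRing (I := M') _ fun htop => ?_
      refine (maximalIdeal.isMaximal (Model O k g)).ne_top (eq_top_iff.2 ?_)
      rw [← htop]
      exact Ideal.map_le_iff_le_comap.2 fun y hy => algHom_local θ hy
    let G : Fin k × Fin 3 → Model O k g := fun v => (Xc v.1 v.2 : Loc O k g)
    refine (finite_and_adjoin_eq_top (R := Loc O k g) (B := Model O k g) (maximalIdeal (Loc O k g))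
      G (F := ({1} : Set (Model O k g)))
      (Set.finite_singleton 1) (fun x => ?_)
      fun v => ?_).1
    · refine ⟨algebraMap (Loc O k g) (Model O k g) (ofBase (toBaseLoc x)),
        Submodule.mem_span_singleton.2 ⟨ofBase (toBaseLoc x), by rw [Algebra.smul_def, mul_one]⟩,
        ?_⟩
      show (show Loc O k g from x) - θ (ofBase (toBaseLoc x)) ∈ Ideal.span
        (Set.range fun v : Fin k × Fin 3 => (Xc v.1 v.2 : Loc O k g))
      rw [hbase']
      exact sub_ofBase_mem x
    · obtain ⟨N, hN⟩ := hnil (Ideal.Quotient.mk M) (fun w => Ideal.Quotient.eq_zero_iff_mem.2 (by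
          rw [show f w = θ (MvPowerSeries.X (Sum.inl w)) from (hθ (Sum.inl w)).symm]
          exact Ideal.mem_map_of_mem θ.toRingHom (by
            rw [mem_maximalIdeal, mem_nonunits_iff, MvPowerSeries.isUnit_iff_constantCoeff]
            simp)))
        (fun y hy => Ideal.Quotient.eq_zero_iff_mem.2 (by
          rw [← hbase']
          exact Ideal.mem_map_of_mem θ.toRingHom (algHom_local ofBase hy))) v.1 v.2
      refine ⟨N, ?_⟩
      have h1 : (Xc v.1 v.2 : Loc O k g) ^ N ∈ M :=
        Ideal.Quotient.eq_zero_iff_mem.1 ((map_pow (Ideal.Quotient.mk M) _ N).trans hN)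
      exact h1
  have hinj : Function.Injective θ.toRingHom :=
    injective_of_finite_of_dim le_rfl θ.toRingHom hfin (RingHom.id _) (RingHom.Finite.id _)
      Function.injective_id
  set q0 : Ideal (Loc O k g) := Ideal.span
    (MvPowerSeries.X '' ((Finset.univ.image (Sum.inl : Fin k × Fin 3 → LocVar k g)) : Set _))
    with hq0
  have hq0p : q0.IsPrime := by
    have : IsDomain (MvPowerSeries
        {i // i ∉ Finset.univ.image (Sum.inl : Fin k × Fin 3 → LocVar k g)} O) :=
      NoZeroDivisors.to_isDomain _
    rw [hq0, span_X_eq_ker]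
    exact RingHom.ker_isPrime _
  have hq0P : q0 ≤ P.comap θ.toRingHom := by
    rw [hq0, Ideal.span_le]
    rintro _ ⟨i, hi, rfl⟩
    obtain ⟨v, -, rfl⟩ := Finset.mem_image.1 hi
    show θ (MvPowerSeries.X (Sum.inl v)) ∈ P
    rw [hθ]
    exact hP v
  obtain ⟨Q, hQP, hQ, hQq⟩ : ∃ Q ≤ P, Q.IsPrime ∧ Q.comap θ.toRingHom = q0 := by
    let θ' : Loc O k g →+* Model O k g := θ.toRingHom
    let : Algebra (Loc O k g) (Model O k g) := θ'.toAlgebra
    have : IsDomain (Model O k g) := hdom
    have : IsIntegrallyClosed (Loc O k g) := isIntegrallyClosed_mvPowerSeries _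
    have : Algebra.IsIntegral (Loc O k g) (Model O k g) := ⟨RingHom.Finite.to_isIntegral hfin⟩
    have : FaithfulSMul (Loc O k g) (Model O k g) :=
      (faithfulSMul_iff_algebraMap_injective _ _).2 hinj
    let P' : Ideal (Model O k g) := P
    have : P'.IsPrime := ‹P.IsPrime›
    have : P'.LiesOver (P.comap θ.toRingHom) := ⟨rfl⟩
    obtain ⟨Q, hQP, hQ, hQl⟩ := Ideal.exists_ideal_le_liesOver_of_le (R := Loc O k g)
      (p := q0) (q := P.comap θ.toRingHom) P' hq0P
    exact ⟨Q, hQP, hQ, hQl.over.symm⟩
  refine ⟨Q, hQ, hQP, fun v => ?_, fun x hx => ?_⟩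
  · have : (MvPowerSeries.X (Sum.inl v) : Loc O k g) ∈ Q.comap θ.toRingHom := by
      rw [hQq]
      exact Ideal.subset_span ⟨_, Finset.mem_image_of_mem _ (Finset.mem_univ v), rfl⟩
    rw [Ideal.mem_comap] at this
    rwa [show f v = θ (MvPowerSeries.X (Sum.inl v)) from (hθ (Sum.inl v)).symm]
  · have h1 : ofBase x ∈ q0 := by
      rw [← hQq, Ideal.mem_comap]
      show θ (ofBase x) ∈ Q
      rwa [hbase']
    have h2 : q0 ≤ RingHom.ker (toBaseLoc (O := O) (k := k) (g := g)).toRingHom := by
      rw [hq0, Ideal.span_le]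
      rintro _ ⟨i, hi, rfl⟩
      obtain ⟨v, -, rfl⟩ := Finset.mem_image.1 hi
      exact toBaseLoc_Xc v.1 v.2
    simpa using h2 h1

end FLTAgent.ModLift.Patch
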