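import Fermat.Agent.ModLift.Patch.PlaneTower
import Fermat.Agent.Lowering.P5.Restricted

/-!
# Roots of the quartics over power series
-/

set_option autoImplicit false

noncomputable section

open IsLocalRing

namespace FLTAgent.ModLift.Patch

open FLTAgent.Lowering.P5 (Reduction restricted restrictedRed rescale_mem_restricted
  coe_restrictedRed)

section Generic

variable (O : Type) [CommRing O] [IsDomain O] [IsDiscreteValuationRing O] (k g : ℕ)

/-- Roots of the quartics with parameters `u / δ` satisfy the same relations over the fractions of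
`O⟦u, g⟧` in every field. -/
theorem eval₂_eq_zero_of_plane_roots [IsAdicComplete (maximalIdeal O) O] {δ : O} (hδ0 : δ ≠ 0)
    (hδ : δ ∈ maximalIdeal O) (η : Fin k → O)
    (G : MvPolynomial (Fin k) (FractionRing (MvPowerSeries ((Fin k × Fin 3) ⊕ Fin g) O)))
    {Ω : Type} [Field Ω] (ψ : FractionRing (MvPowerSeries ((Fin k × Fin 3) ⊕ Fin g) O) →+* Ω)
    (c : Fin k → Ω)
    {Ω' : Type} [Field Ω'] (ψ' : FractionRing (MvPowerSeries ((Fin k × Fin 3) ⊕ Fin g) O) →+* Ω')
    (c' : Fin k → Ω')
    (hc : ∀ t, (quartic (algebraMap (MvPowerSeries ((Fin k × Fin 3) ⊕ Fin g) O) (FractionRing _)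
        (MvPowerSeries.C (η t))) fun i => algebraMap (MvPowerSeries ((Fin k × Fin 3) ⊕ Fin g) O)
        (FractionRing _) (MvPowerSeries.X (Sum.inl (t, i))) /
          algebraMap (MvPowerSeries ((Fin k × Fin 3) ⊕ Fin g) O) (FractionRing _) (MvPowerSeries.C δ)).eval₂ ψ (c t) = 0)
    (hc' : ∀ t, (quartic (algebraMap (MvPowerSeries ((Fin k × Fin 3) ⊕ Fin g) O) (FractionRing _)
        (MvPowerSeries.C (η t))) fun i => algebraMap (MvPowerSeries ((Fin k × Fin 3) ⊕ Fin g) O)
        (FractionRing _) (MvPowerSeries.X (Sum.inl (t, i))) /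
          algebraMap (MvPowerSeries ((Fin k × Fin 3) ⊕ Fin g) O) (FractionRing _) (MvPowerSeries.C δ)).eval₂ ψ' (c' t) = 0)
    (h : MvPolynomial.eval₂ ψ c G = 0) : MvPolynomial.eval₂ ψ' c' G = 0 := by
  obtain ⟨w, hw⟩ := IsDiscreteValuationRing.exists_irreducible O
  have hker : ∀ a : O, residue O a = 0 ↔ w ∣ a := fun a => by
    rw [IsLocalRing.residue_eq_zero_iff, hw.maximalIdeal_eq, Ideal.mem_span_singleton]
  have hdδ : w ∣ δ := by rwa [← Ideal.mem_span_singleton, ← hw.maximalIdeal_eq]
  let σ := (Fin k × Fin 3) ⊕ Fin g
  let E := restricted w σ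
  let L := FractionRing (MvPolynomial (Fin g) (ResidueField O))
  let split : MvPolynomial σ (ResidueField O) →+* MvPolynomial (Fin k × Fin 3) L :=
    (MvPolynomial.map (algebraMap (MvPolynomial (Fin g) (ResidueField O)) L)).comp
      (MvPolynomial.sumRingEquiv (ResidueField O) (Fin k × Fin 3) (Fin g)).toRingHom
  have hsplit : Function.Injective split :=
    (MvPolynomial.map_injective _ (IsFractionRing.injective _ _)).comp (RingEquiv.injective _)
  let red := split.comp (restrictedRed w σ (residue O) ((hker w).2 dvd_rfl))
  let wE : E := ⟨MvPowerSeries.C w, fun n => (Set.finite_singleton 0).subset fun e he => by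
    by_contra hne
    classical exact he (by simp [MvPowerSeries.coeff_C, show e ≠ 0 from hne])⟩
  let T : Reduction E wE L (Fin k × Fin 3) :=
    { red := red
      ker := fun f => by
        show split _ = 0 ↔ _
        rw [hsplit.eq_iff' (map_zero _), ← (MvPolynomial.coe_injective (σ := σ)
          (R := ResidueField O)).eq_iff, coe_restrictedRed, MvPolynomial.coe_zero]
        constructor
        · intro h0
          have hd : ∀ e, w ∣ MvPowerSeries.coeff e (f : MvPowerSeries σ O) := fun e =>
            (hker _).1 (by simpa using congrArg (MvPowerSeries.coeff e) h0)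
          choose q hq using hd
          let Q : MvPowerSeries σ O := fun e => q e
          have hQ : ∀ e, MvPowerSeries.coeff e Q = q e := fun e => rfl
          refine ⟨⟨Q, fun n => (f.2 (n + 1)).subset fun e he => ?_⟩, Subtype.ext
            (MvPowerSeries.ext fun e => ?_)⟩
          · intro hd
            rw [hq e, pow_succ'] at hd
            exact he (by rw [hQ]; exact (mul_dvd_mul_iff_left hw.ne_zero).1 hd)
          · show _ = MvPowerSeries.coeff e (MvPowerSeries.C w * Q)
            rw [MvPowerSeries.coeff_C_mul, hQ, ← hq e]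
        · rintro ⟨q, rfl⟩
          ext e
          show residue O (MvPowerSeries.coeff e (MvPowerSeries.C w * (q : MvPowerSeries σ O))) = _
          rw [MvPowerSeries.coeff_C_mul, map_mul, (hker w).2 dvd_rfl, zero_mul, map_zero]
      sep := fun f hf => Subtype.ext (MvPowerSeries.ext fun e => by
        rw [ZeroMemClass.coe_zero, map_zero]
        refine IsHausdorff.haus (I := maximalIdeal O) inferInstance _ fun n => ?_
        rw [SModEq.zero, smul_eq_mul, Ideal.mul_top, hw.maximalIdeal_eq,
          Ideal.span_singleton_pow, Ideal.mem_span_singleton]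
        obtain ⟨q, rfl⟩ := hf n
        refine ⟨MvPowerSeries.coeff e (q : MvPowerSeries σ O), ?_⟩
        show MvPowerSeries.coeff e ((MvPowerSeries.C w) ^ n * (q : MvPowerSeries σ O)) = _
        rw [← map_pow, MvPowerSeries.coeff_C_mul])
      nzd := fun f hf => Subtype.ext (by
        have h0 := congrArg Subtype.val hf
        have hC : (MvPowerSeries.C w : MvPowerSeries σ O) ≠ 0 := fun h0 =>
          hw.ne_zero (by simpa using congrArg MvPowerSeries.constantCoeff h0)
        have : IsDomain (MvPowerSeries σ O) := NoZeroDivisors.to_isDomain _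
        exact (mul_eq_zero.1 h0).resolve_left hC) }
  let φ : MvPowerSeries σ O →+* E :=
    (MvPowerSeries.rescale fun _ => δ).codRestrict E fun f => rescale_mem_restricted w σ hdδ f
  have hφ : Function.Injective φ := fun f f' hff => MvPowerSeries.ext fun e => by
    have := congrArg (fun x : E => MvPowerSeries.coeff e (x : MvPowerSeries σ O)) hff
    simp only [φ, RingHom.codRestrict_apply, MvPowerSeries.coeff_rescale] at this
    exact mul_left_cancel₀ (Finset.prod_ne_zero_iff.2 fun i _ => pow_ne_zero _ hδ0) this
  have : IsDomain E := T.isDomain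
  let uB : Fin k → Fin 3 → E := fun t i => ⟨MvPowerSeries.X (Sum.inl (t, i)),
    fun n => (Set.finite_singleton (Finsupp.single (Sum.inl (t, i)) 1)).subset fun e he => by
      by_contra hne
      classical exact he (by simp [MvPowerSeries.coeff_X, show e ≠ _ from hne])⟩
  let i₀ : FractionRing (MvPowerSeries σ O) →+* FractionRing E :=
    IsFractionRing.lift (K := FractionRing (MvPowerSeries σ O))
      (g := (algebraMap E (FractionRing E)).comp φ) ((IsFractionRing.injective E _).comp hφ)
  let ηB : Fin k → E := fun t => ⟨MvPowerSeries.C (η t), fun n =>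
    (Set.finite_singleton 0).subset fun e he => by
      by_contra hne
      classical exact he (by simp [MvPowerSeries.coeff_C, show e ≠ 0 from hne])⟩
  refine eval₂_eq_zero_of_quartics k T ηB
    (fun t => algebraMap (ResidueField O) L (residue O (η t))) (fun t => ?_) uB (fun t i => ?_)
    i₀ _ (fun t => ?_) _ (fun t i => ?_) G ψ c hc ψ' c' hc' h
  · show split _ = _
    rw [show restrictedRed w σ (residue O) ((hker w).2 dvd_rfl) (ηB t) =
      MvPolynomial.C (residue O (η t)) from MvPolynomial.coe_injective (σ := σ)
        (R := ResidueField O) (by rw [coe_restrictedRed]; simp [ηB])]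
    show MvPolynomial.map (algebraMap (MvPolynomial (Fin g) (ResidueField O)) L)
      (MvPolynomial.sumRingEquiv (ResidueField O) (Fin k × Fin 3) (Fin g)
        (MvPolynomial.C (residue O (η t)))) = _
    rw [show MvPolynomial.sumRingEquiv (ResidueField O) (Fin k × Fin 3) (Fin g)
        (MvPolynomial.C (residue O (η t))) = MvPolynomial.C (MvPolynomial.C (residue O (η t))) by
      simp, MvPolynomial.map_C, IsScalarTower.algebraMap_apply (ResidueField O)
        (MvPolynomial (Fin g) (ResidueField O)) L, MvPolynomial.algebraMap_eq]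
  · show split _ = _
    rw [show restrictedRed w σ (residue O) ((hker w).2 dvd_rfl) (uB t i) =
      MvPolynomial.X (Sum.inl (t, i)) from MvPolynomial.coe_injective (σ := σ)
        (R := ResidueField O) (by rw [coe_restrictedRed]; simp [uB])]
    show MvPolynomial.map (algebraMap (MvPolynomial (Fin g) (ResidueField O)) L)
      (MvPolynomial.sumRingEquiv (ResidueField O) (Fin k × Fin 3) (Fin g)
        (MvPolynomial.X (Sum.inl (t, i)))) = _
    rw [MvPolynomial.sumRingEquiv_X_inl, MvPolynomial.map_X]
  · erw [IsFractionRing.lift_algebraMap]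
    rw [RingHom.comp_apply]
    congr 1
    refine Subtype.ext (MvPowerSeries.ext fun e => ?_)
    classical
    show MvPowerSeries.coeff e (MvPowerSeries.rescale (fun _ => δ) _) = _
    rw [MvPowerSeries.coeff_rescale]
    simp only [ηB, MvPowerSeries.coeff_C]
    split_ifs with h <;> simp [h]
  · have hX : φ (MvPowerSeries.X (Sum.inl (t, i))) = φ (MvPowerSeries.C δ) * uB t i := by
      refine Subtype.ext (MvPowerSeries.ext fun e => ?_)
      classical
      show MvPowerSeries.coeff e (MvPowerSeries.rescale (fun _ => δ) _) =
        MvPowerSeries.coeff e (MvPowerSeries.rescale (fun _ => δ) _ * _)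
      have hC : MvPowerSeries.rescale (fun _ => δ) (MvPowerSeries.C δ) =
          (MvPowerSeries.C δ : MvPowerSeries σ O) := by
        ext e; rw [MvPowerSeries.coeff_rescale, MvPowerSeries.coeff_C]; split_ifs with h <;> simp [h]
      rw [hC, MvPowerSeries.coeff_C_mul, MvPowerSeries.coeff_rescale]
      simp only [uB, MvPowerSeries.coeff_X]
      split_ifs with h <;> simp [h, Finsupp.prod_single_index]
    have hδE : algebraMap E (FractionRing E) (φ (MvPowerSeries.C δ)) ≠ 0 := fun h0 => hδ0 (by
      have := hφ (((IsFractionRing.injective E (FractionRing E)).eq_iff' (map_zero _)).1 h0 |>.trans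
        (map_zero φ).symm)
      simpa using congrArg MvPowerSeries.constantCoeff this)
    rw [map_div₀]
    erw [IsFractionRing.lift_algebraMap, IsFractionRing.lift_algebraMap]
    rw [RingHom.comp_apply, RingHom.comp_apply, hX, map_mul]
    field_simp

end Generic

end FLTAgent.ModLift.Patch
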