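import Fermat.Agent.ModLift.Patch.PlaneExists
import Fermat.Agent.ModLift.Patch.PlaneRoots

/-!
# The planes at scalar primes

Over the generic point of the base a point of the plane is given by the lines fixed by inertia,
which are roots of independent quartics; so the plane has one prime there.
-/

set_option autoImplicit false
set_option linter.style.haveILetI false

noncomputable section

open IsLocalRing

namespace FLTAgent.ModLift.Patch

open FLTAgent.Lowering.P5

variable {O : Type} [CommRing O] [IsDomain O] [IsDiscreteValuationRing O] {k g : ℕ}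
  [IsAdicComplete (maximalIdeal O) O] {τ : Finset (Fin k)} {h : Fin k → O}

/-- The line of a point of the plane is a root of the quartic. -/
theorem quartic_root_identity {F : Type*} [Field F] {a b e v n x y z : F} (he : e ≠ 0) (hv : v ≠ 0)
    (hF : a ^ 2 + b * e = 0) (hS0 : (y - e) * e - z * b = 2 * (v * n) * a)
    (hS2 : z * a - (x - b) * e = v * n * e) :
    (z / v * (a / e)) ^ 4 - (2 * n * (z / v * (a / e)) ^ 3 -
      y / v * (z / v) * (z / v * (a / e)) ^ 2 + (z / v) ^ 3 * (z / v * (a / e)) -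
        (z / v) ^ 3 * (x / v + n)) = 0 := by
  have hb : b = -(a ^ 2) / e := by
    rw [eq_div_iff he]
    linear_combination hF
  have hy : y = e + (2 * (v * n) * a + z * b) / e := by
    rw [eq_comm, ← eq_sub_iff_add_eq', div_eq_iff he]
    linear_combination -hS0
  have hx : x = b + (z * a - v * n * e) / e := by
    rw [eq_comm, ← eq_sub_iff_add_eq', div_eq_iff he]
    linear_combination hS2
  rw [hx, hy, hb]
  field_simp
  ring

/-- The coordinates of a point of the plane in terms of its line. -/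
theorem coord_identities {F : Type*} [Field F] {a b e h y z : F} (he : e ≠ 0)
    (hF : a ^ 2 + b * e = 0) (hS0 : (y - e) * e - z * b = 2 * h * a) :
    y - 2 * h * (a / e) + z * (a / e) ^ 2 = e ∧ e * (a / e) = a ∧ -(e * (a / e) ^ 2) = b := by
  refine ⟨?_, by field_simp, ?_⟩
  · field_simp
    linear_combination e * hS0 + z * hF
  · field_simp
    linear_combination -hF

theorem IsPlanePrime.le_of (h2 : (2 : ResidueField O) ≠ 0) (hh : ∀ t, h t ∈ maximalIdeal O)
    {Q Q' : Ideal (Loc O k g)} (hQ : IsPlanePrime τ h Q) (hQ' : IsPlanePrime τ h Q') : Q ≤ Q' := by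
  classical
  set R' := MvPowerSeries (BaseVar k g) O
  set K := FractionRing R'
  have : IsDomain R' := NoZeroDivisors.to_isDomain _
  obtain ⟨w, hw⟩ := IsDiscreteValuationRing.exists_irreducible O
  have hwm : w ∈ maximalIdeal O := hw.maximalIdeal_eq ▸ Ideal.mem_span_singleton_self w
  have hdvd : ∀ t, ∃ η, h t = w * η := fun t => by
    have := hh t
    rwa [hw.maximalIdeal_eq, Ideal.mem_span_singleton] at this
  choose η hη using hdvd
  set u' : Fin k → Fin 3 → K := fun t i => algebraMap R' K (MvPowerSeries.X (Sum.inl (t, i))) /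
    algebraMap R' K (MvPowerSeries.C w)
  set η' : Fin k → K := fun t => algebraMap R' K (MvPowerSeries.C (η t))
  have hu2 : ∀ t, u' t 2 ≠ 0 := fun t h' => by
    simp only [u', div_eq_zero_iff] at h'
    rcases h' with h' | h'
    · rw [(IsFractionRing.injective R' K).eq_iff' (map_zero _)] at h'
      simpa using congrArg (MvPowerSeries.coeff (Finsupp.single (Sum.inl (t, (2 : Fin 3))) 1)) h'
    · rw [(IsFractionRing.injective R' K).eq_iff' (map_zero _)] at h'
      exact hw.ne_zero (by simpa using congrArg MvPowerSeries.constantCoeff h')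
  -- the coordinates as polynomials in the roots
  let rp : Fin k → MvPolynomial (Fin k) K := fun t =>
    MvPolynomial.X t * MvPolynomial.C (u' t 2)⁻¹
  let μp : Fin k → MvPolynomial (Fin k) K := fun t =>
    MvPolynomial.C (algebraMap R' K (MvPowerSeries.X (Sum.inl (t, 1)))) -
      MvPolynomial.C (algebraMap R' K (MvPowerSeries.C (2 * h t))) * rp t +
      MvPolynomial.C (algebraMap R' K (MvPowerSeries.X (Sum.inl (t, 2)))) * rp t ^ 2
  let W : Fin k → Fin 3 → MvPolynomial (Fin k) K := fun t i =>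
    if t ∈ τ then ![μp t * rp t, -(μp t * rp t ^ 2), μp t] i else 0
  -- data attached to a prime of the plane
  have key : ∀ {P : Ideal (Loc O k g)} (_ : IsPlanePrime τ h P), ∃ (Ω : Type) (_ : Field Ω)
      (π : Loc O k g →+* Ω) (ψ : K →+* Ω) (c : Fin k → Ω), RingHom.ker π = P ∧
      (∀ a, ψ (algebraMap R' K a) = π (ofBase a)) ∧
      (∀ t, (quartic (η' t) (u' t)).eval₂ ψ (c t) = 0) ∧
      ∀ t i, MvPolynomial.eval₂ ψ c (W t i) = π (Xc t i) := by
    intro P hP
    have := hP.prime
    let Ω₀ := FractionRing (Loc O k g ⧸ P)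
    let Ω := AlgebraicClosure Ω₀
    let π : Loc O k g →+* Ω := (algebraMap Ω₀ Ω).comp
      ((algebraMap (Loc O k g ⧸ P) Ω₀).comp (Ideal.Quotient.mk P))
    have hker : RingHom.ker π = P := by
      rw [RingHom.ker_comp_of_injective _ (algebraMap Ω₀ Ω).injective,
        RingHom.ker_comp_of_injective _ (IsFractionRing.injective _ _), Ideal.mk_ker]
    have hzero : ∀ x, π x = 0 ↔ x ∈ P := fun x => by rw [← RingHom.mem_ker, hker]
    have hinj : Function.Injective (π.comp (ofBase (O := O) (k := k) (g := g)).toRingHom) :=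
      (injective_iff_map_eq_zero _).2 fun a ha => hP.base a ((hzero _).1 ha)
    let ψ : K →+* Ω := IsFractionRing.lift (K := K) hinj
    have hψ : ∀ a, ψ (algebraMap R' K a) = π (ofBase a) := fun a =>
      IsFractionRing.lift_algebraMap hinj a
    have hb0 : ∀ a, π (ofBase a) = 0 → a = 0 := fun a ha => hP.base a ((hzero _).1 ha)
    have hC : π (MvPowerSeries.C w) ≠ 0 := fun h' => hw.ne_zero (by
      have := hb0 (MvPowerSeries.C w) (by rwa [ofBase_C])
      simpa using congrArg MvPowerSeries.constantCoeff this)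
    have htwo : (2 : Ω) ≠ 0 := fun h' => h2 (by
      have h3 := hb0 2 (by rw [map_ofNat, map_ofNat]; exact h')
      have h4 := congrArg (MvPowerSeries.constantCoeff) h3
      rw [map_ofNat, map_zero] at h4
      rw [← map_ofNat (residue O) 2, h4, map_zero])
    have hUU : ∀ t i, π (Uc t i) = π (ofBase (MvPowerSeries.X (Sum.inl (t, i)))) := fun t i => by
      rw [ofBase_X]; rfl
    have hY0 : ∀ t, π (Yc t 0) = π (Uc t 0) - π (Xc t 1) := fun t => by simp [Yc, shift]
    have hY1 : ∀ t, π (Yc t 1) = π (Uc t 1) - π (Xc t 2) := fun t => by simp [Yc, shift]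
    have hY2 : ∀ t, π (Yc t 2) = π (Uc t 2) := fun t => by simp [Yc, shift]
    have hU2 : ∀ t, π (Uc t 2) ≠ 0 := fun t h' => by
      rw [hUU] at h'
      simpa using congrArg (MvPowerSeries.coeff (Finsupp.single (Sum.inl (t, (2 : Fin 3))) 1))
        (hb0 _ h')
    -- the relations at a prime in the plane
    have hrel : ∀ t ∈ τ, π (Xc t 2) ≠ 0 ∧
        π (Xc t 0) ^ 2 + π (Xc t 1) * π (Xc t 2) = 0 ∧
        π (Yc t 1) * π (Xc t 2) - π (Yc t 2) * π (Xc t 1) =
          2 * π (MvPowerSeries.C (h t)) * π (Xc t 0) ∧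
        π (Yc t 2) * π (Xc t 0) - π (Yc t 0) * π (Xc t 2) =
          π (MvPowerSeries.C (h t)) * π (Xc t 2) := by
      intro t ht
      have hF := (hzero _).2 (hP.le (qf_mem_planeIdeal (g := g) (h := h) ht))
      have hG := (hzero _).2 (hP.le (qfY_mem_planeIdeal (g := g) (h := h) ht))
      have hS0 := (hzero _).2 (hP.le (brkRel_mem_planeIdeal (g := g) (h := h) ht 0))
      have hS2 := (hzero _).2 (hP.le (brkRel_mem_planeIdeal (g := g) (h := h) ht 2))
      simp only [qf, map_sub, map_add, map_mul, map_pow] at hF hG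
      simp only [brkRel, brk, Matrix.cons_val_zero, Matrix.cons_val, map_sub, map_mul,
        map_ofNat] at hS0 hS2
      refine ⟨fun he => ?_, hF, by linear_combination hS0,
        mul_left_cancel₀ htwo (by linear_combination hS2)⟩
      have ha : π (Xc t 0) = 0 := by
        rw [he, mul_zero, add_zero] at hF
        exact pow_eq_zero_iff two_ne_zero |>.1 hF
      have hb : π (Xc t 1) = 0 := by
        rw [he, ha, mul_zero, mul_zero, zero_sub, sub_zero, neg_eq_zero, hY2] at hS0
        exact (mul_eq_zero.1 hS0).resolve_left (hU2 t)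
      rw [hY0, hY1, hY2, hb, he, sub_zero, sub_zero, hUU, hUU, hUU, ← ofBase_C] at hG
      have h3 : qf (fun i => (MvPowerSeries.X (Sum.inl (t, i)) : R')) -
          MvPowerSeries.C (h t) ^ 2 = 0 := hb0 _ (by
        simp only [qf, map_sub, map_add, map_mul, map_pow]
        exact hG)
      have h4 := congrArg (MvPowerSeries.coeff (Finsupp.single (Sum.inl (t, (0 : Fin 3))) 2)) h3
      simp only [qf] at h4
      rw [← map_pow MvPowerSeries.C, map_sub, map_add, MvPowerSeries.coeff_X_pow, if_pos rfl,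
        MvPowerSeries.X_def, MvPowerSeries.X_def, MvPowerSeries.monomial_mul_monomial,
        MvPowerSeries.coeff_monomial, if_neg, MvPowerSeries.coeff_C, if_neg, map_zero] at h4
      · simp at h4
      · simp
      · intro he
        simpa [Finsupp.single_apply] using congrArg (fun e => e (Sum.inl (t, (1 : Fin 3)))) he
    have hroot : ∀ t, ∃ c, (quartic (η' t) (u' t)).eval₂ ψ c = 0 ∧
        (t ∈ τ → c * π (Xc t 2) = ψ (u' t 2) * π (Xc t 0)) := by
      intro t
      by_cases ht : t ∈ τ
      swap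
      · obtain ⟨c, hc⟩ := IsAlgClosed.exists_root ((quartic (η' t) (u' t)).map ψ) (by
          rw [Polynomial.degree_map, Polynomial.degree_eq_natDegree (quartic_monic _ _).ne_zero,
            natDegree_quartic]
          norm_num)
        exact ⟨c, by rwa [← Polynomial.eval_map], fun h' => absurd h' ht⟩
      obtain ⟨he, hF, hS0, hS2⟩ := hrel t ht
      refine ⟨ψ (u' t 2) * (π (Xc t 0) / π (Xc t 2)), ?_, fun _ => by rw [mul_assoc, div_mul_cancel₀ _ he]⟩
      rw [eval₂_quartic]
      have hu : ∀ i, ψ (u' t i) = π (Uc t i) / π (MvPowerSeries.C w) := fun i => by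
        simp [u', map_div₀, hψ, Uc]
      have hh' : π (MvPowerSeries.C (h t)) = π (MvPowerSeries.C w) * ψ (η' t) := by
        rw [hψ, ofBase_C, ← map_mul, ← map_mul, ← hη t]
      rw [hh'] at hS0 hS2
      rw [hY1, hY2] at hS0
      rw [hY0, hY2] at hS2
      rw [hu, hu, hu]
      exact quartic_root_identity he hC hF hS0 hS2
    choose c hc hcr using hroot
    refine ⟨Ω, inferInstance, π, ψ, c, hker, hψ, hc, fun t i => ?_⟩
    by_cases ht : t ∈ τ
    swap
    · rw [show W t i = 0 from if_neg ht, MvPolynomial.eval₂_zero]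
      exact ((hzero _).2 (hP.le (mem_planeIdeal_out ht i))).symm
    obtain ⟨he, hF, hS0, hS2⟩ := hrel t ht
    rw [hY1, hY2] at hS0
    have hu2' : ψ (u' t 2) ≠ 0 := fun h' => hu2 t ((map_eq_zero ψ).1 h')
    have hr : MvPolynomial.eval₂ ψ c (rp t) = π (Xc t 0) / π (Xc t 2) := by
      simp only [rp, MvPolynomial.eval₂_mul, MvPolynomial.eval₂_X, MvPolynomial.eval₂_C, map_inv₀]
      rw [← div_eq_mul_inv, div_eq_div_iff hu2' he, hcr t ht]
      ring
    have hμ : MvPolynomial.eval₂ ψ c (μp t) = π (Xc t 2) := by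
      simp only [μp, MvPolynomial.eval₂_add, MvPolynomial.eval₂_sub, MvPolynomial.eval₂_mul,
        MvPolynomial.eval₂_pow, MvPolynomial.eval₂_C, hr, hψ, ofBase_X, ofBase_C]
      rw [show (MvPowerSeries.X (Sum.inr (Sum.inl (t, 1))) : Loc O k g) = Uc t 1 from rfl,
        show (MvPowerSeries.X (Sum.inr (Sum.inl (t, 2))) : Loc O k g) = Uc t 2 from rfl,
        map_mul MvPowerSeries.C, map_mul π, map_ofNat, map_ofNat]
      exact (coord_identities he hF hS0).1
    show MvPolynomial.eval₂ ψ c (if t ∈ τ then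
      (![μp t * rp t, -(μp t * rp t ^ 2), μp t] : Fin 3 → MvPolynomial (Fin k) K) i else 0) = _
    rw [if_pos ht]
    fin_cases i <;> simp only [Fin.zero_eta, Fin.mk_one, Fin.reduceFinMk, Matrix.cons_val_zero,
      Matrix.cons_val_one, Matrix.cons_val, MvPolynomial.eval₂_mul, MvPolynomial.eval₂_neg,
      MvPolynomial.eval₂_pow, hr, hμ]
    · exact (coord_identities he hF hS0).2.1
    · exact (coord_identities he hF hS0).2.2
  obtain ⟨Ω, _, π, ψ, c, hker, hψ, hc, hW⟩ := key hQ
  obtain ⟨Ω', _, π', ψ', c', hker', hψ', hc', hW'⟩ := key hQ'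
  letI : Algebra R' (Loc O k g ⧸ planeIdeal τ h) :=
    ((Ideal.Quotient.mk (planeIdeal τ h)).comp ofBase.toRingHom).toAlgebra
  intro x hx
  obtain ⟨p, hp⟩ : ∃ p : MvPolynomial (Fin k × Fin 3) R', MvPolynomial.aeval
      (fun v => Ideal.Quotient.mk (planeIdeal τ h) (Xc v.1 v.2)) p =
        Ideal.Quotient.mk (planeIdeal τ h) x := by
    have : Ideal.Quotient.mk (planeIdeal τ h) x ∈ (MvPolynomial.aeval (R := R')
        fun v : Fin k × Fin 3 => Ideal.Quotient.mk (planeIdeal τ h) (Xc v.1 v.2)).range := by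
      rw [← Algebra.adjoin_range_eq_range_aeval, (finite_quotient_of_nil
        (planeIdeal_le_maximalIdeal τ hh) fun π hI hb => isNilpotent_of_plane hh π hI hb).2]
      exact Algebra.mem_top
    exact this
  let G : MvPolynomial (Fin k) K :=
    MvPolynomial.eval₂ (MvPolynomial.C.comp (algebraMap R' K)) (fun v => W v.1 v.2) p
  have hG : ∀ {Z : Type} [Field Z] (π : Loc O k g →+* Z) (ψ : K →+* Z) (d : Fin k → Z)
      (_ : planeIdeal τ h ≤ RingHom.ker π) (_ : ∀ a, ψ (algebraMap R' K a) = π (ofBase a))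
      (_ : ∀ t i, MvPolynomial.eval₂ ψ d (W t i) = π (Xc t i)),
      MvPolynomial.eval₂ ψ d G = π x := by
    intro Z _ π ψ d hle hψ hW
    let πq := Ideal.Quotient.lift (planeIdeal τ h) π fun a ha => hle ha
    have h1 := congrArg πq hp
    rw [show πq (Ideal.Quotient.mk _ x) = π x from Ideal.Quotient.lift_mk _ _ _,
      MvPolynomial.aeval_def, MvPolynomial.eval₂_comp_left πq] at h1
    rw [← h1]
    simp only [G]
    rw [← MvPolynomial.coe_eval₂Hom ψ d, MvPolynomial.eval₂_comp_left (MvPolynomial.eval₂Hom ψ d)]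
    congr 1
    · ext a
      simp [hψ, RingHom.algebraMap_toAlgebra]
      exact (Ideal.Quotient.lift_mk _ _ _).symm
    · funext v
      simp [hW]
      exact (Ideal.Quotient.lift_mk _ _ _).symm
  have h0 : MvPolynomial.eval₂ ψ c G = 0 := by
    rw [hG π ψ c (hker.symm ▸ hQ.le) hψ hW, ← RingHom.mem_ker, hker]
    exact hx
  have h1 := eval₂_eq_zero_of_plane_roots O k g hw.ne_zero hwm η G ψ c ψ' c' hc hc' h0
  rw [hG π' ψ' c' (hker'.symm ▸ hQ'.le) hψ' hW', ← RingHom.mem_ker, hker'] at h1
  exact h1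

/-- The planes at scalar primes. -/
theorem targetPlane : TargetPlane := by
  intro O _ _ _ _ _ h2 k g τ h hh _
  refine ⟨fun Q Q' hQ hQ' => le_antisymm (hQ.le_of h2 hh hQ') (hQ'.le_of h2 hh hQ),
    fun w hw hne => ?_, fun δ hδ hδ0 Q0 hQ0 => exists_prime_curve_plane h2 τ hh hδ hδ0 Q0 hQ0⟩
  have : (RingHom.ker w).IsPrime := RingHom.ker_isPrime _
  exact exists_isPlanePrime_le h2 hh (RingHom.ker w)
    (fun t ht => (hne t ht).imp fun i hi h' => hi (RingHom.mem_ker.1 h'))
    fun x hx => RingHom.mem_ker.2 (hw x hx)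

end FLTAgent.ModLift.Patch
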