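import Fermat.Agent.ModLift.Patch.Parameters

/-!
# Points and special fibres of the planes

Through every point off the vertices there is a prime of the plane over the generic point of the
base, and in characteristic `p` the plane meets the curve of the twisted module off the vertices.
-/

set_option autoImplicit false
set_option linter.unusedSectionVars false

noncomputable section

open IsLocalRing

namespace FLTAgent.ModLift.Patch

open FLTAgent.Lowering.P5

variable {O : Type} [CommRing O] [IsDomain O] [IsDiscreteValuationRing O] {k g : ℕ}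

/-- The bracket equations at one prime. -/
def brkRel (c : O) (t : Fin k) (i : Fin 3) : Loc O k g :=
  brk (Yc t) (Xc t) i - MvPowerSeries.C (2 * c) * Xc t i

theorem mem_planeIdeal_out {τ : Finset (Fin k)} {h : Fin k → O} {t : Fin k} (ht : t ∉ τ)
    (i : Fin 3) : (Xc t i : Loc O k g) ∈ planeIdeal τ h :=
  Ideal.subset_span (Or.inl ⟨t, i, ht, rfl⟩)

theorem qf_mem_planeIdeal {τ : Finset (Fin k)} {h : Fin k → O} {t : Fin k} (ht : t ∈ τ) :
    qf (Xc t : Fin 3 → Loc O k g) ∈ planeIdeal τ h :=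
  Ideal.subset_span (Or.inr ⟨t, ht, Or.inl rfl⟩)

theorem qfY_mem_planeIdeal {τ : Finset (Fin k)} {h : Fin k → O} {t : Fin k} (ht : t ∈ τ) :
    qf (Yc t : Fin 3 → Loc O k g) - MvPowerSeries.C (h t ^ 2) ∈ planeIdeal τ h :=
  Ideal.subset_span (Or.inr ⟨t, ht, Or.inr (Or.inl rfl)⟩)

theorem brkRel_mem_planeIdeal {τ : Finset (Fin k)} {h : Fin k → O} {t : Fin k} (ht : t ∈ τ)
    (i : Fin 3) : (brkRel (h t) t i : Loc O k g) ∈ planeIdeal τ h :=
  Ideal.subset_span (Or.inr ⟨t, ht, Or.inr (Or.inr ⟨i, rfl⟩)⟩)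

theorem Xc_mem_maximalIdeal (t : Fin k) (i : Fin 3) :
    (Xc t i : Loc O k g) ∈ maximalIdeal (Loc O k g) := by
  rw [mem_maximalIdeal, mem_nonunits_iff, MvPowerSeries.isUnit_iff_constantCoeff]
  simp [Xc]

theorem Yc_mem_maximalIdeal (t : Fin k) (i : Fin 3) :
    (Yc t i : Loc O k g) ∈ maximalIdeal (Loc O k g) := by
  refine sub_mem ?_ ?_
  · rw [mem_maximalIdeal, mem_nonunits_iff, MvPowerSeries.isUnit_iff_constantCoeff]
    simp [Uc]
  · fin_cases i
    · exact Xc_mem_maximalIdeal t 1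
    · exact Xc_mem_maximalIdeal t 2
    · exact zero_mem _

theorem C_mem_maximalIdeal {c : O} (hc : c ∈ maximalIdeal O) :
    (MvPowerSeries.C c : Loc O k g) ∈ maximalIdeal (Loc O k g) := by
  rw [mem_maximalIdeal, mem_nonunits_iff, MvPowerSeries.isUnit_iff_constantCoeff,
    MvPowerSeries.constantCoeff_C]
  exact hc

theorem planeIdeal_le_maximalIdeal (τ : Finset (Fin k)) {h : Fin k → O}
    (hh : ∀ t, h t ∈ maximalIdeal O) :
    planeIdeal τ h ≤ maximalIdeal (Loc O k g) := by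
  rw [planeIdeal, Ideal.span_le]
  rintro x (⟨t, i, -, rfl⟩ | ⟨t, -, rfl | rfl | ⟨i, rfl⟩⟩)
  · exact Xc_mem_maximalIdeal t i
  · exact add_mem (Ideal.pow_mem_of_mem _ (Xc_mem_maximalIdeal t 0) 2 two_pos)
      (Ideal.mul_mem_right _ _ (Xc_mem_maximalIdeal t 1))
  · exact sub_mem (add_mem (Ideal.pow_mem_of_mem _ (Yc_mem_maximalIdeal t 0) 2 two_pos)
      (Ideal.mul_mem_right _ _ (Yc_mem_maximalIdeal t 1)))
        (C_mem_maximalIdeal (Ideal.pow_mem_of_mem _ (hh t) 2 two_pos))
  · refine sub_mem ?_ (Ideal.mul_mem_left _ _ (Xc_mem_maximalIdeal t i))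
    fin_cases i <;> simp only [brk, Fin.zero_eta, Fin.mk_one, Fin.reduceFinMk,
      Matrix.cons_val_zero, Matrix.cons_val_one, Matrix.cons_val]
    · exact sub_mem (Ideal.mul_mem_left _ _ (Xc_mem_maximalIdeal t 2))
        (Ideal.mul_mem_left _ _ (Xc_mem_maximalIdeal t 1))
    · exact Ideal.mul_mem_left _ _ (sub_mem (Ideal.mul_mem_left _ _ (Xc_mem_maximalIdeal t 1))
        (Ideal.mul_mem_left _ _ (Xc_mem_maximalIdeal t 0)))
    · exact Ideal.mul_mem_left _ _ (sub_mem (Ideal.mul_mem_left _ _ (Xc_mem_maximalIdeal t 0))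
        (Ideal.mul_mem_left _ _ (Xc_mem_maximalIdeal t 2)))

section Base

variable {B : Type} [CommRing B] (π : Loc O k g →+* B)
  (hbase : ∀ a ∈ maximalIdeal (MvPowerSeries (BaseVar k g) O), π (ofBase a) = 0)

include hbase in
theorem map_Uc_eq_zero (t : Fin k) (i : Fin 3) : π (Uc t i) = 0 := by
  rw [show (Uc t i : Loc O k g) = ofBase (MvPowerSeries.X (Sum.inl (t, i))) from (ofBase_X _).symm]
  exact hbase _ (by
    rw [mem_maximalIdeal, mem_nonunits_iff, MvPowerSeries.isUnit_iff_constantCoeff]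
    simp)

include hbase in
theorem map_C_eq_zero {c : O} (hc : c ∈ maximalIdeal O) : π (MvPowerSeries.C c) = 0 := by
  rw [← ofBase_C]
  refine hbase _ ?_
  rw [mem_maximalIdeal, mem_nonunits_iff, MvPowerSeries.isUnit_iff_constantCoeff,
    MvPowerSeries.constantCoeff_C]
  exact hc

include hbase in
theorem map_Yc_zero (t : Fin k) : π (Yc t 0) = -π (Xc t 1) := by
  simp [Yc, shift, map_Uc_eq_zero π hbase]

include hbase in
theorem map_Yc_one (t : Fin k) : π (Yc t 1) = -π (Xc t 2) := by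
  simp [Yc, shift, map_Uc_eq_zero π hbase]

include hbase in
theorem map_Yc_two (t : Fin k) : π (Yc t 2) = 0 := by
  simp [Yc, shift, map_Uc_eq_zero π hbase]

include hbase in
theorem map_qf_Yc (t : Fin k) {c : O} (hc : c ∈ maximalIdeal O) :
    π (qf (Yc t) - MvPowerSeries.C (c ^ 2)) = π (Xc t 1) ^ 2 := by
  simp only [qf, map_sub, map_add, map_mul, map_pow, map_Yc_zero π hbase, map_Yc_one π hbase,
    map_Yc_two π hbase, map_C_eq_zero π hbase hc]
  ring

include hbase in
theorem map_brkRel (t : Fin k) {c : O} (hc : c ∈ maximalIdeal O) :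
    π (brkRel c t 0) = -π (Xc t 2) ^ 2 ∧
      π (brkRel c t 1) = 2 * (π (Xc t 2) * π (Xc t 0) - π (Xc t 1) ^ 2) ∧
      π (brkRel c t 2) = 2 * (π (Xc t 1) * π (Xc t 2)) := by
  refine ⟨?_, ?_, ?_⟩ <;>
  · simp only [brkRel, brk, Matrix.cons_val_zero, Matrix.cons_val_one, Matrix.cons_val, map_sub,
      map_mul, map_ofNat, map_Yc_zero π hbase, map_Yc_one π hbase, map_Yc_two π hbase,
      map_C_eq_zero π hbase hc]
    ring

end Base

/-- Nilpotency in the plane modulo the base. -/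
theorem isNilpotent_of_plane {τ : Finset (Fin k)} {h : Fin k → O} (hh : ∀ t, h t ∈ maximalIdeal O)
    {B : Type} [CommRing B] (π : Loc O k g →+* B) (hI : planeIdeal τ h ≤ RingHom.ker π)
    (hbase : ∀ a ∈ maximalIdeal (MvPowerSeries (BaseVar k g) O), π (ofBase a) = 0)
    (t : Fin k) (i : Fin 3) : IsNilpotent (π (Xc t i)) := by
  by_cases ht : t ∈ τ
  · have h1 : π (qf (Xc t)) = 0 := hI (qf_mem_planeIdeal ht)
    have h2 : π (qf (Yc t) - MvPowerSeries.C (h t ^ 2)) = 0 := hI (qfY_mem_planeIdeal ht)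
    have h3 : π (brkRel (h t) t 0) = 0 := hI (brkRel_mem_planeIdeal ht 0)
    rw [map_qf_Yc π hbase t (hh t)] at h2
    rw [(map_brkRel π hbase t (hh t)).1] at h3
    simp only [qf, map_add, map_mul, map_pow] at h1
    refine ⟨4, ?_⟩
    fin_cases i
    · show π (Xc t 0) ^ 4 = 0
      linear_combination (π (Xc t 0) ^ 2 - π (Xc t 1) * π (Xc t 2)) * h1 + π (Xc t 2) ^ 2 * h2
    · show π (Xc t 1) ^ 4 = 0
      linear_combination π (Xc t 1) ^ 2 * h2
    · show π (Xc t 2) ^ 4 = 0
      linear_combination -π (Xc t 2) ^ 2 * h3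
  · exact ⟨1, by rw [pow_one]; exact hI (mem_planeIdeal_out ht i)⟩

/-- Three equations of the plane at one prime which define it near a point off the vertex. -/
theorem exists_equations (h2 : (2 : ResidueField O) ≠ 0) {τ : Finset (Fin k)} {h : Fin k → O}
    (hh : ∀ t, h t ∈ maximalIdeal O) (P : Ideal (Loc O k g)) [P.IsPrime]
    (hne : ∀ t ∈ τ, ∃ i, (Xc t i : Loc O k g) ∉ P) (hP : planeIdeal τ h ≤ P) (t : Fin k) :
    ∃ f : Fin 3 → Loc O k g, (∀ i, f i ∈ planeIdeal τ h) ∧
      (∀ {B : Type} [CommRing B] (π : Loc O k g →+* B), (∀ i, π (f i) = 0) →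
        (∀ a ∈ maximalIdeal (MvPowerSeries (BaseVar k g) O), π (ofBase a) = 0) →
        ∀ i, IsNilpotent (π (Xc t i))) ∧
      ∀ Q : Ideal (Loc O k g), Q.IsPrime → Q ≤ P → (∀ i, f i ∈ Q) →
        (t ∉ τ → ∀ i, (Xc t i : Loc O k g) ∈ Q) ∧
        (t ∈ τ → qf (Xc t : Fin 3 → Loc O k g) ∈ Q ∧
          qf (Yc t : Fin 3 → Loc O k g) - MvPowerSeries.C (h t ^ 2) ∈ Q ∧
          ∀ i, (brkRel (h t) t i : Loc O k g) ∈ Q) := by
  by_cases ht : t ∈ τ
  swap
  · exact ⟨Xc t, mem_planeIdeal_out ht, fun π hπ _ i => ⟨1, by rw [pow_one, hπ]⟩,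
      fun Q _ _ hQ => ⟨fun _ => hQ, fun h' => absurd h' ht⟩⟩
  have h2u : IsUnit (2 : Loc O k g) := by
    rw [MvPowerSeries.isUnit_iff_constantCoeff, map_ofNat]
    exact not_not.1 fun hu =>
      h2 ((map_ofNat (residue O) 2).symm.trans ((residue_eq_zero_iff (2 : O)).2 hu))
  have h2P : (2 : Loc O k g) ∉ P := fun h' => (‹P.IsPrime›).ne_top (P.eq_top_of_isUnit_mem h' h2u)
  set a : Loc O k g := Xc t 0 with ha
  set b : Loc O k g := Xc t 1 with hb
  set e : Loc O k g := Xc t 2 with he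
  set c : Loc O k g := MvPowerSeries.C (h t) with hc
  set F : Loc O k g := qf (Xc t) with hF
  set G : Loc O k g := qf (Yc t) - MvPowerSeries.C (h t ^ 2) with hG
  set S : Fin 3 → Loc O k g := brkRel (h t) t with hS
  have hSe : ∀ i, S i = brk (Yc t) (Xc t) i - 2 * c * Xc t i := fun i => by
    rw [hS, brkRel, map_mul, map_ofNat]
  have hS0 : S 0 = Yc t 1 * e - Yc t 2 * b - 2 * c * a := by rw [hSe]; simp [brk, a, b, e]
  have hS1 : S 1 = 2 * (Yc t 0 * b - Yc t 1 * a) - 2 * c * b := by rw [hSe]; simp [brk, a, b]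
  have hS2 : S 2 = 2 * (Yc t 2 * a - Yc t 0 * e) - 2 * c * e := by rw [hSe]; simp [brk, a, e]
  have hF' : F = a ^ 2 + b * e := rfl
  have hG' : G = Yc t 0 ^ 2 + Yc t 1 * Yc t 2 - c ^ 2 := by rw [hG, qf, map_pow]
  have hFI : F ∈ planeIdeal τ h := qf_mem_planeIdeal ht
  have hGI : G ∈ planeIdeal τ h := qfY_mem_planeIdeal ht
  have hSI : ∀ i, S i ∈ planeIdeal τ h := brkRel_mem_planeIdeal ht
  by_cases heP : e ∈ P
  · -- the first eigenvector is `(1, 0)` modulo the prime
    have hbP : b ∉ P := by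
      intro hbP
      have haP : a ∈ P := (‹P.IsPrime›).mem_of_pow_mem 2 (by
        have := sub_mem (hP hFI) (P.mul_mem_left b heP)
        rwa [hF', add_sub_cancel_right] at this)
      obtain ⟨i, hi⟩ := hne t ht
      fin_cases i
      exacts [hi haP, hi hbP, hi heP]
    set K : Loc O k g := b * Yc t 0 + Yc t 1 * a + c * b with hK
    obtain ⟨l, hl⟩ : ∃ l : Loc O k g, (l = 0 ∨ l = 1) ∧ K + 2 * l * b ^ 2 ∉ P := by
      by_cases hKP : K ∈ P
      · refine ⟨1, Or.inr rfl, fun h' => ?_⟩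
        have h'' : 2 * b ^ 2 ∈ P := by simpa using sub_mem h' hKP
        rcases (‹P.IsPrime›).mem_or_mem h'' with h3 | h3
        exacts [h2P h3, hbP ((‹P.IsPrime›).mem_of_pow_mem 2 h3)]
      · exact ⟨0, Or.inl rfl, by simpa using hKP⟩
    refine ⟨![F, S 0, G + l * S 1], fun i => ?_, fun π hπ hbase => ?_, fun Q hQ hQP hfQ => ?_⟩
    · fin_cases i
      exacts [hFI, hSI 0, add_mem hGI (Ideal.mul_mem_left _ _ (hSI 1))]
    · have h1 : π F = 0 := hπ 0
      have h3 : π (S 0) = 0 := hπ 1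
      have h4 : π (G + l * S 1) = 0 := hπ 2
      rw [map_add, map_mul, hG, map_qf_Yc π hbase t (hh t), hS,
        (map_brkRel π hbase t (hh t)).2.1] at h4
      rw [hS, (map_brkRel π hbase t (hh t)).1] at h3
      rw [hF', map_add, map_mul, map_pow] at h1
      have hb4 : π b ^ 4 = 0 := by
        rcases hl.1 with rfl | rfl
        · rw [map_zero, zero_mul, add_zero] at h4
          linear_combination π b ^ 2 * h4
        · rw [map_one, one_mul] at h4
          linear_combination (-π b ^ 2 - 2 * (π e * π a)) * h4 - 4 * π a ^ 2 * h3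
      intro i
      fin_cases i
      · refine ⟨8, show π a ^ 8 = 0 from ?_⟩
        have h5 : π a ^ 2 = -(π b * π e) := by linear_combination h1
        calc π a ^ 8 = (π a ^ 2) ^ 4 := by ring
          _ = π b ^ 4 * π e ^ 4 := by rw [h5]; ring
          _ = 0 := by rw [hb4, zero_mul]
      · exact ⟨4, hb4⟩
      · exact ⟨2, show π e ^ 2 = 0 by linear_combination -h3⟩
    · refine ⟨fun h' => absurd ht h', fun _ => ?_⟩
      have hbQ : b ∉ Q := fun h' => hbP (hQP h')
      have hFQ : F ∈ Q := hfQ 0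
      have hS0Q : S 0 ∈ Q := hfQ 1
      have hGQ : G + l * S 1 ∈ Q := hfQ 2
      have hS1Q : S 1 ∈ Q := by
        refine (hQ.mem_or_mem (x := S 1) (y := K + 2 * l * b ^ 2) ?_).resolve_right
          fun h' => hl.2 (hQP h')
        rw [show S 1 * (K + 2 * l * b ^ 2) = 2 * b ^ 2 * (G + l * S 1) -
            2 * Yc t 1 ^ 2 * F + 2 * b * Yc t 1 * S 0 by
          rw [hG', hS1, hS0, hF', hK]; ring]
        exact add_mem (sub_mem (Q.mul_mem_left _ hGQ) (Q.mul_mem_left _ hFQ)) (Q.mul_mem_left _ hS0Q)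
      have hS2Q : S 2 ∈ Q := by
        refine (hQ.mem_or_mem (x := b ^ 2) ?_).resolve_left
          fun h' => hbQ (hQ.mem_of_pow_mem 2 h')
        rw [show b ^ 2 * S 2 = 2 * (a * Yc t 1 - b * Yc t 0 - c * b) * F - 2 * a * b * S 0 +
            a ^ 2 * S 1 by rw [hS1, hS0, hS2, hF']; ring]
        exact add_mem (sub_mem (Q.mul_mem_left _ hFQ) (Q.mul_mem_left _ hS0Q))
          (Q.mul_mem_left _ hS1Q)
      refine ⟨hFQ, ?_, fun i => ?_⟩
      · simpa using sub_mem hGQ (Q.mul_mem_left l hS1Q)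
      · fin_cases i
        exacts [hS0Q, hS1Q, hS2Q]
  · -- the eigenvector is `(a / e, 1)`
    set K : Loc O k g := e * Yc t 0 + Yc t 2 * a - c * e with hK
    obtain ⟨l, hl⟩ : ∃ l : Loc O k g, (l = 0 ∨ l = 1) ∧ 2 * l * e ^ 2 - K ∉ P := by
      by_cases hKP : K ∈ P
      · refine ⟨1, Or.inr rfl, fun h' => ?_⟩
        have h'' : 2 * e ^ 2 ∈ P := by simpa using add_mem h' hKP
        rcases (‹P.IsPrime›).mem_or_mem h'' with h3 | h3
        exacts [h2P h3, heP ((‹P.IsPrime›).mem_of_pow_mem 2 h3)]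
      · exact ⟨0, Or.inl rfl, by simpa using hKP⟩
    refine ⟨![F, S 0, G + l * S 2], fun i => ?_, fun π hπ hbase => ?_, fun Q hQ hQP hfQ => ?_⟩
    · fin_cases i
      exacts [hFI, hSI 0, add_mem hGI (Ideal.mul_mem_left _ _ (hSI 2))]
    · have h1 : π F = 0 := hπ 0
      have h3 : π (S 0) = 0 := hπ 1
      have h4 : π (G + l * S 2) = 0 := hπ 2
      rw [map_add, map_mul, hG, map_qf_Yc π hbase t (hh t), hS,
        (map_brkRel π hbase t (hh t)).2.2] at h4
      rw [hS, (map_brkRel π hbase t (hh t)).1] at h3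
      rw [hF', map_add, map_mul, map_pow] at h1
      have hb4 : π b ^ 4 = 0 := by
        linear_combination (π b ^ 2 - π l * (2 * (π b * π e))) * h4 -
          4 * π l ^ 2 * π b ^ 2 * h3
      intro i
      fin_cases i
      · refine ⟨8, show π a ^ 8 = 0 from ?_⟩
        have h5 : π a ^ 2 = -(π b * π e) := by linear_combination h1
        calc π a ^ 8 = (π a ^ 2) ^ 4 := by ring
          _ = π b ^ 4 * π e ^ 4 := by rw [h5]; ring
          _ = 0 := by rw [hb4, zero_mul]
      · exact ⟨4, hb4⟩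
      · exact ⟨2, show π e ^ 2 = 0 by linear_combination -h3⟩
    · refine ⟨fun h' => absurd ht h', fun _ => ?_⟩
      have heQ : e ∉ Q := fun h' => heP (hQP h')
      have hFQ : F ∈ Q := hfQ 0
      have hS0Q : S 0 ∈ Q := hfQ 1
      have hGQ : G + l * S 2 ∈ Q := hfQ 2
      have hS2Q : S 2 ∈ Q := by
        refine (hQ.mem_or_mem (x := S 2) (y := 2 * l * e ^ 2 - K) ?_).resolve_right
          fun h' => hl.2 (hQP h')
        rw [show S 2 * (2 * l * e ^ 2 - K) = 2 * e ^ 2 * (G + l * S 2) -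
            2 * e * Yc t 2 * S 0 - 2 * Yc t 2 ^ 2 * F by
          rw [hG', hS2, hS0, hF', hK]; ring]
        exact sub_mem (sub_mem (Q.mul_mem_left _ hGQ) (Q.mul_mem_left _ hS0Q))
          (Q.mul_mem_left _ hFQ)
      have hS1Q : S 1 ∈ Q := by
        refine (hQ.mem_or_mem (x := e ^ 2) ?_).resolve_left
          fun h' => heQ (hQ.mem_of_pow_mem 2 h')
        rw [show e ^ 2 * S 1 = 2 * (e * (Yc t 0 - c) - a * Yc t 2) * F - 2 * e * a * S 0 +
            a ^ 2 * S 2 by rw [hS1, hS0, hS2, hF']; ring]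
        exact add_mem (sub_mem (Q.mul_mem_left _ hFQ) (Q.mul_mem_left _ hS0Q))
          (Q.mul_mem_left _ hS2Q)
      refine ⟨hFQ, ?_, fun i => ?_⟩
      · simpa using sub_mem hGQ (Q.mul_mem_left l hS2Q)
      · fin_cases i
        exacts [hS0Q, hS1Q, hS2Q]

variable [IsAdicComplete (maximalIdeal O) O] [Finite (ResidueField O)]

/-- Below a prime of the plane off the vertices lies a prime over the generic point of the base. -/
theorem exists_isPlanePrime_le (h2 : (2 : ResidueField O) ≠ 0) {τ : Finset (Fin k)} {h : Fin k → O}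
    (hh : ∀ t, h t ∈ maximalIdeal O) (P : Ideal (Loc O k g)) [P.IsPrime]
    (hne : ∀ t ∈ τ, ∃ i, (Xc t i : Loc O k g) ∉ P) (hP : planeIdeal τ h ≤ P) :
    ∃ Q : Ideal (Loc O k g), IsPlanePrime τ h Q ∧ Q ≤ P := by
  choose f hf hnil hQf using exists_equations h2 hh P hne hP
  obtain ⟨Q, hQ, hQP, hfQ, hbase⟩ := exists_prime_below (fun v => f v.1 v.2)
    (fun v => planeIdeal_le_maximalIdeal τ hh (hf v.1 v.2))
    (fun π hπ hb t i => hnil t π (fun j => hπ (t, j)) hb i) P (fun v => hP (hf v.1 v.2))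
  refine ⟨Q, ⟨hQ, ?_, hbase⟩, hQP⟩
  rw [planeIdeal, Ideal.span_le]
  rintro x (⟨t, i, ht, rfl⟩ | ⟨t, ht, rfl | rfl | ⟨i, rfl⟩⟩)
  · exact (hQf t Q hQ hQP fun j => hfQ (t, j)).1 ht i
  · exact ((hQf t Q hQ hQP fun j => hfQ (t, j)).2 ht).1
  · exact ((hQf t Q hQ hQP fun j => hfQ (t, j)).2 ht).2.1
  · exact ((hQf t Q hQ hQP fun j => hfQ (t, j)).2 ht).2.2 i

/-- The plane has a prime over the generic point of the base. -/
theorem exists_isPlanePrime (h2 : (2 : ResidueField O) ≠ 0) (τ : Finset (Fin k)) {h : Fin k → O}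
    (hh : ∀ t, h t ∈ maximalIdeal O) :
    ∃ Q : Ideal (Loc O k g), IsPlanePrime τ h Q := by
  classical
  obtain ⟨w, hw⟩ := IsDiscreteValuationRing.exists_irreducible O
  have hwm : w ∈ maximalIdeal O := hw.maximalIdeal_eq ▸ Ideal.mem_span_singleton_self w
  let val : LocVar k g → O := Sum.elim
    (fun v => if v.1 ∈ τ then (![0, 0, w] : Fin 3 → O) v.2 else 0)
    (Sum.elim (fun v => if v.1 ∈ τ then (![-h v.1, w, 0] : Fin 3 → O) v.2 else 0) fun _ => 0)
  obtain ⟨π, hπ⟩ := exists_evalAlgHom (O := O) val (fun v => by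
    rcases v with ⟨t, i⟩ | ⟨t, i⟩ | l <;> simp only [val, Sum.elim_inl, Sum.elim_inr]
    · split_ifs
      · fin_cases i <;> simp [hwm]
      · exact zero_mem _
    · split_ifs
      · fin_cases i <;> simp [hwm, hh t]
      · exact zero_mem _
    · exact zero_mem _)
  have hX : ∀ t i, π (Xc t i) = if t ∈ τ then (![0, 0, w] : Fin 3 → O) i else 0 := fun t i =>
    hπ (Sum.inl (t, i))
  have hU : ∀ t i, π (Uc t i) = if t ∈ τ then (![-h t, w, 0] : Fin 3 → O) i else 0 := fun t i =>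
    hπ (Sum.inr (Sum.inl (t, i)))
  have hC : ∀ c, π (MvPowerSeries.C c) = c := fun c => π.commutes c
  have hP : planeIdeal τ h ≤ RingHom.ker π.toRingHom := by
    rw [planeIdeal, Ideal.span_le]
    rintro x (⟨t, i, ht, rfl⟩ | ⟨t, ht, rfl | rfl | ⟨i, rfl⟩⟩)
    · show π (Xc t i) = 0
      rw [hX, if_neg ht]
    · show π (qf (Xc t)) = 0
      simp [qf, hX, ht]
    · show π (qf (Yc t) - MvPowerSeries.C (h t ^ 2)) = 0
      simp [qf, Yc, shift, hX, hU, ht, hC]
    · show π (brk (Yc t) (Xc t) i - MvPowerSeries.C (2 * h t) * Xc t i) = 0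
      fin_cases i <;> simp [brk, Yc, shift, hX, hU, ht, hC, map_ofNat]
      ring
  have : (RingHom.ker π.toRingHom).IsPrime := RingHom.ker_isPrime _
  obtain ⟨Q, hQ, -⟩ := exists_isPlanePrime_le h2 hh (RingHom.ker π.toRingHom)
    (fun t ht => ⟨2, fun h' => hw.ne_zero (by
      have h'' : π (Xc t 2) = 0 := h'
      simpa [hX, ht] using h'')⟩) hP
  exact ⟨Q, hQ⟩

/-- In characteristic `p` the plane meets the curve of the twisted module off the vertices. -/
theorem exists_prime_curve_plane (h2 : (2 : ResidueField O) ≠ 0) (τ : Finset (Fin k))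
    {h : Fin k → O} (hh : ∀ t, h t ∈ maximalIdeal O) {δ : O} (hδ : δ ∈ maximalIdeal O)
    (hδ0 : δ ≠ 0) (Q0 : Ideal (Loc O k g)) (hQ0 : IsCurvePrime δ Q0) :
    ∃ P : Ideal (Loc O k g), P.IsPrime ∧ Q0 ≤ P ∧ planeIdeal τ h ≤ P ∧
      (∀ a ∈ maximalIdeal O, MvPowerSeries.C a ∈ P) ∧ (∀ t ∈ τ, ∃ i, Xc t i ∉ P) ∧
      ∀ x : MvPowerSeries (BaseVar k g) O, ofBase x ∈ P →
        MvPowerSeries.map (residue O) x = 0 := by
  obtain ⟨Q, hQ⟩ := exists_isPlanePrime (g := g) h2 τ hh
  set R' := MvPowerSeries (BaseVar k g) O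
  have : IsDomain (MvPowerSeries (BaseVar k g) (ResidueField O)) := NoZeroDivisors.to_isDomain _
  set p : Ideal R' := RingHom.ker (MvPowerSeries.map (residue O)) with hp
  have : p.IsPrime := RingHom.ker_isPrime _
  obtain ⟨P, hPQ, hPp, hPb⟩ : ∃ P : Ideal (Loc O k g), Q ≤ P ∧ P.IsPrime ∧
      ∀ x : R', ofBase x ∈ P ↔ x ∈ p := by
    let : Algebra R' (Loc O k g ⧸ planeIdeal τ h) :=
      ((Ideal.Quotient.mk (planeIdeal τ h)).comp ofBase.toRingHom).toAlgebra
    have : Module.Finite R' (Loc O k g ⧸ planeIdeal τ h) :=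
      (finite_quotient_of_nil (planeIdeal_le_maximalIdeal τ hh)
        fun π hI hb => isNilpotent_of_plane hh π hI hb).1
    have : Algebra.IsIntegral R' (Loc O k g ⧸ planeIdeal τ h) := Algebra.IsIntegral.of_finite _ _
    obtain ⟨P, hle, hP, hPp⟩ := Ideal.exists_ideal_over_prime_of_isIntegral
      (S := Loc O k g ⧸ planeIdeal τ h) p (Q.map (Ideal.Quotient.mk _)) (fun x hx => by
        rw [Ideal.mem_comap] at hx
        rw [hQ.base x ((Ideal.mem_quotient_iff_mem hQ.le).1 hx)]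
        exact zero_mem _)
    refine ⟨P.comap (Ideal.Quotient.mk _), Ideal.map_le_iff_le_comap.1 hle, hP.comap _,
      fun x => ?_⟩
    rw [← hPp]
    rfl
  have hCm : ∀ a ∈ maximalIdeal O, (MvPowerSeries.C a : Loc O k g) ∈ P := fun a ha => by
    rw [← ofBase_C, hPb, hp, RingHom.mem_ker, MvPowerSeries.map_C,
      (residue_eq_zero_iff a).2 ha, map_zero]
  have hUP : ∀ t i, (Uc t i : Loc O k g) ∉ P := fun t i h' => by
    classical
    rw [show (Uc t i : Loc O k g) = ofBase (MvPowerSeries.X (Sum.inl (t, i))) from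
      (ofBase_X _).symm, hPb, hp, RingHom.mem_ker, MvPowerSeries.map_X] at h'
    simpa using congrArg (MvPowerSeries.coeff (Finsupp.single (Sum.inl (t, i)) 1)) h'
  have hqU : ∀ t, qf (Uc t) - MvPowerSeries.C (h t ^ 2) ∉ P := fun t h' => by
    classical
    have h1 : qf (Uc t) ∈ P := by
      simpa using add_mem h' (hCm _ (Ideal.pow_mem_of_mem _ (hh t) 2 two_pos))
    rw [show qf (Uc t) = ofBase (qf fun i => (MvPowerSeries.X (Sum.inl (t, i)) : MvPowerSeries (BaseVar k g) O)) by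
      simp [qf, Uc], hPb, hp, RingHom.mem_ker, map_qf] at h1
    simp only [qf] at h1
    erw [MvPowerSeries.map_X, MvPowerSeries.map_X, MvPowerSeries.map_X] at h1
    have := congrArg (MvPowerSeries.coeff (Finsupp.single (Sum.inl (t, (0 : Fin 3))) 2)) h1
    rw [map_add, MvPowerSeries.coeff_X_pow, if_pos rfl, MvPowerSeries.X_def, MvPowerSeries.X_def,
      MvPowerSeries.monomial_mul_monomial, MvPowerSeries.coeff_monomial, if_neg, map_zero] at this
    · simp at this
    · intro he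
      simpa [Finsupp.single_apply] using congrArg (fun e => e (Sum.inl (t, (1 : Fin 3)))) he
  have hplane : planeIdeal τ h ≤ P := hQ.le.trans hPQ
  have h2P : (2 : Loc O k g) ∉ P := fun h' => hPp.ne_top (P.eq_top_of_isUnit_mem h' (by
    rw [MvPowerSeries.isUnit_iff_constantCoeff, map_ofNat]
    exact not_not.1 fun hu =>
      h2 ((map_ofNat (residue O) 2).symm.trans ((residue_eq_zero_iff (2 : O)).2 hu))))
  have hU2 : ∀ t, (Yc t 2 : Loc O k g) = Uc t 2 := fun t => by simp [Yc, shift]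
  -- at each prime: the minors and the quadratic form lie in the prime, one coordinate does not
  have hloc : ∀ t, qf (Xc t : Fin 3 → Loc O k g) ∈ P ∧ (Yc t 1 : Loc O k g) ∉ P ∧
      (∀ i j, (minor t i j : Loc O k g) ∈ P) ∧ (t ∈ τ → (Xc t 2 : Loc O k g) ∉ P) := by
    intro t
    by_cases ht : t ∈ τ
    swap
    · have hX : ∀ i, (Xc t i : Loc O k g) ∈ P := fun i => hplane (mem_planeIdeal_out ht i)
      refine ⟨add_mem (P.pow_mem_of_mem (hX 0) 2 two_pos) (P.mul_mem_right _ (hX 1)), fun h' =>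
        hUP t 1 ?_, fun i j => sub_mem (P.mul_mem_left _ (hX j)) (P.mul_mem_left _ (hX i)),
        fun h' => absurd h' ht⟩
      have := add_mem h' (hX 2)
      simpa [Yc, shift] using this
    have hF : qf (Xc t : Fin 3 → Loc O k g) ∈ P := hplane (qf_mem_planeIdeal ht)
    have hG := hplane (qfY_mem_planeIdeal (g := g) (h := h) ht)
    have hS := fun i => hplane (brkRel_mem_planeIdeal (g := g) (h := h) ht i)
    have hch : (MvPowerSeries.C (2 * h t) : Loc O k g) ∈ P := hCm _ (Ideal.mul_mem_left _ _ (hh t))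
    have hbrk : ∀ i, brk (Yc t) (Xc t) i ∈ P := fun i => by
      simpa [brkRel] using add_mem (hS i) (P.mul_mem_right (Xc t i) hch)
    have h12 : (minor t 1 2 : Loc O k g) ∈ P := by
      have := hbrk 0
      simpa [brk, minor] using this
    have h02 : (minor t 0 2 : Loc O k g) ∈ P := by
      have := hbrk 2
      simp only [brk, Matrix.cons_val] at this
      have h' := (hPp.mem_or_mem this).resolve_left h2P
      have h'' := neg_mem h'
      simpa [minor] using h''
    have he : (Xc t 2 : Loc O k g) ∉ P := by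
      intro he
      have ha : (Xc t 0 : Loc O k g) ∈ P := hPp.mem_of_pow_mem 2 (by
        have := sub_mem hF (P.mul_mem_left (Xc t 1) he)
        rwa [qf, add_sub_cancel_right] at this)
      have hb : (Xc t 1 : Loc O k g) ∈ P := by
        have h' : Yc t 2 * Xc t 1 ∈ P := by
          simpa [minor] using sub_mem (P.mul_mem_left (Yc t 1) he) h12
        exact (hPp.mem_or_mem h').resolve_left (by rw [hU2]; exact hUP t 2)
      have hd : qf (Uc t) - qf (Yc t) ∈ P := by
        rw [show qf (Uc t) - qf (Yc t : Fin 3 → Loc O k g) = (2 * Yc t 0 + Xc t 1) * Xc t 1 +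
          Yc t 2 * Xc t 2 by simp only [qf, Yc, shift, Matrix.cons_val_zero, Matrix.cons_val_one,
            Matrix.cons_val]; ring]
        exact add_mem (P.mul_mem_left _ hb) (P.mul_mem_left _ he)
      exact hqU t (by
        have := add_mem hd hG
        rwa [sub_add_sub_cancel] at this)
    have h01 : (minor t 0 1 : Loc O k g) ∈ P := by
      refine (hPp.mem_or_mem (x := Xc t 2) ?_).resolve_left he
      rw [show Xc t 2 * minor t 0 1 = Xc t 1 * minor t 0 2 - Xc t 0 * (minor t 1 2 : Loc O k g) by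
        simp only [minor]; ring]
      exact sub_mem (P.mul_mem_left _ h02) (P.mul_mem_left _ h12)
    have hY1 : (Yc t 1 : Loc O k g) ∉ P := by
      intro hY
      have hb : (Xc t 1 : Loc O k g) ∈ P := by
        have h' : Yc t 2 * Xc t 1 ∈ P := by
          simpa [minor] using sub_mem (P.mul_mem_right (Xc t 2) hY) h12
        exact (hPp.mem_or_mem h').resolve_left (by rw [hU2]; exact hUP t 2)
      have ha : (Xc t 0 : Loc O k g) ∈ P := hPp.mem_of_pow_mem 2 (by
        have := sub_mem hF (P.mul_mem_right (Xc t 2) hb)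
        rwa [qf, add_sub_cancel_right] at this)
      have h' : Yc t 0 * Xc t 2 ∈ P := by
        simpa [minor] using add_mem h02 (P.mul_mem_left (Yc t 2) ha)
      have hY0 := (hPp.mem_or_mem h').resolve_right he
      exact hUP t 0 (by simpa [Yc, shift] using add_mem hY0 hb)
    refine ⟨hF, hY1, fun i j => ?_, fun _ => he⟩
    have hneg : ∀ a b, (minor t a b : Loc O k g) ∈ P → (minor t b a : Loc O k g) ∈ P := fun a b h' => by
      have : (minor t b a : Loc O k g) = -minor t a b := by simp only [minor]; ring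
      rw [this]; exact neg_mem h'
    have hself : ∀ a, (minor t a a : Loc O k g) ∈ P := fun a => by simp [minor]
    fin_cases i <;> fin_cases j
    exacts [hself 0, h01, h02, hneg _ _ h01, hself 1, h12, hneg _ _ h02, hneg _ _ h12, hself 2]
  -- a curve prime below
  let f : Fin k × Fin 3 → Loc O k g :=
    fun v => ![curveRel δ v.1, minor v.1 1 2, minor v.1 0 1] v.2
  have hfP : ∀ v, f v ∈ P := by
    rintro ⟨t, i⟩
    fin_cases i
    · exact sub_mem (hloc t).1 (hCm _ (Ideal.pow_mem_of_mem _ hδ 2 two_pos))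
    · exact (hloc t).2.2.1 1 2
    · exact (hloc t).2.2.1 0 1
  obtain ⟨Q', hQ', hQ'P, hfQ', hbase⟩ := exists_prime_below f
    (fun v => le_maximalIdeal hPp.ne_top (hfP v))
    (fun π hπ hb t i => by
      have h1 : π (curveRel δ t) = 0 := hπ (t, 0)
      have h2' : π (minor t 1 2) = 0 := hπ (t, 1)
      have h3 : π (minor t 0 1) = 0 := hπ (t, 2)
      simp only [curveRel, qf, minor, map_sub, map_add, map_mul, map_pow, map_Yc_zero π hb,
        map_Yc_one π hb, map_Yc_two π hb, map_C_eq_zero π hb hδ] at h1 h2' h3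
      have he2 : π (Xc t 2) ^ 2 = 0 := by linear_combination -h2'
      have hb2 : π (Xc t 1) ^ 2 = π (Xc t 2) * π (Xc t 0) := by linear_combination -h3
      have ha2 : π (Xc t 0) ^ 2 = -(π (Xc t 1) * π (Xc t 2)) := by linear_combination h1
      refine ⟨4, ?_⟩
      fin_cases i
      · show π (Xc t 0) ^ 4 = 0
        calc π (Xc t 0) ^ 4 = (π (Xc t 0) ^ 2) ^ 2 := by ring
          _ = π (Xc t 1) ^ 2 * π (Xc t 2) ^ 2 := by rw [ha2]; ring
          _ = 0 := by rw [he2, mul_zero]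
      · show π (Xc t 1) ^ 4 = 0
        calc π (Xc t 1) ^ 4 = (π (Xc t 1) ^ 2) ^ 2 := by ring
          _ = π (Xc t 2) ^ 2 * π (Xc t 0) ^ 2 := by rw [hb2]; ring
          _ = 0 := by rw [he2, zero_mul]
      · show π (Xc t 2) ^ 4 = 0
        calc π (Xc t 2) ^ 4 = (π (Xc t 2) ^ 2) ^ 2 := by ring
          _ = 0 := by rw [he2]; ring) P hfP
  have hcurve : IsCurvePrime δ Q' := by
    refine ⟨hQ', ?_, hbase⟩
    rw [curveIdeal, Ideal.span_le]
    rintro _ (⟨⟨t, i, j⟩, rfl⟩ | ⟨t, rfl⟩)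
    · have h12 : (minor t 1 2 : Loc O k g) ∈ Q' := hfQ' (t, 1)
      have h01 : (minor t 0 1 : Loc O k g) ∈ Q' := hfQ' (t, 2)
      have h02 : (minor t 0 2 : Loc O k g) ∈ Q' := by
        refine (hQ'.mem_or_mem (x := Yc t 1) ?_).resolve_left fun h' => (hloc t).2.1 (hQ'P h')
        rw [show Yc t 1 * minor t 0 2 = Yc t 0 * minor t 1 2 + Yc t 2 * (minor t 0 1 : Loc O k g) by
          simp only [minor]; ring]
        exact add_mem (Q'.mul_mem_left _ h12) (Q'.mul_mem_left _ h01)
      have hneg : ∀ a b, (minor t a b : Loc O k g) ∈ Q' → (minor t b a : Loc O k g) ∈ Q' :=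
        fun a b h' => by
          have : (minor t b a : Loc O k g) = -minor t a b := by simp only [minor]; ring
          rw [this]; exact neg_mem h'
      have hself : ∀ a, (minor t a a : Loc O k g) ∈ Q' := fun a => by simp [minor]
      show (minor t i j : Loc O k g) ∈ Q'
      fin_cases i <;> fin_cases j
      exacts [hself 0, h01, h02, hneg _ _ h01, hself 1, h12, hneg _ _ h02, hneg _ _ h12, hself 2]
    · exact hfQ' (t, 0)
  refine ⟨P, hPp, (hQ0.le_of h2 hδ0 hδ hcurve).trans hQ'P, hplane, hCm,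
    fun t ht => ⟨2, (hloc t).2.2.2 ht⟩, fun x hx => ?_⟩
  have := (hPb x).1 hx
  exact this

end FLTAgent.ModLift.Patch
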