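import Fermat.Agent.Lowering.P5.Tower
import Mathlib.Algebra.Polynomial.Bivariate

/-!
# Independence of the eigenlines of the planes

A point of the plane at one prime is determined by the line fixed by inertia, a root of a quartic
in the parameters. The fields generated by one root of each quartic over independent parameters
are all isomorphic.
-/

set_option autoImplicit false
set_option linter.style.haveILetI false
set_option linter.deprecated false

noncomputable section

open Polynomial

namespace FLTAgent.ModLift.Patch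

open FLTAgent.Lowering.P5 (Reduction Gen genU splitFirst splitFirst_X_zero splitFirst_X_succ
  splitFirst_injective irreducible_map_of_prime)

universe v

section Defs

variable {A B : Type*} [CommRing A] [CommRing B]

/-- The quartic satisfied by the eigenline, scaled by the last parameter. -/
def quartic (η : A) (u : Fin 3 → A) : A[X] :=
  X ^ 4 - (C (2 * η) * X ^ 3 - C (u 1 * u 2) * X ^ 2 + C (u 2 ^ 3) * X -
    C (u 2 ^ 3 * (u 0 + η)))

theorem quartic_monic (η : A) (u : Fin 3 → A) : (quartic η u).Monic := by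
  refine monic_X_pow_sub ?_
  refine lt_of_le_of_lt (b := (3 : WithBot ℕ)) ?_ (by norm_num)
  compute_degree

theorem map_quartic (f : A →+* B) (η : A) (u : Fin 3 → A) :
    (quartic η u).map f = quartic (f η) fun i => f (u i) := by
  simp [quartic, Polynomial.map_sub, Polynomial.map_add, Polynomial.map_mul, Polynomial.map_pow,
    map_ofNat]

theorem eval₂_quartic (f : A →+* B) (c : B) (η : A) (u : Fin 3 → A) :
    (quartic η u).eval₂ f c = c ^ 4 - (2 * f η * c ^ 3 - f (u 1) * f (u 2) * c ^ 2 +
      f (u 2) ^ 3 * c - f (u 2) ^ 3 * (f (u 0) + f η)) := by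
  simp [quartic, eval₂_sub, eval₂_add, eval₂_mul, eval₂_pow, map_ofNat]

theorem natDegree_quartic [Nontrivial A] (η : A) (u : Fin 3 → A) :
    (quartic η u).natDegree = 4 := by
  rw [quartic, natDegree_sub_eq_left_of_natDegree_lt]
  · simp
  · rw [natDegree_X_pow]
    refine lt_of_le_of_lt (b := 3) ?_ (by norm_num)
    compute_degree

end Defs

section Irreducible

variable {F : Type*} [Field F]

theorem irreducible_quartic (η : F) :
    Irreducible (quartic (MvPolynomial.C η : MvPolynomial (Fin 3) F)
      fun i => MvPolynomial.X i) := by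
  refine (quartic_monic _ _).irreducible_of_irreducible_map
    (MvPolynomial.eval₂Hom (Polynomial.C : F →+* F[X]) ![Polynomial.X, 0, 1]) _ ?_
  rw [map_quartic, ← MulEquiv.irreducible_iff (Bivariate.swap (R := F)).toMulEquiv]
  show Irreducible (Bivariate.swap (R := F) _)
  rw [show Bivariate.swap (R := F) (quartic
      (MvPolynomial.eval₂Hom (Polynomial.C : F →+* F[X]) ![Polynomial.X, 0, 1] (MvPolynomial.C η))
      fun i => MvPolynomial.eval₂Hom (Polynomial.C : F →+* F[X]) ![Polynomial.X, 0, 1]
        (MvPolynomial.X i)) =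
      X + C (X ^ 4 - C (2 * η) * X ^ 3 - X + C η : F[X]) by
    simp only [quartic, MvPolynomial.eval₂Hom_C, MvPolynomial.eval₂Hom_X', Matrix.cons_val_zero,
      Matrix.cons_val_one, Matrix.cons_val, map_zero, map_one, map_sub, map_add, map_mul, map_pow,
      map_ofNat, Bivariate.swap_X, Bivariate.swap_Y, Bivariate.swap_C_C]
    ring]
  have h : (X ^ 4 - C (2 * η) * X ^ 3 - X + C η : F[X]) =
      -(-(X ^ 4 - C (2 * η) * X ^ 3 - X + C η)) := (neg_neg _).symm
  rw [h, map_neg, ← sub_eq_add_neg]
  exact irreducible_X_sub_C _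

/-- The quartic with generic parameter is irreducible over the field of rational functions. -/
theorem irreducible_quartic_fractionRing (η : F) :
    Irreducible (quartic (algebraMap (MvPolynomial (Fin 3) F)
        (FractionRing (MvPolynomial (Fin 3) F)) (MvPolynomial.C η)) fun i : Fin 3 =>
      algebraMap (MvPolynomial (Fin 3) F)
        (FractionRing (MvPolynomial (Fin 3) F)) (MvPolynomial.X i)) := by
  rw [← map_quartic (algebraMap (MvPolynomial (Fin 3) F) (FractionRing (MvPolynomial (Fin 3) F)))]
  exact (quartic_monic _ _).irreducible_iff_irreducible_map_fraction_map.1 (irreducible_quartic η)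

end Irreducible

section Step

variable (L : Type v) [Field L]

/-- The generic quartic with a constant. -/
abbrev genQ (η : L) : (Gen L)[X] := quartic (algebraMap L (Gen L) η) (genU L)

/-- The field generated by a root of the generic quartic. -/
abbrev NextQ (η : L) : Type v := AdjoinRoot (genQ L η)

variable {L} {k : ℕ}

variable {B : Type v} [CommRing B] {w : B} (T : Reduction B w L (Fin (k + 1) × Fin 3))
  {ηb : B} {η : L} (hη : T.red ηb = MvPolynomial.C η)
  {u : Fin 3 → B} (hu : ∀ i, T.red (u i) = MvPolynomial.X (0, i))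

/-- The reduction after adjoining a root of the first quartic. -/
def stepRedQ : AdjoinRoot (quartic ηb u) →+* MvPolynomial (Fin k × Fin 3) (NextQ L η) :=
  AdjoinRoot.lift
    ((MvPolynomial.map (algebraMap (Gen L) (NextQ L η))).comp (splitFirst.comp T.red))
    (MvPolynomial.C (AdjoinRoot.root (genQ L η))) (by
      have hh : ((MvPolynomial.map (algebraMap (Gen L) (NextQ L η))).comp
          (splitFirst.comp T.red)) ηb =
            MvPolynomial.C (AdjoinRoot.of (genQ L η) (algebraMap L (Gen L) η)) := by
        simp [hη, splitFirst, AdjoinRoot.algebraMap_eq]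
      have hi : ∀ i, ((MvPolynomial.map (algebraMap (Gen L) (NextQ L η))).comp
          (splitFirst.comp T.red)) (u i) = MvPolynomial.C (AdjoinRoot.of (genQ L η) (genU L i)) :=
        fun i => by simp [hu, AdjoinRoot.algebraMap_eq]
      have h := congrArg (MvPolynomial.C (σ := Fin k × Fin 3))
        (AdjoinRoot.eval₂_root (genQ L η))
      rw [eval₂_quartic] at h
      simp only [map_sub, map_add, map_mul, map_pow, map_ofNat, map_zero] at h
      rw [eval₂_quartic, hh, hi, hi, hi]
      exact h)

theorem stepRedQ_of (b : B) : stepRedQ T hη hu (AdjoinRoot.of _ b) =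
    MvPolynomial.map (algebraMap (Gen L) (NextQ L η)) (splitFirst (T.red b)) := by
  simp [stepRedQ, AdjoinRoot.lift_of]

theorem dvd_mk_iff [Nontrivial B] (f : B[X]) (x : B) (hf : f.degree < (quartic ηb u).degree) :
    AdjoinRoot.of (quartic ηb u) x ∣ AdjoinRoot.mk (quartic ηb u) f ↔ ∀ i, x ∣ f.coeff i := by
  constructor
  · rintro ⟨g, hg⟩ i
    obtain ⟨g', rfl⟩ := AdjoinRoot.mk_surjective g
    refine ⟨(g' %ₘ quartic ηb u).coeff i, ?_⟩
    have h1 : AdjoinRoot.mk (quartic ηb u) f = AdjoinRoot.mk (quartic ηb u) (C x * g') := by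
      rw [hg, map_mul, AdjoinRoot.mk_C]
    have h2 := congrArg (AdjoinRoot.modByMonicHom (quartic_monic ηb u)) h1
    rw [AdjoinRoot.modByMonicHom_mk, AdjoinRoot.modByMonicHom_mk,
      (modByMonic_eq_self_iff (quartic_monic ηb u)).2 hf, ← smul_eq_C_mul, smul_modByMonic] at h2
    rw [h2, coeff_smul, smul_eq_mul]
  · intro h
    choose g hg using h
    rw [← AdjoinRoot.mk_C]
    refine map_dvd _ ((C_dvd_iff_dvd_coeff _ _).2 fun i => ⟨g i, hg i⟩)

include hu hη in
/-- The reduction of the ring with a root of the first quartic adjoined. -/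
theorem exists_step [Fact (Irreducible (genQ L η))] (hw : T.red w = 0) :
    ∃ T' : Reduction (AdjoinRoot (quartic ηb u)) (AdjoinRoot.of (quartic ηb u) w) (NextQ L η) (Fin k × Fin 3),
      ∀ b, T'.red (AdjoinRoot.of _ b) =
        MvPolynomial.map (algebraMap (Gen L) (NextQ L η)) (splitFirst (T.red b)) := by
  have : IsDomain B := T.isDomain
  have hgen : (genQ L η).Monic := quartic_monic _ _
  have hrep : ∀ b : AdjoinRoot (quartic ηb u), ∃ f : B[X],
      f.degree < (quartic ηb u).degree ∧ AdjoinRoot.mk _ f = b := by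
    intro b
    obtain ⟨f, rfl⟩ := AdjoinRoot.mk_surjective b
    refine ⟨f %ₘ quartic ηb u, degree_modByMonic_lt _ (quartic_monic ηb u), ?_⟩
    have := AdjoinRoot.mk_leftInverse (quartic_monic ηb u) (AdjoinRoot.mk _ f)
    rwa [AdjoinRoot.modByMonicHom_mk] at this
  refine ⟨⟨stepRedQ T hη hu, fun b => ?_, fun b hb => ?_, fun b hb => ?_⟩, fun b => stepRedQ_of T hη hu b⟩
  · obtain ⟨f, hf, rfl⟩ := hrep b
    have hnd : f.natDegree < 4 := by
      by_cases h0 : f = 0
      · simp [h0]
      · have := natDegree_lt_natDegree h0 hf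
        rwa [natDegree_quartic] at this
    rw [dvd_mk_iff f w hf]
    constructor
    · intro h0 i
      rw [stepRedQ, AdjoinRoot.lift_mk, eval₂_eq_sum_range' _ hnd] at h0
      by_cases hi : i < 4
      swap
      · rw [coeff_eq_zero_of_natDegree_lt (by omega)]; exact dvd_zero _
      rw [← T.ker, ← splitFirst_injective.eq_iff' (map_zero _)]
      ext e
      rw [MvPolynomial.coeff_zero]
      have he := congrArg (MvPolynomial.coeff e) h0
      rw [MvPolynomial.coeff_sum, MvPolynomial.coeff_zero] at he
      have hterm : ∀ (j : ℕ) (P : MvPolynomial (Fin k × Fin 3) (Gen L)),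
          MvPolynomial.coeff e (MvPolynomial.map (algebraMap (Gen L) (NextQ L η)) P *
            MvPolynomial.C (AdjoinRoot.root (genQ L η)) ^ j) =
          algebraMap (Gen L) (NextQ L η) (MvPolynomial.coeff e P) *
            AdjoinRoot.root (genQ L η) ^ j := by
        intro j P
        rw [← map_pow, mul_comm, MvPolynomial.coeff_C_mul, MvPolynomial.coeff_map, mul_comm]
      simp only [RingHom.coe_comp, Function.comp_apply, hterm] at he
      set c : ℕ → Gen L := fun j => MvPolynomial.coeff e (splitFirst (T.red (f.coeff j)))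
      set g : (Gen L)[X] := ∑ j ∈ Finset.range 4, C (c j) * X ^ j with hg
      have hg0 : AdjoinRoot.mk (genQ L η) g = 0 := by
        simpa [hg, c, map_sum, AdjoinRoot.algebraMap_eq] using he
      have hgd : g.degree < (genQ L η).degree := by
        rw [degree_eq_natDegree hgen.ne_zero, natDegree_quartic]
        exact degree_sum_fin_lt (fun j : Fin 4 => c j) |>.trans_le' (le_of_eq (by
          rw [hg, Finset.sum_range]))
      have hgz : g = 0 := by
        by_contra hne
        exact AdjoinRoot.mk_ne_zero_of_degree_lt hgen hne hgd hg0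
      have := congrArg (fun q : (Gen L)[X] => q.coeff i) hgz
      simpa [hg, coeff_C_mul, coeff_X_pow, Finset.sum_ite_eq, hi] using this
    · intro h
      rw [stepRedQ, AdjoinRoot.lift_mk, eval₂_eq_sum_range]
      refine Finset.sum_eq_zero fun j _ => ?_
      obtain ⟨g, hg⟩ := h j
      simp [hg, hw]
  · obtain ⟨f, hf, rfl⟩ := hrep b
    have : f = 0 := by
      ext i
      rw [coeff_zero]
      exact T.sep _ fun n => (dvd_mk_iff f _ hf).1 (by rw [map_pow]; exact hb n) i
    rw [this, map_zero]
  · obtain ⟨f, hf, rfl⟩ := hrep b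
    rw [← AdjoinRoot.mk_C, ← map_mul] at hb
    have h2 := congrArg (AdjoinRoot.modByMonicHom (quartic_monic ηb u)) hb
    rw [AdjoinRoot.modByMonicHom_mk, map_zero, ← smul_eq_C_mul, smul_modByMonic,
      (modByMonic_eq_self_iff (quartic_monic ηb u)).2 hf] at h2
    have : f = 0 := by
      ext i
      rw [coeff_zero]
      refine T.nzd _ ?_
      have := congrArg (fun q : B[X] => q.coeff i) h2
      simpa using this
    rw [this, map_zero]

end Step

theorem irreducible_map_of_prime {B : Type*} [CommRing B] [IsDomain B] {P : B[X]} (hP : P.Monic)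
    (hp : Prime P) : Irreducible (P.map (algebraMap B (FractionRing B))) := by
  set f := algebraMap B (FractionRing B)
  have hf : Function.Injective f := IsFractionRing.injective _ _
  have hdeg : (P.map f).natDegree = P.natDegree := natDegree_map_eq_of_injective hf P
  have hpos : 0 < P.natDegree := by
    rcases Nat.eq_zero_or_pos P.natDegree with h | h
    · exact absurd (hP.natDegree_eq_zero.1 h ▸ isUnit_one) hp.not_isUnit
    · exact h
  refine ⟨fun hu => ?_, fun g₁ g₂ hg => ?_⟩
  · have := natDegree_eq_zero_of_isUnit hu; omega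
  have hne : P.map f ≠ 0 := (hP.map f).ne_zero
  have hg1 : g₁ ≠ 0 := fun h => hne (by rw [hg, h, zero_mul])
  have hg2 : g₂ ≠ 0 := fun h => hne (by rw [hg, h, mul_zero])
  obtain ⟨b₁, hb₁⟩ := IsLocalization.integerNormalization_map_to_map (nonZeroDivisors B) g₁
  obtain ⟨b₂, hb₂⟩ := IsLocalization.integerNormalization_map_to_map (nonZeroDivisors B) g₂
  set G₁ := IsLocalization.integerNormalization (nonZeroDivisors B) g₁
  set G₂ := IsLocalization.integerNormalization (nonZeroDivisors B) g₂
  have heq : G₁ * G₂ = C ((b₁ : B) * b₂) * P := by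
    refine map_injective f hf ?_
    rw [Polynomial.map_mul, Polynomial.map_mul, Polynomial.map_C, hb₁, hb₂, hg, map_mul]
    simp only [Algebra.smul_def, Polynomial.algebraMap_eq, map_mul,
      IsScalarTower.algebraMap_apply B (FractionRing B) (FractionRing B)[X]]
    ring
  have key : ∀ (g : (FractionRing B)[X]) (b : nonZeroDivisors B) (G : B[X]), g ≠ 0 →
      G.map f = (b : B) • g → P ∣ G → P.natDegree ≤ g.natDegree := by
    intro g b G hg0 hG hd
    have hb : (b : B) • g ≠ 0 := by
      rw [Algebra.smul_def]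
      refine mul_ne_zero ?_ hg0
      rw [IsScalarTower.algebraMap_apply B (FractionRing B) (FractionRing B)[X],
        Polynomial.algebraMap_eq, C_ne_zero]
      exact IsFractionRing.to_map_ne_zero_of_mem_nonZeroDivisors b.2
    have hG0 : G ≠ 0 := fun h => hb (by rw [← hG, h, Polynomial.map_zero])
    have := natDegree_le_of_dvd hd hG0
    rw [← natDegree_map_eq_of_injective hf G, hG] at this
    exact this.trans (natDegree_smul_le _ _)
  have hsum : g₁.natDegree + g₂.natDegree = P.natDegree := by
    rw [← natDegree_mul hg1 hg2, ← hg, hdeg]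
  rcases hp.dvd_or_dvd ⟨C ((b₁ : B) * b₂), by rw [heq, mul_comm]⟩ with h | h
  · refine Or.inr (isUnit_iff_degree_eq_zero.2 ?_)
    have := key g₁ b₁ G₁ hg1 hb₁ h
    rw [degree_eq_natDegree hg2]
    exact_mod_cast (by omega : g₂.natDegree = 0)
  · refine Or.inl (isUnit_iff_degree_eq_zero.2 ?_)
    have := key g₂ b₂ G₂ hg2 hb₂ h
    rw [degree_eq_natDegree hg1]
    exact_mod_cast (by omega : g₁.natDegree = 0)

/-- Roots of quartics with independent parameters satisfy the same polynomial relations over the
base in every field. -/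
theorem eval₂_eq_zero_of_quartics :
    ∀ (k : ℕ) {B : Type v} [CommRing B] {w : B} {L : Type v} [Field L]
      (T : Reduction B w L (Fin k × Fin 3)) (ηB : Fin k → B) (ηL : Fin k → L)
      (_ : ∀ t, T.red (ηB t) = MvPolynomial.C (ηL t)) (uB : Fin k → Fin 3 → B)
      (_ : ∀ t i, T.red (uB t i) = MvPolynomial.X (t, i))
      {K : Type v} [Field K] (i₀ : K →+* FractionRing B) (ηK : Fin k → K)
      (_ : ∀ t, i₀ (ηK t) = algebraMap B (FractionRing B) (ηB t)) (uK : Fin k → Fin 3 → K)
      (_ : ∀ t i, i₀ (uK t i) = algebraMap B (FractionRing B) (uB t i))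
      (G : MvPolynomial (Fin k) K)
      {Ω : Type v} [Field Ω] (ψ : K →+* Ω) (c : Fin k → Ω)
      (_ : ∀ t, (quartic (ηK t) (uK t)).eval₂ ψ (c t) = 0)
      {Ω' : Type v} [Field Ω'] (ψ' : K →+* Ω') (c' : Fin k → Ω')
      (_ : ∀ t, (quartic (ηK t) (uK t)).eval₂ ψ' (c' t) = 0)
      (_ : MvPolynomial.eval₂ ψ c G = 0), MvPolynomial.eval₂ ψ' c' G = 0 := by
  intro k
  induction k with
  | zero =>
    intro B _ w L _ T _ _ _ uB _ K _ i₀ _ _ uK _ G Ω _ ψ c _ Ω' _ ψ' c' _ h
    obtain ⟨a, rfl⟩ := MvPolynomial.C_surjective (Fin 0) G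
    rw [MvPolynomial.eval₂_C] at h ⊢
    rw [(map_eq_zero ψ).1 h, map_zero]
  | succ k ih =>
    intro B _ w L _ T ηB ηL hηB uB huB K _ i₀ ηK hηK uK huK G Ω _ ψ c hc Ω' _ ψ' c' hc' h
    have : IsDomain B := T.isDomain
    have hw : T.red w = 0 := (T.ker w).2 dvd_rfl
    haveI : Fact (Irreducible (genQ L (ηL 0))) := ⟨by
      have h := irreducible_quartic_fractionRing (ηL 0)
      rwa [← MvPolynomial.algebraMap_eq,
        ← IsScalarTower.algebraMap_apply L (MvPolynomial (Fin 3) L) (Gen L)] at h⟩
    obtain ⟨T', hT'⟩ := exists_step T (hηB 0) (huB 0) hw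
    haveI : IsDomain (AdjoinRoot (quartic (ηB 0) (uB 0))) := T'.isDomain
    -- irreducibility over `K`
    have hprime : Prime (quartic (ηB 0) (uB 0)) := by
      rw [← Ideal.span_singleton_prime (quartic_monic _ _).ne_zero]
      exact (Ideal.Quotient.isDomain_iff_prime _).1 ‹IsDomain (AdjoinRoot (quartic (ηB 0) (uB 0)))›
    have hmap : (quartic (ηK 0) (uK 0)).map i₀ =
        (quartic (ηB 0) (uB 0)).map (algebraMap B (FractionRing B)) := by
      simp only [map_quartic, huK, hηK]
    have hirrK : Irreducible (quartic (ηK 0) (uK 0)) :=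
      (quartic_monic _ _).irreducible_of_irreducible_map i₀ _
        (hmap ▸ irreducible_map_of_prime (quartic_monic _ _) hprime)
    haveI : Fact (Irreducible (quartic (ηK 0) (uK 0))) := ⟨hirrK⟩
    -- the next stage
    have hinj : Function.Injective ((algebraMap (AdjoinRoot (quartic (ηB 0) (uB 0)))
        (FractionRing (AdjoinRoot (quartic (ηB 0) (uB 0))))).comp (AdjoinRoot.of _)) :=
      (IsFractionRing.injective (AdjoinRoot (quartic (ηB 0) (uB 0))) _).comp (AdjoinRoot.of.injective_of_degree_ne_zero (by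
        rw [degree_eq_natDegree (quartic_monic _ _).ne_zero, natDegree_quartic]; norm_num))
    let e : FractionRing B →+* FractionRing (AdjoinRoot (quartic (ηB 0) (uB 0))) :=
      IsFractionRing.lift (K := FractionRing B) hinj
    have hroot : (quartic (ηK 0) (uK 0)).eval₂ (e.comp i₀) (algebraMap (AdjoinRoot (quartic (ηB 0) (uB 0)))
        (FractionRing (AdjoinRoot (quartic (ηB 0) (uB 0)))) (AdjoinRoot.root _)) = 0 := by
      rw [← eval₂_map, hmap, eval₂_map]
      rw [show e.comp (algebraMap B (FractionRing B)) = (algebraMap (AdjoinRoot (quartic (ηB 0) (uB 0)))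
          (FractionRing (AdjoinRoot (quartic (ηB 0) (uB 0))))).comp (AdjoinRoot.of (quartic (ηB 0) (uB 0))) from
        RingHom.ext fun b => by simp [e, IsFractionRing.lift_algebraMap]]
      rw [← hom_eval₂, AdjoinRoot.eval₂_root, map_zero]
    let i₁ := AdjoinRoot.lift (e.comp i₀) _ hroot
    let uK' : Fin k → Fin 3 → AdjoinRoot (quartic (ηK 0) (uK 0)) :=
      fun t i => AdjoinRoot.of _ (uK t.succ i)
    let G' : MvPolynomial (Fin k) (AdjoinRoot (quartic (ηK 0) (uK 0))) :=
      MvPolynomial.eval₂ (MvPolynomial.C.comp (AdjoinRoot.of _))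
        (Fin.cases (MvPolynomial.C (AdjoinRoot.root _)) MvPolynomial.X) G
    have hG : ∀ {Z : Type v} [Field Z] (φ : K →+* Z) (d : Fin (k + 1) → Z)
        (hd : (quartic (ηK 0) (uK 0)).eval₂ φ (d 0) = 0),
        MvPolynomial.eval₂ (AdjoinRoot.lift φ (d 0) hd) (fun t => d t.succ) G' =
          MvPolynomial.eval₂ φ d G := by
      intro Z _ φ d hd
      rw [← MvPolynomial.coe_eval₂Hom, ← MvPolynomial.coe_eval₂Hom]
      show ((MvPolynomial.eval₂Hom (AdjoinRoot.lift φ (d 0) hd) fun t => d t.succ).comp
        (MvPolynomial.eval₂Hom (MvPolynomial.C.comp (AdjoinRoot.of (quartic (ηK 0) (uK 0))))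
          (Fin.cases (MvPolynomial.C (AdjoinRoot.root _)) MvPolynomial.X))) G = _
      congr 1
      refine MvPolynomial.ringHom_ext (fun a => by simp) (fun t => ?_)
      induction t using Fin.cases <;> simp
    let ηK' : Fin k → AdjoinRoot (quartic (ηK 0) (uK 0)) := fun t => AdjoinRoot.of _ (ηK t.succ)
    have hsx : ∀ {Z : Type v} [Field Z] (φ : K →+* Z) (d : Fin (k + 1) → Z)
        (hd : ∀ t, (quartic (ηK t) (uK t)).eval₂ φ (d t) = 0) (t : Fin k),
        (quartic (ηK' t) (uK' t)).eval₂ (AdjoinRoot.lift φ (d 0) (hd 0)) (d t.succ) = 0 := by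
      intro Z _ φ d hd t
      have e : quartic (ηK' t) (uK' t) = (quartic (ηK t.succ) (uK t.succ)).map (AdjoinRoot.of _) :=
        (map_quartic _ _ _).symm
      rw [e, eval₂_map, show (AdjoinRoot.lift φ (d 0) (hd 0)).comp
        (AdjoinRoot.of (quartic (ηK 0) (uK 0))) = φ from RingHom.ext fun a => AdjoinRoot.lift_of (hd 0)]
      exact hd t.succ
    rw [← hG ψ c (hc 0)] at h
    rw [← hG ψ' c' (hc' 0)]
    refine ih T' (fun t => AdjoinRoot.of _ (ηB t.succ))
      (fun t => algebraMap (Gen L) (NextQ L (ηL 0)) (algebraMap L (Gen L) (ηL t.succ))) (fun t => ?_)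
      (fun t i => AdjoinRoot.of _ (uB t.succ i)) (fun t i => ?_) i₁ ηK' (fun t => ?_) uK'
      (fun t i => ?_) G' _ _ (hsx ψ c hc) _ _ (hsx ψ' c' hc') h
    · rw [hT', hηB]
      simp [splitFirst]
    · rw [hT', huB, splitFirst_X_succ, MvPolynomial.map_X]
    · simp [i₁, ηK', e, hηK, IsFractionRing.lift_algebraMap]
    · simp [i₁, uK', e, huK, IsFractionRing.lift_algebraMap]

end FLTAgent.ModLift.Patch
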